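/-
S30 (finite-level route), leaves (3)+(4): the `p`-adic cyclotomic character with values in a
complete discrete valuation ring `R` of residue characteristic `p`, and complex conjugation.

`exists_char`: there is a character `χ : Gal(ℚ̄/ℚ) →* Rˣ` such that
* if `g` raises every `pⁿ`-th root of unity to the `m`-th power, then `χ g ≡ m` modulo `pⁿ R`;
* `χ (Frob_ℓ) = ℓ` for every Frobenius element at a prime `ℓ ≠ p`;
* `χ` is trivial on the inertia groups at the primes `q ≠ p`;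
* there is an involution `c` (complex conjugation) with `χ c = -1`.

Construction: Mathlib's `cyclotomicCharacter` into `ℤ_[p]ˣ` composed with the canonical ring
homomorphism `ℤ_[p] →+* R` (which exists because `R` is adically complete and `p` lies in the
maximal ideal).
-/
import Mathlib
import Fermat.Prelude.Def_GaloisRep_ComplexConjugation
import Fermat.Agent.S31.CycPow

set_option autoImplicit false

noncomputable section

namespace Fermat.Agent.S30.CycAdic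

local notation "Qb" => AlgebraicClosure ℚ

open Fermat.Agent.S31

/-! ### The ring homomorphism `ℤ_[p] →+* R` -/

section PadicHom

variable (p : ℕ) {R : Type*} [CommRing R] (I : Ideal R)

theorem natCast_pow_quot_eq_zero (hp : (p : R) ∈ I) (n : ℕ) :
    ((p ^ n : ℕ) : R ⧸ I ^ n) = 0 := by
  have h : ((p ^ n : ℕ) : R) ∈ I ^ n := by
    rw [Nat.cast_pow]
    exact Ideal.pow_mem_pow hp n
  have h2 := Ideal.Quotient.eq_zero_iff_mem.mpr h
  rwa [map_natCast] at h2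

/-- The ring homomorphism `ℤ/pⁿ → R/Iⁿ` when `p ∈ I`. -/
def zmodHom (hp : (p : R) ∈ I) (n : ℕ) : ZMod (p ^ n) →+* R ⧸ I ^ n :=
  ZMod.castHom (ringChar.dvd (natCast_pow_quot_eq_zero p I hp n)) (R ⧸ I ^ n)

/-- The canonical ring homomorphism `ℤ_[p] → R` for an `I`-adically complete ring `R` with
`p ∈ I`. -/
def padicHom [Fact p.Prime] [IsAdicComplete I R] (hp : (p : R) ∈ I) : ℤ_[p] →+* R :=
  IsAdicComplete.liftRingHom I (fun n => (zmodHom p I hp n).comp (PadicInt.toZModPow n))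
    (by
      intro m n hle
      rw [← PadicInt.zmod_cast_comp_toZModPow m n hle, ← RingHom.comp_assoc, ← RingHom.comp_assoc]
      congr 1
      exact Subsingleton.elim _ _)

end PadicHom

/-! ### Complex conjugation on roots of unity -/

theorem complexConjugation_apply_of_pow_eq_one {M : ℕ} (hM : M ≠ 0) (ζ : Qb) (hζ : ζ ^ M = 1) :
    complexConjugation ζ = ζ⁻¹ := by
  apply complexEmbedding.toRingHom.injective
  show complexEmbedding (complexConjugation ζ) = complexEmbedding ζ⁻¹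
  rw [complexEmbedding_complexConjugation, map_inv₀]
  have h1 : (complexEmbedding ζ) ^ M = 1 := by rw [← map_pow, hζ, map_one]
  have h2 : ‖complexEmbedding ζ‖ = 1 := Complex.norm_eq_one_of_pow_eq_one h1 hM
  have h3 : complexEmbedding ζ ≠ 0 := by
    intro h0
    rw [h0, norm_zero] at h2
    exact zero_ne_one h2
  apply eq_inv_of_mul_eq_one_left
  rw [mul_comm, Complex.mul_conj, Complex.normSq_eq_norm_sq, h2]
  norm_num

/-! ### The `p`-adic cyclotomic character of `Gal(ℚ̄/ℚ)` with values in `ℤ_[p]` -/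

section Padic

variable (p : ℕ) [Fact p.Prime]

theorem hasEnough (i : ℕ) : HasEnoughRootsOfUnity Qb (p ^ i) :=
  have : NeZero (p ^ i) := ⟨pow_ne_zero i (Fact.out : p.Prime).ne_zero⟩
  inferInstance

attribute [local instance] hasEnough

/-- The `p`-adic cyclotomic character of `Gal(ℚ̄/ℚ)`. -/
def chiP : (Qb ≃ₐ[ℚ] Qb) →* ℤ_[p]ˣ :=
  (cyclotomicCharacter Qb p).comp (MulSemiringAction.toRingAut (Qb ≃ₐ[ℚ] Qb) Qb)

theorem chiP_spec (g : Qb ≃ₐ[ℚ] Qb) (n : ℕ) (ζ : Qb) (hζ : ζ ^ (p ^ n) = 1) :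
    g ζ = ζ ^ (PadicInt.toZModPow n ((chiP p g : ℤ_[p]ˣ) : ℤ_[p])).val :=
  cyclotomicCharacter.spec p (MulSemiringAction.toRingAut (Qb ≃ₐ[ℚ] Qb) Qb g) ζ hζ

/-- If `g` raises every `pⁿ`-th root of unity to the `m`-th power, then `χ_p(g) ≡ m` mod `pⁿ`. -/
theorem toZModPow_chiP (g : Qb ≃ₐ[ℚ] Qb) (n m : ℕ)
    (h : ∀ ζ : Qb, ζ ^ (p ^ n) = 1 → g ζ = ζ ^ m) :
    PadicInt.toZModPow n ((chiP p g : ℤ_[p]ˣ) : ℤ_[p]) = (m : ZMod (p ^ n)) := by
  have hM0 : p ^ n ≠ 0 := pow_ne_zero n (Fact.out : p.Prime).ne_zero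
  have : NeZero (p ^ n) := ⟨hM0⟩
  obtain ⟨ζ₀, hζ₀⟩ := HasEnoughRootsOfUnity.exists_primitiveRoot Qb (p ^ n)
  have h1 := chiP_spec p g n ζ₀ hζ₀.pow_eq_one
  rw [h ζ₀ hζ₀.pow_eq_one] at h1
  have h2 : m ≡ (PadicInt.toZModPow n ((chiP p g : ℤ_[p]ˣ) : ℤ_[p])).val [MOD p ^ n] := by
    have := (hζ₀.isOfFinOrder hM0).pow_eq_pow_iff_modEq.mp h1
    rwa [← hζ₀.eq_orderOf] at this
  have h3 := (ZMod.natCast_eq_natCast_iff _ _ _).mpr h2
  rw [ZMod.natCast_zmod_val] at h3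
  exact h3.symm

theorem chiP_sub_mem (g : Qb ≃ₐ[ℚ] Qb) (n m : ℕ)
    (h : ∀ ζ : Qb, ζ ^ (p ^ n) = 1 → g ζ = ζ ^ m) :
    ((chiP p g : ℤ_[p]ˣ) : ℤ_[p]) - (m : ℤ_[p]) ∈ Ideal.span {(p : ℤ_[p]) ^ n} := by
  rw [← PadicInt.ker_toZModPow, RingHom.mem_ker, map_sub, map_natCast, toZModPow_chiP p g n m h,
    sub_self]

theorem chiP_eq_natCast (g : Qb ≃ₐ[ℚ] Qb) (m : ℕ)
    (h : ∀ (n : ℕ) (ζ : Qb), ζ ^ (p ^ n) = 1 → g ζ = ζ ^ m) :
    ((chiP p g : ℤ_[p]ˣ) : ℤ_[p]) = (m : ℤ_[p]) := by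
  apply PadicInt.ext_of_toZModPow.mp
  intro n
  rw [toZModPow_chiP p g n m (h n), map_natCast]

theorem chiP_complexConjugation :
    ((chiP p complexConjugation : ℤ_[p]ˣ) : ℤ_[p]) = -1 := by
  apply PadicInt.ext_of_toZModPow.mp
  intro n
  have hM0 : p ^ n ≠ 0 := pow_ne_zero n (Fact.out : p.Prime).ne_zero
  have h : ∀ ζ : Qb, ζ ^ (p ^ n) = 1 → complexConjugation ζ = ζ ^ (p ^ n - 1) := by
    intro ζ hζ
    rw [complexConjugation_apply_of_pow_eq_one hM0 ζ hζ]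
    symm
    apply eq_inv_of_mul_eq_one_left
    rw [← pow_succ, Nat.sub_add_cancel (Nat.pos_of_ne_zero hM0), hζ]
  rw [toZModPow_chiP p complexConjugation n (p ^ n - 1) h, map_neg, map_one,
    Nat.cast_sub (Nat.pos_of_ne_zero hM0), ZMod.natCast_self, Nat.cast_one, zero_sub]

end Padic

/-! ### The character with values in `R` -/

/-- **The `p`-adic cyclotomic character with values in a complete DVR of residue characteristic
`p`**, with its values on Frobenius elements, inertia groups and complex conjugation. -/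
theorem exists_char (p : ℕ) [Fact p.Prime] (R : Type) [CommRing R] [IsDomain R]
    [IsDiscreteValuationRing R] [IsAdicComplete (IsLocalRing.maximalIdeal R) R] [CharZero R]
    (hp : (p : R) ∈ IsLocalRing.maximalIdeal R) :
    ∃ χ : (Qb ≃ₐ[ℚ] Qb) →* Rˣ,
      (∀ (g : Qb ≃ₐ[ℚ] Qb) (n m : ℕ), (∀ ζ : Qb, ζ ^ (p ^ n) = 1 → g ζ = ζ ^ m) →
        ((χ g : R) - (m : R)) ∈ Ideal.span {(p : R) ^ n}) ∧
      (∀ ℓ : ℕ, ℓ.Prime → ℓ ≠ p → ∀ A : ValuationSubring Qb, A.LiesOverPrime ℓ →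
        ∀ σ : Qb ≃ₐ[ℚ] Qb, A.IsFrobeniusAt σ ℓ → ((χ σ : Rˣ) : R) = (ℓ : R)) ∧
      (∀ q : ℕ, q.Prime → q ≠ p → ∀ B : ValuationSubring Qb, B.LiesOverPrime q →
        ∀ τ ∈ B.inertiaSubgroupIn ℚ, χ τ = 1) ∧
      ∃ c : Qb ≃ₐ[ℚ] Qb, c * c = 1 ∧ ((χ c : Rˣ) : R) = -1 := by
  have hpP : p.Prime := Fact.out
  set φ : ℤ_[p] →+* R := padicHom p (IsLocalRing.maximalIdeal R) hp
  refine ⟨(Units.map φ.toMonoidHom).comp (chiP p), ?_, ?_, ?_, complexConjugation,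
    complexConjugation_mul_self, ?_⟩
  · intro g n m h
    obtain ⟨w, hw⟩ := Ideal.mem_span_singleton'.mp (chiP_sub_mem p g n m h)
    have h1 : (((Units.map φ.toMonoidHom).comp (chiP p) g : Rˣ) : R) - (m : R)
        = φ (((chiP p g : ℤ_[p]ˣ) : ℤ_[p]) - (m : ℤ_[p])) := by
      rw [map_sub, map_natCast]
      rfl
    rw [h1, ← hw, map_mul, map_pow, map_natCast]
    exact Ideal.mem_span_singleton'.mpr ⟨φ w, rfl⟩
  · intro ℓ hℓ hℓp A hA σ hσ
    have h1 : ((chiP p σ : ℤ_[p]ˣ) : ℤ_[p]) = (ℓ : ℤ_[p]) :=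
      chiP_eq_natCast p σ ℓ
        (fun n ζ hζ => CycPow.frob_apply A hpP hℓ hℓp hA hσ n ζ hζ)
    show φ ((chiP p σ : ℤ_[p]ˣ) : ℤ_[p]) = (ℓ : R)
    rw [h1, map_natCast]
  · intro q hq hqp B hB τ hτ
    have h1 : ((chiP p τ : ℤ_[p]ˣ) : ℤ_[p]) = ((1 : ℕ) : ℤ_[p]) :=
      chiP_eq_natCast p τ 1
        (fun n ζ hζ => by rw [pow_one]; exact CycPow.inertia_apply B hpP hq hqp hB hτ n ζ hζ)
    apply Units.ext
    show φ ((chiP p τ : ℤ_[p]ˣ) : ℤ_[p]) = ((1 : Rˣ) : R)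
    rw [h1, Nat.cast_one, map_one, Units.val_one]
  · show φ ((chiP p complexConjugation : ℤ_[p]ˣ) : ℤ_[p]) = -1
    rw [chiP_complexConjugation, map_neg, map_one]

end Fermat.Agent.S30.CycAdic
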