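/-
S30 (wave 9c), leaf (LAT): from a matrix-valued representation with bounded denominators to a
`GaloisRepAdic`.

`R` a discrete valuation ring with fraction field `K`, `ρ : G_ℚ →* M₂(K)` with `δ · ρ(g) ∈ M₂(R)`
for a fixed `δ ≠ 0`.  Then `M := ∑_g ρ(g) R² ⊆ δ⁻¹ R²` is a `G_ℚ`-stable lattice: a free
`R`-module of rank two on which `ρ(g)` has the same characteristic polynomial.  If moreover, for
every `n`, the entries of `δ · (ρ(σ) - 1)` lie in `𝔪ⁿ` for all `σ` fixing a suitable number
field, the action on `M` is adically continuous.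
-/
import Mathlib
import Fermat.Prelude.Def_GaloisRep_Adic

set_option autoImplicit false

noncomputable section

open Polynomial

namespace Fermat.Agent.S30.Lat

local notation "Qb" => AlgebraicClosure ℚ

section Lattice

variable {G : Type*} [Group G]
variable (R : Type) [CommRing R] [IsDomain R] [IsDiscreteValuationRing R]
variable (K : Type) [Field K] [Algebra R K] [IsFractionRing R K]

/-- `u ↦ δ⁻¹ u`, from `R²` to `K²`. -/
def phi (δ : R) : (Fin 2 → R) →ₗ[R] (Fin 2 → K) where
  toFun u := fun i => (algebraMap R K δ)⁻¹ * algebraMap R K (u i)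
  map_add' u v := by
    funext i
    simp only [Pi.add_apply, map_add, mul_add]
  map_smul' c u := by
    funext i
    simp only [Pi.smul_apply, smul_eq_mul, map_mul, RingHom.id_apply, Algebra.smul_def]
    ring

variable {R K}

/-- The action of a matrix on `K²`, as an `R`-linear map. -/
def act (A : Matrix (Fin 2) (Fin 2) K) : (Fin 2 → K) →ₗ[R] (Fin 2 → K) :=
  (Matrix.toLin' A).restrictScalars R

theorem act_apply (A : Matrix (Fin 2) (Fin 2) K) (w : Fin 2 → K) :
    act (R := R) A w = A.mulVec w := rfl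

/-- The lattice `∑_g ρ(g) R²`. -/
def lat (ρ : G →* Matrix (Fin 2) (Fin 2) K) : Submodule R (Fin 2 → K) :=
  Submodule.span R (Set.range fun p : G × (Fin 2 → R) =>
    (ρ p.1).mulVec (fun i => algebraMap R K (p.2 i)))

theorem single_mem_lat (ρ : G →* Matrix (Fin 2) (Fin 2) K) (i : Fin 2) :
    (Pi.single i 1 : Fin 2 → K) ∈ lat (R := R) ρ := by
  refine Submodule.subset_span ⟨(1, Pi.single i 1), ?_⟩
  show (ρ 1).mulVec (fun k => algebraMap R K ((Pi.single i 1 : Fin 2 → R) k)) = Pi.single i 1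
  rw [map_one, Matrix.one_mulVec]
  funext k
  by_cases hk : k = i
  · subst hk
    simp
  · simp [hk]

theorem act_mem_lat (ρ : G →* Matrix (Fin 2) (Fin 2) K) (h : G) :
    ∀ w ∈ lat (R := R) ρ, act (R := R) (ρ h) w ∈ lat (R := R) ρ := by
  intro w hw
  have hle : Submodule.map (act (R := R) (ρ h)) (lat (R := R) ρ) ≤ lat (R := R) ρ := by
    rw [lat, Submodule.map_span_le]
    rintro _ ⟨p, rfl⟩
    refine Submodule.subset_span ⟨(h * p.1, p.2), ?_⟩
    show (ρ (h * p.1)).mulVec _ = act (R := R) (ρ h) ((ρ p.1).mulVec _)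
    rw [act_apply, Matrix.mulVec_mulVec, map_mul]
  exact hle (Submodule.mem_map_of_mem hw)

theorem lat_le_range (ρ : G →* Matrix (Fin 2) (Fin 2) K) (δ : R) (hδ : δ ≠ 0)
    (hint : ∀ g i j, ∃ r : R, algebraMap R K r = algebraMap R K δ * ρ g i j) :
    lat (R := R) ρ ≤ LinearMap.range (phi R K δ) := by
  have hδK : algebraMap R K δ ≠ 0 := by
    intro h0
    exact hδ ((IsFractionRing.injective R K) (by rw [h0, map_zero]))
  choose r hr using hint
  rw [lat, Submodule.span_le]
  rintro _ ⟨p, rfl⟩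
  refine ⟨fun i => ∑ j, r p.1 i j * p.2 j, ?_⟩
  funext i
  show (algebraMap R K δ)⁻¹ * algebraMap R K (∑ j, r p.1 i j * p.2 j)
    = (ρ p.1).mulVec (fun k => algebraMap R K (p.2 k)) i
  rw [map_sum, Matrix.mulVec, dotProduct, Finset.mul_sum]
  refine Finset.sum_congr rfl fun j _ => ?_
  rw [map_mul, hr]
  field_simp

/-- The representation on the lattice. -/
def latRep (ρ : G →* Matrix (Fin 2) (Fin 2) K) : G →* Module.End R (lat (R := R) ρ) where
  toFun g := (act (R := R) (ρ g)).restrict (act_mem_lat ρ g)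
  map_one' := by
    refine LinearMap.ext fun w => Subtype.ext ?_
    show (ρ 1).mulVec (w : Fin 2 → K) = w
    rw [map_one, Matrix.one_mulVec]
  map_mul' g h := by
    refine LinearMap.ext fun w => Subtype.ext ?_
    show (ρ (g * h)).mulVec (w : Fin 2 → K) = (ρ g).mulVec ((ρ h).mulVec (w : Fin 2 → K))
    rw [Matrix.mulVec_mulVec, map_mul]

theorem coe_latRep (ρ : G →* Matrix (Fin 2) (Fin 2) K) (g : G) (w : lat (R := R) ρ) :
    ((latRep (R := R) ρ g w : lat (R := R) ρ) : Fin 2 → K) = (ρ g).mulVec (w : Fin 2 → K) := rfl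

theorem finite_lat (ρ : G →* Matrix (Fin 2) (Fin 2) K) (δ : R) (hδ : δ ≠ 0)
    (hint : ∀ g i j, ∃ r : R, algebraMap R K r = algebraMap R K δ * ρ g i j) :
    Module.Finite R (lat (R := R) ρ) := by
  have h1 : IsNoetherian R (LinearMap.range (phi R K δ)) :=
    isNoetherian_of_isNoetherianRing_of_finite R _
  have h2 : IsNoetherian R (lat (R := R) ρ) := isNoetherian_of_le (lat_le_range ρ δ hδ hint)
  infer_instance

theorem free_lat (ρ : G →* Matrix (Fin 2) (Fin 2) K) (δ : R) (hδ : δ ≠ 0)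
    (hint : ∀ g i j, ∃ r : R, algebraMap R K r = algebraMap R K δ * ρ g i j) :
    Module.Free R (lat (R := R) ρ) := by
  have := finite_lat ρ δ hδ hint
  exact Module.free_of_finite_type_torsion_free'

/-- An `R`-basis of the lattice is a `K`-basis of `K²`. -/
theorem exists_basis (ρ : G →* Matrix (Fin 2) (Fin 2) K) {ι : Type*} [Fintype ι]
    (b : Module.Basis ι R (lat (R := R) ρ)) :
    ∃ B : Module.Basis ι K (Fin 2 → K), ∀ i, B i = ((b i : lat (R := R) ρ) : Fin 2 → K) := by
  have hli : LinearIndependent R (fun i => ((b i : lat (R := R) ρ) : Fin 2 → K)) :=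
    b.linearIndependent.map' (lat (R := R) ρ).subtype (Submodule.ker_subtype _)
  have hliK : LinearIndependent K (fun i => ((b i : lat (R := R) ρ) : Fin 2 → K)) :=
    (LinearIndependent.iff_fractionRing R K).mp hli
  have hsp : ⊤ ≤ Submodule.span K
      (Set.range fun i => ((b i : lat (R := R) ρ) : Fin 2 → K)) := by
    have hle : lat (R := R) ρ ≤ (Submodule.span K
        (Set.range fun i => ((b i : lat (R := R) ρ) : Fin 2 → K))).restrictScalars R := by
      intro w hw
      have h1 := b.sum_repr ⟨w, hw⟩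
      have h2 : w = ∑ i, (b.repr ⟨w, hw⟩ i) • ((b i : lat (R := R) ρ) : Fin 2 → K) := by
        have h3 : ((∑ i, (b.repr ⟨w, hw⟩ i) • b i : lat (R := R) ρ) : Fin 2 → K) = w :=
          congrArg Subtype.val h1
        rw [Submodule.coe_sum] at h3
        exact h3.symm.trans (Finset.sum_congr rfl fun i _ => Submodule.coe_smul _ _)
      rw [h2]
      refine Submodule.sum_mem _ fun i _ => ?_
      refine Submodule.smul_mem _ _ ?_
      exact Submodule.subset_span ⟨i, rfl⟩
    rw [← (Pi.basisFun K (Fin 2)).span_eq, Submodule.span_le]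
    rintro _ ⟨i, rfl⟩
    have h4 := hle (single_mem_lat (R := R) ρ i)
    simpa using h4
  exact ⟨Module.Basis.mk hliK hsp, fun i => Module.Basis.mk_apply hliK hsp i⟩

theorem finrank_lat (ρ : G →* Matrix (Fin 2) (Fin 2) K) (δ : R) (hδ : δ ≠ 0)
    (hint : ∀ g i j, ∃ r : R, algebraMap R K r = algebraMap R K δ * ρ g i j) :
    Module.finrank R (lat (R := R) ρ) = 2 := by
  have := finite_lat ρ δ hδ hint
  have := free_lat ρ δ hδ hint
  let b := Module.Free.chooseBasis R (lat (R := R) ρ)
  obtain ⟨B, -⟩ := exists_basis ρ b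
  rw [Module.finrank_eq_card_basis b, ← Module.finrank_eq_card_basis B, Module.finrank_fin_fun]

theorem charpoly_latRep (ρ : G →* Matrix (Fin 2) (Fin 2) K) (δ : R) (hδ : δ ≠ 0)
    (hint : ∀ g i j, ∃ r : R, algebraMap R K r = algebraMap R K δ * ρ g i j) (g : G) :
    haveI := finite_lat ρ δ hδ hint
    haveI := free_lat ρ δ hδ hint
    (LinearMap.charpoly (latRep (R := R) ρ g)).map (algebraMap R K) = (ρ g).charpoly := by
  classical
  haveI := finite_lat ρ δ hδ hint
  haveI := free_lat ρ δ hδ hint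
  let b := Module.Free.chooseBasis R (lat (R := R) ρ)
  obtain ⟨B, hB⟩ := exists_basis ρ b
  have hmat : LinearMap.toMatrix B B (Matrix.toLin' (ρ g))
      = (LinearMap.toMatrix b b (latRep (R := R) ρ g)).map (algebraMap R K) := by
    ext i j
    rw [LinearMap.toMatrix_apply, Matrix.map_apply, LinearMap.toMatrix_apply]
    have h1 := b.sum_repr (latRep (R := R) ρ g (b j))
    have h2 : Matrix.toLin' (ρ g) (B j)
        = ∑ k, algebraMap R K (b.repr (latRep (R := R) ρ g (b j)) k) • B k := by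
      rw [hB j, Matrix.toLin'_apply, ← coe_latRep (R := R) ρ g (b j)]
      conv_lhs => rw [← h1]
      rw [Submodule.coe_sum]
      refine Finset.sum_congr rfl fun k _ => ?_
      rw [Submodule.coe_smul, hB k, algebraMap_smul]
    rw [h2, B.repr_sum_self]
  have h3 : (Matrix.toLin' (ρ g)).charpoly = (ρ g).charpoly := by
    rw [← LinearMap.charpoly_toMatrix (Matrix.toLin' (ρ g)) (Pi.basisFun K (Fin 2)),
      LinearMap.toMatrix_eq_toMatrix', LinearMap.toMatrix'_toLin']
  rw [← h3, ← LinearMap.charpoly_toMatrix (Matrix.toLin' (ρ g)) B, hmat, Matrix.charpoly_map,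
    LinearMap.charpoly_toMatrix]

/-- The continuity estimate: if the entries of `ρ(σ) - 1` are `δ · s` with `s` in an ideal `I`,
then `ρ(σ) - 1` maps the lattice into `I • M`. -/
theorem latRep_sub_mem (ρ : G →* Matrix (Fin 2) (Fin 2) K) (δ : R) (hδ : δ ≠ 0)
    (hint : ∀ g i j, ∃ r : R, algebraMap R K r = algebraMap R K δ * ρ g i j)
    (I : Ideal R) (σ : G)
    (hσ : ∀ i j, ∃ s ∈ I, algebraMap R K δ * algebraMap R K s = (ρ σ - 1) i j)
    (v : lat (R := R) ρ) :
    latRep (R := R) ρ σ v - v ∈ I • (⊤ : Submodule R (lat (R := R) ρ)) := by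
  have hδK : algebraMap R K δ ≠ 0 := by
    intro h0
    exact hδ ((IsFractionRing.injective R K) (by rw [h0, map_zero]))
  choose s hsI hs using hσ
  obtain ⟨u, hu⟩ := lat_le_range ρ δ hδ hint v.2
  have hu' : ∀ j, (v : Fin 2 → K) j = (algebraMap R K δ)⁻¹ * algebraMap R K (u j) :=
    fun j => (congrFun hu j).symm
  let e : Fin 2 → lat (R := R) ρ := fun i => ⟨Pi.single i 1, single_mem_lat (R := R) ρ i⟩
  have key : latRep (R := R) ρ σ v - v = ∑ i, (∑ j, s i j * u j) • e i := by
    apply Subtype.ext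
    funext k
    rw [Submodule.coe_sub, coe_latRep, Submodule.coe_sum, Finset.sum_apply]
    have h1 : ∀ i, (((∑ j, s i j * u j) • e i : lat (R := R) ρ) : Fin 2 → K) k
        = if i = k then algebraMap R K (∑ j, s i j * u j) else 0 := by
      intro i
      rw [Submodule.coe_smul]
      show ((∑ j, s i j * u j) • (Pi.single i 1 : Fin 2 → K)) k = _
      rw [Pi.smul_apply, Pi.single_apply, Algebra.smul_def]
      by_cases hik : k = i
      · rw [if_pos hik, if_pos hik.symm, mul_one]
      · rw [if_neg hik, if_neg (fun h => hik h.symm), mul_zero]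
    rw [Finset.sum_congr rfl fun i _ => h1 i, Finset.sum_ite_eq' Finset.univ k, if_pos (Finset.mem_univ k)]
    have h2 : ((ρ σ).mulVec (v : Fin 2 → K) - (v : Fin 2 → K)) k
        = ∑ j, (ρ σ - 1) k j * (v : Fin 2 → K) j := by
      have h3 : (ρ σ).mulVec (v : Fin 2 → K) - (v : Fin 2 → K)
          = (ρ σ - 1).mulVec (v : Fin 2 → K) := by
        rw [Matrix.sub_mulVec, Matrix.one_mulVec]
      rw [h3, Matrix.mulVec, dotProduct]
    rw [h2, map_sum]
    refine Finset.sum_congr rfl fun j _ => ?_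
    rw [← hs k j, hu' j, map_mul]
    field_simp
  rw [key]
  refine Submodule.sum_mem _ fun i _ => ?_
  refine Submodule.smul_mem_smul ?_ Submodule.mem_top
  exact Ideal.sum_mem _ fun j _ => Ideal.mul_mem_right _ _ (hsI i j)

end Lattice

/-- **The lattice leaf of S30.** -/
theorem exists_galoisRepAdic (R : Type) [CommRing R] [IsDomain R] [IsDiscreteValuationRing R]
    (K : Type) [Field K] [Algebra R K] [IsFractionRing R K]
    (ρ : (Qb ≃ₐ[ℚ] Qb) →* Matrix (Fin 2) (Fin 2) K) (δ : R) (hδ : δ ≠ 0)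
    (hint : ∀ g i j, ∃ r : R, algebraMap R K r = algebraMap R K δ * ρ g i j)
    (hcont : ∀ n : ℕ, ∃ L : IntermediateField ℚ Qb, FiniteDimensional ℚ L ∧
      ∀ σ : Qb ≃ₐ[ℚ] Qb, (∀ x ∈ L, σ x = x) → ∀ i j,
        ∃ r ∈ IsLocalRing.maximalIdeal R ^ n,
          algebraMap R K r = algebraMap R K δ * (ρ σ - 1) i j) :
    ∃ ρ' : GaloisRepAdic R,
      (∀ (g : Qb ≃ₐ[ℚ] Qb) (t d : R), (ρ g).trace = algebraMap R K t →
        (ρ g).det = algebraMap R K d →
        LinearMap.charpoly (ρ'.ρ g) = X ^ 2 - C t * X + C d) ∧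
      ∀ σ, ρ σ = 1 → ρ'.ρ σ = 1 := by
  have hδK : algebraMap R K δ ≠ 0 := by
    intro h0
    exact hδ ((IsFractionRing.injective R K) (by rw [h0, map_zero]))
  haveI := finite_lat ρ δ hδ hint
  haveI := free_lat ρ δ hδ hint
  obtain ⟨ϖ, hϖ⟩ := IsDiscreteValuationRing.exists_irreducible R
  obtain ⟨a, ha⟩ := IsDiscreteValuationRing.associated_pow_irreducible (pow_ne_zero 2 hδ) hϖ
  obtain ⟨w, hw⟩ := ha
  have hmax : ∀ k : ℕ, IsLocalRing.maximalIdeal R ^ k = Ideal.span {ϖ ^ k} := fun k => by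
    rw [hϖ.maximalIdeal_eq, Ideal.span_singleton_pow]
  refine ⟨{ V := lat (R := R) ρ
            finrank_eq := finrank_lat ρ δ hδ hint
            ρ := latRep (R := R) ρ
            isAdicContinuous := ?_ }, ?_, ?_⟩
  · intro n
    obtain ⟨L, hL, hLσ⟩ := hcont (n + a)
    refine ⟨L, hL, fun σ hσ v => ?_⟩
    refine latRep_sub_mem ρ δ hδ hint _ σ (fun i j => ?_) v
    obtain ⟨r, hr, hrρ⟩ := hLσ σ hσ i j
    rw [hmax (n + a), Ideal.mem_span_singleton'] at hr
    obtain ⟨c, rfl⟩ := hr
    refine ⟨(w : R) * (ϖ ^ n * c), ?_, ?_⟩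
    · rw [hmax n]
      exact Ideal.mul_mem_left _ _ (Ideal.mul_mem_right _ _ (Ideal.mem_span_singleton_self _))
    · have h1 : algebraMap R K (c * ϖ ^ (n + a))
          = algebraMap R K δ * (algebraMap R K δ * algebraMap R K ((w : R) * (ϖ ^ n * c))) := by
        rw [← map_mul, ← map_mul]
        congr 1
        rw [pow_add, ← hw]
        ring
      rw [h1] at hrρ
      exact mul_left_cancel₀ hδK hrρ
  · intro g t d ht hd
    have h1 := charpoly_latRep ρ δ hδ hint g
    have h2 : (ρ g).charpoly = (X ^ 2 - C t * X + C d : R[X]).map (algebraMap R K) := by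
      rw [Matrix.charpoly_fin_two, ht, hd]
      simp
    rw [h2] at h1
    exact Polynomial.map_injective _ (IsFractionRing.injective R K) h1
  · intro σ hσ
    refine LinearMap.ext fun v => Subtype.ext ?_
    show (ρ σ).mulVec (v : Fin 2 → K) = v
    rw [hσ, Matrix.one_mulVec]

end Fermat.Agent.S30.Lat
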