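/-
S30 (wave 10), glue (helper1): the frozen S30 conclusion from

* a character `ε : G_ℚ →* Rˣ` sending Frobenius elements at `ℓ ≠ p` to `ℓ`
  (`S30/CycAdic.lean`),
* a function `t : G_ℚ → R` with `t (Frob_ℓ) = χ (T_ℓ)`, inertia invariance and level-`n`
  congruences (the trace function, `S30/Trace.lean`),
* a matrix representation `ρ : G_ℚ →* M₂(K)` (`K = Frac R`) with trace `t`, determinant `ε`,
  bounded denominators and the ideal clause (Wiles' construction, `S30/Wiles.lean`),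

through `Lat.exists_galoisRepAdic`, with `𝒪'' := 𝒪'` and the identity algebra.

Everything here is glue: no mathematics beyond unfolding.  `result_of_rep` takes the data
explicitly (weakest shapes: one-sided inertia/congruence clauses, congruences in `𝔪 ^ n`);
`result_of` takes the four leaves as `Prop`s in the shapes posted on the board.
-/
import Fermat.Statements.S30
import Fermat.Agent.S30.Lat

set_option autoImplicit false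
set_option linter.unusedVariables false
set_option linter.overlappingInstances false

open Polynomial CuspForm

namespace Fermat.Agent.S30.Glue

local notation "Qb" => AlgebraicClosure ℚ

/-! ### Small conversions between the shapes of "congruent modulo `p ^ n`" -/

/-- `p ^ n ∣ x` implies `x ∈ 𝔪 ^ n` when `p ∈ 𝔪`. -/
theorem mem_pow_of_dvd {R : Type*} [CommRing R] [IsLocalRing R] {π : R}
    (hπ : π ∈ IsLocalRing.maximalIdeal R) {n : ℕ} {x : R} (h : π ^ n ∣ x) :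
    x ∈ IsLocalRing.maximalIdeal R ^ n := by
  obtain ⟨s, rfl⟩ := h
  exact Ideal.mul_mem_right _ _ (Ideal.pow_mem_pow hπ n)

/-- `x ∈ span {p ^ n}` implies `x ∈ 𝔪 ^ n` when `p ∈ 𝔪`. -/
theorem mem_pow_of_mem_span {R : Type*} [CommRing R] [IsLocalRing R] {π : R}
    (hπ : π ∈ IsLocalRing.maximalIdeal R) {n : ℕ} {x : R} (h : x ∈ Ideal.span {π ^ n}) :
    x ∈ IsLocalRing.maximalIdeal R ^ n :=
  mem_pow_of_dvd hπ (Ideal.mem_span_singleton.mp h)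

/-! ### The glue theorem, data given explicitly -/

/-- **S30 from the representation over `K = Frac R`.**  All hypotheses are exactly what the
leaves `CycAdic` (`ε`, `hεF`), `Trace` (`t`, `htF`, `htI`, `htC`) and `Wiles`
(`δ`, `ρ`, `hδ`, `hint`, `htr`, `hdet`, `hI`) export. -/
theorem result_of_rep (p : ℕ) (N : ℕ) [NeZero N] (S : Finset ℕ) (hpS : p ∈ S)
    (R : Type) [CommRing R] [IsDomain R] [IsDiscreteValuationRing R]
    [IsAdicComplete (IsLocalRing.maximalIdeal R) R] [Finite (IsLocalRing.ResidueField R)]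
    [CharZero R]
    (χ : CuspForm.heckeAlgebra N 2 (↑S : Set ℕ) →+* R)
    (ε : (Qb ≃ₐ[ℚ] Qb) →* Rˣ)
    (hεF : ∀ ℓ : ℕ, ℓ.Prime → ℓ ≠ p → ∀ A : ValuationSubring Qb, A.LiesOverPrime ℓ →
      ∀ σ : Qb ≃ₐ[ℚ] Qb, A.IsFrobeniusAt σ ℓ → ((ε σ : Rˣ) : R) = (ℓ : R))
    (t : (Qb ≃ₐ[ℚ] Qb) → R)
    (htF : ∀ (ℓ : ℕ) (hℓ : ℓ.Prime) (hℓN : ¬ ℓ ∣ N) (hℓS : ℓ ∉ (↑S : Set ℕ))
      (A : ValuationSubring Qb), A.LiesOverPrime ℓ → ∀ σ : Qb ≃ₐ[ℚ] Qb, A.IsFrobeniusAt σ ℓ →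
        t σ = χ (CuspForm.heckeAlgebra.T hℓ hℓN hℓS))
    (htI : ∀ q : ℕ, q.Prime → ¬ q ∣ N → q ≠ p → ∀ P : ValuationSubring Qb, P.LiesOverPrime q →
      ∀ τ ∈ P.inertiaSubgroupIn ℚ, ∀ g, t (g * τ) = t g)
    (htC : ∀ n : ℕ, ∃ L : IntermediateField ℚ Qb, FiniteDimensional ℚ L ∧
      ∀ σ : Qb ≃ₐ[ℚ] Qb, (∀ x ∈ L, σ x = x) →
        ∀ g, t (g * σ) - t g ∈ IsLocalRing.maximalIdeal R ^ n)
    (K : Type) [Field K] [Algebra R K] [IsFractionRing R K]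
    (δ : R) (ρ : (Qb ≃ₐ[ℚ] Qb) →* Matrix (Fin 2) (Fin 2) K) (hδ : δ ≠ 0)
    (hint : ∀ g i j, ∃ r : R, algebraMap R K δ * ρ g i j = algebraMap R K r)
    (htr : ∀ g, (ρ g).trace = algebraMap R K (t g))
    (hdet : ∀ g, (ρ g).det = algebraMap R K ((ε g : Rˣ) : R))
    (hI : ∀ (I : Ideal R) (σ : Qb ≃ₐ[ℚ] Qb), (∀ g, t (g * σ) - t g ∈ I) →
      ∀ i j, ∃ r ∈ I, algebraMap R K δ * (ρ σ - 1) i j = algebraMap R K r) :
    ∃ (𝒪'' : Type) (_ : CommRing 𝒪'') (_ : IsDomain 𝒪'') (_ : IsDiscreteValuationRing 𝒪'')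
      (_ : IsAdicComplete (IsLocalRing.maximalIdeal 𝒪'') 𝒪'')
      (_ : Finite (IsLocalRing.ResidueField 𝒪'')) (_ : CharZero 𝒪'')
      (_ : Algebra R 𝒪'') (_ : Module.Finite R 𝒪'') (_ : IsLocalHom (algebraMap R 𝒪'')),
      Function.Injective (algebraMap R 𝒪'') ∧
      ∃ ρ : GaloisRepAdic 𝒪'',
        (∀ (ℓ : ℕ) (hℓ : ℓ.Prime) (hℓN : ¬ ℓ ∣ N) (hℓS : ℓ ∉ (↑S : Set ℕ)),
          ∀ A : ValuationSubring (AlgebraicClosure ℚ), A.LiesOverPrime ℓ →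
            ∀ σ : AlgebraicClosure ℚ ≃ₐ[ℚ] AlgebraicClosure ℚ, A.IsFrobeniusAt σ ℓ →
              LinearMap.charpoly (ρ.ρ σ) =
                X ^ 2 - C (algebraMap R 𝒪'' (χ (CuspForm.heckeAlgebra.T hℓ hℓN hℓS))) * X
                  + C ((ℓ : 𝒪''))) ∧
        (∀ q : ℕ, q.Prime → ¬ q ∣ N → q ≠ p → ρ.IsUnramifiedAt q) := by
  have hcont : ∀ n : ℕ, ∃ L : IntermediateField ℚ Qb, FiniteDimensional ℚ L ∧
      ∀ σ : Qb ≃ₐ[ℚ] Qb, (∀ x ∈ L, σ x = x) →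
        ∀ i j, ∃ r ∈ IsLocalRing.maximalIdeal R ^ n,
          algebraMap R K r = algebraMap R K δ * (ρ σ - 1) i j := by
    intro n
    obtain ⟨L, hL, h⟩ := htC n
    refine ⟨L, hL, fun σ hσ i j => ?_⟩
    obtain ⟨r, hr, hr'⟩ := hI (IsLocalRing.maximalIdeal R ^ n) σ (h σ hσ) i j
    exact ⟨r, hr, hr'.symm⟩
  obtain ⟨ρ', hchar, hone⟩ := Fermat.Agent.S30.Lat.exists_galoisRepAdic R K ρ δ hδ
    (fun g i j => (hint g i j).imp fun r hr => hr.symm) hcont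
  refine ⟨R, inferInstance, inferInstance, inferInstance, inferInstance, inferInstance,
    inferInstance, Algebra.id R, inferInstance, inferInstance, Function.injective_id, ρ', ?_, ?_⟩
  · intro ℓ hℓ hℓN hℓS A hA σ hσ
    have hℓp : ℓ ≠ p := fun h => hℓS (by rw [h]; exact Finset.mem_coe.mpr hpS)
    have h := hchar σ (χ (CuspForm.heckeAlgebra.T hℓ hℓN hℓS)) (ℓ : R)
      (by rw [htr, htF ℓ hℓ hℓN hℓS A hA σ hσ]) (by rw [hdet, hεF ℓ hℓ hℓp A hA σ hσ])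
    rw [h]
    rfl
  · intro q hq hqN hqp P hP τ hτ
    apply hone
    have hδ' : algebraMap R K δ ≠ 0 := by
      rwa [Ne, IsFractionRing.to_map_eq_zero_iff]
    have h0 : ρ τ - 1 = 0 := by
      ext i j
      obtain ⟨r, hr, hr'⟩ := hI ⊥ τ (fun g => by
        rw [htI q hq hqN hqp P hP τ hτ g, sub_self]; exact Ideal.zero_mem _) i j
      rw [Ideal.mem_bot.mp hr, map_zero] at hr'
      exact (mul_eq_zero.mp hr').resolve_left hδ'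
    exact sub_eq_zero.mp h0

/-! ### The four leaves as `Prop`s (shapes as posted on the board) -/

/-- The `p`-adic cyclotomic character (literal of `CycAdic.exists_char`). -/
def CycStmt : Prop :=
  ∀ (p : ℕ) [Fact p.Prime] (R : Type) [CommRing R] [IsDomain R] [IsDiscreteValuationRing R]
    [IsAdicComplete (IsLocalRing.maximalIdeal R) R] [CharZero R]
    (hp : (p : R) ∈ IsLocalRing.maximalIdeal R),
    ∃ χ : (Qb ≃ₐ[ℚ] Qb) →* Rˣ,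
      (∀ (g : Qb ≃ₐ[ℚ] Qb) (n m : ℕ), (∀ ζ : Qb, ζ ^ (p ^ n) = 1 → g ζ = ζ ^ m) →
        ((χ g : R) - (m : R)) ∈ Ideal.span {(p : R) ^ n}) ∧
      (∀ ℓ : ℕ, ℓ.Prime → ℓ ≠ p → ∀ A : ValuationSubring Qb, A.LiesOverPrime ℓ →
        ∀ σ : Qb ≃ₐ[ℚ] Qb, A.IsFrobeniusAt σ ℓ → ((χ σ : Rˣ) : R) = (ℓ : R)) ∧
      (∀ q : ℕ, q.Prime → q ≠ p → ∀ B : ValuationSubring Qb, B.LiesOverPrime q →
        ∀ τ ∈ B.inertiaSubgroupIn ℚ, χ τ = 1) ∧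
      ∃ c : Qb ≃ₐ[ℚ] Qb, c * c = 1 ∧ ((χ c : Rˣ) : R) = -1

/-- The trace function attached to `χ` and a cyclotomic character `ε`. -/
def TraceStmt : Prop :=
  ∀ (p : ℕ) [Fact p.Prime] (N : ℕ) [NeZero N] (S : Finset ℕ) (hpS : p ∈ S)
    (hNS : ∀ q : ℕ, q.Prime → q ∣ N → q ∈ S)
    (R : Type) [CommRing R] [IsDomain R] [IsDiscreteValuationRing R]
    [IsAdicComplete (IsLocalRing.maximalIdeal R) R] [CharZero R]
    (hpR : (p : R) ∈ IsLocalRing.maximalIdeal R)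
    (χ : CuspForm.heckeAlgebra N 2 (↑S : Set ℕ) →+* R) (ε : (Qb ≃ₐ[ℚ] Qb) →* Rˣ)
    (hε1 : ∀ (g : Qb ≃ₐ[ℚ] Qb) (n m : ℕ), (∀ ζ : Qb, ζ ^ (p ^ n) = 1 → g ζ = ζ ^ m) →
      ((ε g : R) - (m : R)) ∈ Ideal.span {(p : R) ^ n})
    (hε2 : ∀ ℓ : ℕ, ℓ.Prime → ℓ ≠ p → ∀ A : ValuationSubring Qb, A.LiesOverPrime ℓ →
      ∀ σ : Qb ≃ₐ[ℚ] Qb, A.IsFrobeniusAt σ ℓ → ((ε σ : Rˣ) : R) = (ℓ : R))
    (hε3 : ∀ q : ℕ, q.Prime → q ≠ p → ∀ B : ValuationSubring Qb, B.LiesOverPrime q →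
      ∀ τ ∈ B.inertiaSubgroupIn ℚ, ε τ = 1),
    ∃ t : (Qb ≃ₐ[ℚ] Qb) → R, t 1 = 2 ∧
      (∀ g h, t (g * h) + (ε h : R) * t (g * h⁻¹) = t g * t h) ∧
      (∀ (ℓ : ℕ) (hℓ : ℓ.Prime) (hℓN : ¬ ℓ ∣ N) (hℓS : ℓ ∉ (↑S : Set ℕ))
        (A : ValuationSubring Qb), A.LiesOverPrime ℓ → ∀ σ : Qb ≃ₐ[ℚ] Qb, A.IsFrobeniusAt σ ℓ →
          t σ = χ (CuspForm.heckeAlgebra.T hℓ hℓN hℓS)) ∧
      (∀ q : ℕ, q.Prime → ¬ q ∣ N → q ≠ p → ∀ P : ValuationSubring Qb, P.LiesOverPrime q →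
        ∀ τ ∈ P.inertiaSubgroupIn ℚ, ∀ g, t (g * τ) = t g ∧ t (τ * g) = t g) ∧
      (∀ n : ℕ, ∃ L : IntermediateField ℚ Qb, FiniteDimensional ℚ L ∧
        ∀ σ : Qb ≃ₐ[ℚ] Qb, (∀ x ∈ L, σ x = x) →
          ∀ g, (p : R) ^ n ∣ t (g * σ) - t g ∧ (p : R) ^ n ∣ t (σ * g) - t g)

/-- Wiles' construction of a `2 × 2` representation from a pseudo-character with a
"complex conjugation" (literal (W)). -/
def WilesStmt : Prop :=
  ∀ (R : Type) [CommRing R] [IsDomain R] (K : Type) [Field K] [Algebra R K] [IsFractionRing R K]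
    (h2 : (2 : R) ≠ 0) (G : Type) [Group G] (t : G → R) (d : G →* Rˣ) (h1 : t 1 = 2)
    (hPC : ∀ g h, t (g * h) + (d h : R) * t (g * h⁻¹) = t g * t h)
    (c₀ : G) (hc : c₀ * c₀ = 1) (hd : ((d c₀ : Rˣ) : R) = -1),
    ∃ (δ : R) (ρ : G →* Matrix (Fin 2) (Fin 2) K), δ ≠ 0 ∧
      (∀ g i j, ∃ r : R, algebraMap R K δ * ρ g i j = algebraMap R K r) ∧
      (∀ g, (ρ g).trace = algebraMap R K (t g)) ∧
      (∀ g, (ρ g).det = algebraMap R K ((d g : Rˣ) : R)) ∧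
      ∀ (I : Ideal R) (σ : G), (∀ g, t (g * σ) - t g ∈ I) →
        ∀ i j, ∃ r ∈ I, algebraMap R K δ * (ρ σ - 1) i j = algebraMap R K r

/-- **S30 from the leaves** (`Lat` is imported), with `𝒪'' := 𝒪'`. -/
theorem result_of (hCyc : CycStmt) (hTrace : TraceStmt) (hWiles : WilesStmt) :
    ∀ (p : ℕ) [Fact p.Prime] (N : ℕ) [NeZero N] (S : Finset ℕ)
      (_hpS : p ∈ S) (_hNS : ∀ q : ℕ, q.Prime → q ∣ N → q ∈ S)
      (𝒪' : Type) [CommRing 𝒪'] [IsDomain 𝒪'] [IsDiscreteValuationRing 𝒪']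
      [IsAdicComplete (IsLocalRing.maximalIdeal 𝒪') 𝒪'] [Finite (IsLocalRing.ResidueField 𝒪')]
      [CharZero 𝒪'] (_hp𝒪' : (p : 𝒪') ∈ IsLocalRing.maximalIdeal 𝒪')
      (χ : CuspForm.heckeAlgebra N 2 (↑S : Set ℕ) →+* 𝒪'),
      ∃ (𝒪'' : Type) (_ : CommRing 𝒪'') (_ : IsDomain 𝒪'') (_ : IsDiscreteValuationRing 𝒪'')
        (_ : IsAdicComplete (IsLocalRing.maximalIdeal 𝒪'') 𝒪'')
        (_ : Finite (IsLocalRing.ResidueField 𝒪'')) (_ : CharZero 𝒪'')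
        (_ : Algebra 𝒪' 𝒪'') (_ : Module.Finite 𝒪' 𝒪'') (_ : IsLocalHom (algebraMap 𝒪' 𝒪'')),
      Function.Injective (algebraMap 𝒪' 𝒪'') ∧
      ∃ ρ : GaloisRepAdic 𝒪'',
        (∀ (ℓ : ℕ) (hℓ : ℓ.Prime) (hℓN : ¬ ℓ ∣ N) (hℓS : ℓ ∉ (↑S : Set ℕ)),
          ∀ A : ValuationSubring (AlgebraicClosure ℚ), A.LiesOverPrime ℓ →
            ∀ σ : AlgebraicClosure ℚ ≃ₐ[ℚ] AlgebraicClosure ℚ, A.IsFrobeniusAt σ ℓ →
              LinearMap.charpoly (ρ.ρ σ) =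
                X ^ 2 - C (algebraMap 𝒪' 𝒪'' (χ (CuspForm.heckeAlgebra.T hℓ hℓN hℓS))) * X
                  + C ((ℓ : 𝒪''))) ∧
        (∀ q : ℕ, q.Prime → ¬ q ∣ N → q ≠ p → ρ.IsUnramifiedAt q) := by
  intro p _ N _ S hpS hNS R _ _ _ _ _ _ hpR χ
  obtain ⟨ε, hε1, hε2, hε3, c, hcc, hεc⟩ := hCyc p R hpR
  obtain ⟨t, ht1, hPC, htF, htI, htC⟩ := hTrace p N S hpS hNS R hpR χ ε hε1 hε2 hε3
  obtain ⟨δ, ρ, hδ, hint, htr, hdet, hI⟩ :=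
    hWiles R (FractionRing R) two_ne_zero (Qb ≃ₐ[ℚ] Qb) t ε ht1 hPC c hcc hεc
  exact result_of_rep p N S hpS R χ ε hε2 t htF
    (fun q hq hqN hqp P hP τ hτ g => (htI q hq hqN hqp P hP τ hτ g).1)
    (fun n => by
      obtain ⟨L, hL, h⟩ := htC n
      exact ⟨L, hL, fun σ hσ g => mem_pow_of_dvd hpR (h σ hσ g).1⟩)
    (FractionRing R) δ ρ hδ hint htr hdet hI

end Fermat.Agent.S30.Glue
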