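/-
S30, leaf (5) EIGV / P4: the Hecke eigenvector of a character of the Hecke algebra.

For a ring homomorphism `χ` from the weight-2 Hecke algebra of level `N` (away from `S`) to a
field `K` there is a nonzero vector of `K ⊗ Λ` (`Λ = Hom_par(Γ₀(N), ℤ)`) on which the transfer
operators `T_ℓ`, `ℓ ∤ N`, `ℓ ∉ S`, act through `χ (T_ℓ)`; if `χ` takes values in a discrete
valuation ring `R`, there is such a vector in `R ⊗ Λ` with a unit coordinate.

Proof.  In a `ℤ`-basis of `Λ` (rank `n`), the period map (Eichler–Shimura, `S21`) has coordinates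
`π_j : S₂ → ℂ` with `∑_j (M_ℓ)_{ij} π_j = π_i ∘ T_ℓ`.  For any `n` rows `B` of the stacked system
`[M_ℓ - T_ℓ]` over the commutative Hecke algebra, `adj B * B = det B` gives `π_j ∘ det B = 0` for
all `j`, hence `det B = 0` (the period map is injective).  Applying `χ`, all `n × n` minors of
`[M_ℓ - χ (T_ℓ)]` vanish over `K`, so the system has a common nonzero zero.  No commutativity of
the transfer operators is used.
-/
import Fermat.Agent.S29.Eig
import Fermat.Agent.S29.EigRed
import Fermat.Prelude.Def_CuspForm_HeckeAlgebra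

set_option autoImplicit false

noncomputable section

open scoped TensorProduct MatrixGroups
open CongruenceSubgroup ModularCurve ModularCurve.Period Matrix
open Fermat.Agent.S29.Transfer (Λ trΛ)

namespace Fermat.Agent.S30.Eigen

/-- **Rank lemma.**  A family of linear forms in the variables `n` over a field, all of whose
`n × n` minors vanish, has a common nonzero zero. -/
theorem exists_common_zero_of_minors {k : Type*} [Field k] {n : Type*} [Fintype n] [DecidableEq n]
    {S : Type*} (rows : S → n → k)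
    (hdet : ∀ s : n → S, (Matrix.of fun i j => rows (s i) j).det = 0) :
    ∃ w : n → k, w ≠ 0 ∧ ∀ s, rows s ⬝ᵥ w = 0 := by
  classical
  have hWtop : Submodule.span k (Set.range rows) ≠ ⊤ := by
    intro htop
    obtain ⟨b, hbsub, hbspan, hbli⟩ := exists_linearIndependent k (Set.range rows)
    have hbtop : ⊤ ≤ Submodule.span k (Set.range ((↑) : b → n → k)) := by
      rw [Subtype.range_coe, hbspan, htop]
    let B : Module.Basis b k (n → k) := Module.Basis.mk hbli hbtop
    let e : n ≃ b := (Pi.basisFun k n).indexEquiv B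
    choose s hs using fun i : n => hbsub (e i).2
    have hli : LinearIndependent k (fun i : n => rows (s i)) := by
      have h1 : LinearIndependent k (fun i : n => ((e i : b) : n → k)) :=
        hbli.comp e e.injective
      have h2 : (fun i : n => rows (s i)) = fun i : n => ((e i : b) : n → k) :=
        funext fun i => hs i
      rw [h2]; exact h1
    have hunit : IsUnit (Matrix.of fun i j => rows (s i) j) :=
      Matrix.linearIndependent_rows_iff_isUnit.mp hli
    have hdet' := (Matrix.isUnit_iff_isUnit_det _).mp hunit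
    exact hdet'.ne_zero (hdet s)
  obtain ⟨f, hf, hWf⟩ := Submodule.exists_le_ker_of_lt_top _ (lt_top_iff_ne_top.mpr hWtop)
  refine ⟨fun j => f fun j' => if j = j' then 1 else 0, ?_, ?_⟩
  · intro hzero
    apply hf
    apply LinearMap.ext
    intro x
    rw [LinearMap.pi_apply_eq_sum_univ f x]
    simp only [LinearMap.zero_apply]
    apply Finset.sum_eq_zero
    intro j _
    rw [congrFun hzero j]
    simp
  · intro s
    have hmem : rows s ∈ LinearMap.ker f := hWf (Submodule.subset_span (Set.mem_range_self s))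
    rw [LinearMap.mem_ker, LinearMap.pi_apply_eq_sum_univ f (rows s)] at hmem
    simpa [dotProduct] using hmem

/-- **Adjugate trick.**  A commutative ring `A` acting on a module `W`; linear maps `π j` on `W`
and a square matrix `B` over `A` with `∑ j, π j (B i j • f) = 0` for all `i`, `f`.  Then
`π k (det B • f) = 0` for all `k`, `f`. -/
theorem apply_det_eq_zero {𝕜 W P A : Type*} [CommRing 𝕜] [AddCommGroup W] [Module 𝕜 W]
    [AddCommGroup P] [Module 𝕜 P] [CommRing A] (ρ : A →+* Module.End 𝕜 W)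
    {n : Type*} [Fintype n] [DecidableEq n] (π : n → W →ₗ[𝕜] P) (B : Matrix n n A)
    (h : ∀ i f, ∑ j, π j (ρ (B i j) f) = 0) (k : n) (f : W) : π k (ρ B.det f) = 0 := by
  have h1 : ∀ j, ρ ((B.adjugate * B) k j) f = ∑ i, ρ (B i j) (ρ (B.adjugate k i) f) := by
    intro j
    rw [Matrix.mul_apply, map_sum, LinearMap.sum_apply]
    refine Finset.sum_congr rfl fun i _ => ?_
    rw [mul_comm, map_mul]
    rfl
  have h2 : ∑ j, π j (ρ ((B.adjugate * B) k j) f) = 0 := by
    simp_rw [h1, map_sum]
    rw [Finset.sum_comm]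
    exact Finset.sum_eq_zero fun i _ => h i _
  rw [Matrix.adjugate_mul] at h2
  have h3 : ∀ j, π j (ρ ((B.det • (1 : Matrix n n A)) k j) f) =
      if k = j then π k (ρ B.det f) else 0 := by
    intro j
    by_cases hkj : k = j
    · subst hkj
      simp
    · simp [hkj]
  simp only [h3, Finset.sum_ite_eq, Finset.mem_univ, if_true] at h2
  exact h2


/-! ### The period vector -/

section Period

variable (N : ℕ) [NeZero N]

theorem exists_per (f : CuspForm (Gamma0 N) 2) :
    ∃ v : ℂ ⊗[ℤ] Λ N, S29.Eig.μ N v = periodMap N f :=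
  S29.Eig.exists_μ_eq (S21.PeriodMap.periodMap_mem_parabolicHoms N f)

/-- The period vector of a cusp form, in `ℂ ⊗ Λ`. -/
def per : CuspForm (Gamma0 N) 2 →ₗ[ℂ] ℂ ⊗[ℤ] Λ N where
  toFun f := (exists_per N f).choose
  map_add' f g := by
    apply S29.Eig.μ_injective N
    rw [map_add, (exists_per N f).choose_spec, (exists_per N g).choose_spec,
      (exists_per N (f + g)).choose_spec]
    exact (S21.PeriodMap.periodMapLin N).map_add f g
  map_smul' c f := by
    apply S29.Eig.μ_injective N
    rw [RingHom.id_apply, map_smul, (exists_per N f).choose_spec,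
      (exists_per N (c • f)).choose_spec]
    exact (S21.PeriodMap.periodMapLin N).map_smul c f

theorem μ_per (f : CuspForm (Gamma0 N) 2) : S29.Eig.μ N (per N f) = periodMap N f :=
  (exists_per N f).choose_spec

theorem per_injective : Function.Injective (per N) := by
  rw [injective_iff_map_eq_zero]
  intro f hf
  by_contra hne
  apply S29.Eig.periodMap_ne_zero hne
  rw [← μ_per, hf, map_zero]

/-- The period vector intertwines the Hecke operator with the transfer. -/
theorem per_hecke (ℓ : Nat.Primes) (hℓN : ¬ (ℓ : ℕ) ∣ N) (f : CuspForm (Gamma0 N) 2) :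
    (trΛ N ℓ hℓN).baseChange ℂ (per N f) = per N (CuspForm.heckeTLin 2 ℓ.2 hℓN f) := by
  have : Fact (ℓ : ℕ).Prime := ⟨ℓ.2⟩
  apply S29.Eig.μ_injective N
  rw [S29.Eig.μ_baseChange_trΛ, μ_per, S29.Eig.tr_periodMap ℓ.2 hℓN, μ_per]

/-- The index type of the rows: primes `ℓ ∤ N`, `ℓ ∉ S`. -/
abbrev Idx (S : Set ℕ) : Type := {ℓ : ℕ // ℓ.Prime ∧ ¬ ℓ ∣ N ∧ ℓ ∉ S}

/-- The matrix of the transfer operator at `ℓ` in the chosen basis of `Λ`. -/
def mat (S : Set ℕ) (ℓ : Idx N S) :
    Matrix (Module.Free.ChooseBasisIndex ℤ (Λ N)) (Module.Free.ChooseBasisIndex ℤ (Λ N)) ℤ :=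
  LinearMap.toMatrix (Module.Free.chooseBasis ℤ (Λ N)) (Module.Free.chooseBasis ℤ (Λ N))
    (trΛ N ⟨ℓ.1, ℓ.2.1⟩ ℓ.2.2.1)

/-- The Hecke operator at `ℓ` as an element of the Hecke algebra. -/
def hT (S : Set ℕ) (ℓ : Idx N S) : CuspForm.heckeAlgebra N 2 S :=
  CuspForm.heckeAlgebra.T ℓ.2.1 ℓ.2.2.1 ℓ.2.2.2

/-- The inclusion of the Hecke algebra in the endomorphisms of the cusp forms. -/
def incl (S : Set ℕ) :
    CuspForm.heckeAlgebra N 2 S →+* Module.End ℂ (CuspForm (Gamma0 N) 2) :=
  (CuspForm.heckeAlgebra N 2 S).val.toRingHom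

theorem incl_apply (S : Set ℕ) (t : CuspForm.heckeAlgebra N 2 S) :
    incl N S t = (t : Module.End ℂ (CuspForm (Gamma0 N) 2)) := rfl

theorem incl_injective (S : Set ℕ) : Function.Injective (incl N S) := Subtype.val_injective

/-- The coordinates of the period vector. -/
def coord (j : Module.Free.ChooseBasisIndex ℤ (Λ N)) : CuspForm (Gamma0 N) 2 →ₗ[ℂ] ℂ :=
  ((Algebra.TensorProduct.basis ℂ (Module.Free.chooseBasis ℤ (Λ N))).coord j) ∘ₗ per N

theorem coord_apply (j : Module.Free.ChooseBasisIndex ℤ (Λ N)) (f : CuspForm (Gamma0 N) 2) :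
    coord N j f =
      (Algebra.TensorProduct.basis ℂ (Module.Free.chooseBasis ℤ (Λ N))).repr (per N f) j := rfl

/-- The Hecke relation in coordinates. -/
theorem coord_hecke (S : Set ℕ) (ℓ : Idx N S) (i : Module.Free.ChooseBasisIndex ℤ (Λ N))
    (f : CuspForm (Gamma0 N) 2) :
    ∑ j, ((mat N S ℓ i j : ℤ) : ℂ) * coord N j f =
      coord N i (CuspForm.heckeTLin 2 ℓ.2.1 ℓ.2.2.1 f) := by
  classical
  set b := Module.Free.chooseBasis ℤ (Λ N) with hb
  set bC := Algebra.TensorProduct.basis ℂ b with hbC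
  have h1 := LinearMap.toMatrix_mulVec_repr bC bC
    ((trΛ N ⟨ℓ.1, ℓ.2.1⟩ ℓ.2.2.1).baseChange ℂ) (per N f)
  have h3 := per_hecke N ⟨ℓ.1, ℓ.2.1⟩ ℓ.2.2.1 f
  rw [h3, LinearMap.toMatrix_baseChange] at h1
  have h2 := congrFun h1 i
  rw [coord_apply, ← h2]
  simp only [Matrix.mulVec, dotProduct, Matrix.map_apply, coord_apply]
  rfl

/-- The rows of the stacked system `[M_ℓ - T_ℓ]` over the Hecke algebra. -/
def row (S : Set ℕ) (s : Idx N S × Module.Free.ChooseBasisIndex ℤ (Λ N))
    (j : Module.Free.ChooseBasisIndex ℤ (Λ N)) : CuspForm.heckeAlgebra N 2 S :=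
  haveI := Classical.decEq (Module.Free.ChooseBasisIndex ℤ (Λ N))
  ((mat N S s.1 s.2 j : ℤ) : CuspForm.heckeAlgebra N 2 S) - if s.2 = j then hT N S s.1 else 0

/-- Each row kills the coordinate vector of the period map. -/
theorem row_coord (S : Set ℕ) (s : Idx N S × Module.Free.ChooseBasisIndex ℤ (Λ N))
    (f : CuspForm (Gamma0 N) 2) : ∑ j, coord N j (incl N S (row N S s j) f) = 0 := by
  classical
  obtain ⟨ℓ, i⟩ := s
  have h1 : ∀ j, coord N j (incl N S (row N S (ℓ, i) j) f) =
      ((mat N S ℓ i j : ℤ) : ℂ) * coord N j f -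
        if i = j then coord N i (CuspForm.heckeTLin 2 ℓ.2.1 ℓ.2.2.1 f) else 0 := by
    intro j
    have h2 : incl N S (row N S (ℓ, i) j) f =
        (mat N S ℓ i j : ℤ) • f - if i = j then CuspForm.heckeTLin 2 ℓ.2.1 ℓ.2.2.1 f else 0 := by
      unfold row
      rw [map_sub, map_intCast]
      by_cases hij : i = j
      · subst hij
        simp only [if_true]
        rfl
      · simp only [if_neg hij, map_zero]
        rfl
    rw [h2, map_sub, map_zsmul, zsmul_eq_mul]
    by_cases hij : i = j
    · subst hij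
      simp only [if_true]
    · simp only [if_neg hij, map_zero]
  rw [Finset.sum_congr rfl fun j _ => h1 j, Finset.sum_sub_distrib, coord_hecke]
  simp

/-- All `n × n` minors of the stacked system vanish in the Hecke algebra. -/
theorem det_row_eq_zero (S : Set ℕ)
    (s : Module.Free.ChooseBasisIndex ℤ (Λ N) → Idx N S × Module.Free.ChooseBasisIndex ℤ (Λ N)) :
    haveI := Classical.decEq (Module.Free.ChooseBasisIndex ℤ (Λ N))
    (Matrix.of fun i j => row N S (s i) j).det = 0 := by
  classical
  apply incl_injective N S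
  rw [map_zero]
  apply LinearMap.ext
  intro f
  apply per_injective N
  rw [LinearMap.zero_apply, map_zero]
  apply (Algebra.TensorProduct.basis ℂ (Module.Free.chooseBasis ℤ (Λ N))).repr.injective
  rw [map_zero]
  ext k
  have h := apply_det_eq_zero (incl N S) (coord N) (Matrix.of fun i j => row N S (s i) j)
    (fun i f => row_coord N S (s i) f) k f
  rw [Finsupp.zero_apply, ← coord_apply]
  convert h

/-- **The eigenvector, matrix form.**  A common eigenvector over a field `K` of the matrices of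
the transfer operators, with eigenvalues `χ (T_ℓ)`. -/
theorem exists_eigenvector_matrix (S : Set ℕ) {K : Type*} [Field K]
    (χ : CuspForm.heckeAlgebra N 2 S →+* K) :
    ∃ w : Module.Free.ChooseBasisIndex ℤ (Λ N) → K, w ≠ 0 ∧
      ∀ ℓ : Idx N S, ((mat N S ℓ).map (Int.cast : ℤ → K)) *ᵥ w = χ (hT N S ℓ) • w := by
  classical
  have hminor : ∀ s : Module.Free.ChooseBasisIndex ℤ (Λ N) →
      Idx N S × Module.Free.ChooseBasisIndex ℤ (Λ N),
      (Matrix.of fun i j => χ (row N S (s i) j)).det = 0 := by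
    intro s
    have h := congrArg χ (det_row_eq_zero N S s)
    rw [RingHom.map_det, map_zero] at h
    have h' : (Matrix.of fun i j => χ (row N S (s i) j)) =
        χ.mapMatrix (Matrix.of fun i j => row N S (s i) j) := by
      ext i j
      rfl
    rw [h']
    exact h
  obtain ⟨w, hw, hrows⟩ := exists_common_zero_of_minors
    (fun (s : Idx N S × Module.Free.ChooseBasisIndex ℤ (Λ N)) j => χ (row N S s j)) hminor
  refine ⟨w, hw, fun ℓ => ?_⟩
  funext i
  have h1 := hrows (ℓ, i)
  have h2 : (fun j => χ (row N S (ℓ, i) j)) = fun j => χ (((mat N S ℓ i j : ℤ) :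
      CuspForm.heckeAlgebra N 2 S) - if i = j then hT N S ℓ else 0) := by
    funext j
    unfold row
    congr!
  rw [h2, S29.EigRed.dot_aux χ (fun j => mat N S ℓ i j) (hT N S ℓ) i w] at h1
  simp only [Matrix.mulVec, dotProduct, Matrix.map_apply, Pi.smul_apply, smul_eq_mul]
  exact sub_eq_zero.mp h1

/-- From coordinates to the tensor product: an eigenvector of the matrix of the transfer operator
gives an eigenvector of its base change. -/
theorem baseChange_of_mulVec (S : Set ℕ) {R : Type*} [CommRing R] (ℓ : Idx N S) (a : R)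
    (u : Module.Free.ChooseBasisIndex ℤ (Λ N) → R)
    (h : ((mat N S ℓ).map (Int.cast : ℤ → R)) *ᵥ u = a • u) :
    (trΛ N ⟨ℓ.1, ℓ.2.1⟩ ℓ.2.2.1).baseChange R
        ((Algebra.TensorProduct.basis R (Module.Free.chooseBasis ℤ (Λ N))).equivFun.symm u) =
      a • (Algebra.TensorProduct.basis R (Module.Free.chooseBasis ℤ (Λ N))).equivFun.symm u := by
  classical
  set bR := Algebra.TensorProduct.basis R (Module.Free.chooseBasis ℤ (Λ N)) with hbR
  apply bR.equivFun.injective
  rw [map_smul, LinearEquiv.apply_symm_apply]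
  have h1 := LinearMap.toMatrix_mulVec_repr bR bR
    ((trΛ N ⟨ℓ.1, ℓ.2.1⟩ ℓ.2.2.1).baseChange R) (bR.equivFun.symm u)
  have h2 : ⇑(bR.repr (bR.equivFun.symm u)) = u := by
    have := bR.equivFun.apply_symm_apply u
    rwa [Module.Basis.equivFun_apply] at this
  rw [h2, LinearMap.toMatrix_baseChange] at h1
  rw [Module.Basis.equivFun_apply, ← h1]
  exact h

theorem repr_equivFun_symm {R : Type*} [CommRing R]
    (u : Module.Free.ChooseBasisIndex ℤ (Λ N) → R) (j : Module.Free.ChooseBasisIndex ℤ (Λ N)) :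
    (Algebra.TensorProduct.basis R (Module.Free.chooseBasis ℤ (Λ N))).repr
      ((Algebra.TensorProduct.basis R (Module.Free.chooseBasis ℤ (Λ N))).equivFun.symm u) j =
      u j := by
  have h := (Algebra.TensorProduct.basis R (Module.Free.chooseBasis ℤ (Λ N))).equivFun.apply_symm_apply u
  rw [Module.Basis.equivFun_apply] at h
  exact congrFun h j

/-- **The eigenvector over a field.**  For a ring homomorphism `χ` from the Hecke algebra to a
field `K` there is a nonzero vector of `K ⊗ Λ` on which the transfer operators act through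
`χ (T_ℓ)`. -/
theorem exists_eigenvector_field (S : Set ℕ) {K : Type*} [Field K]
    (χ : CuspForm.heckeAlgebra N 2 S →+* K) :
    ∃ v : K ⊗[ℤ] Λ N, v ≠ 0 ∧ ∀ (ℓ : ℕ) (hℓ : ℓ.Prime) (hℓN : ¬ ℓ ∣ N) (hℓS : ℓ ∉ S),
      (trΛ N ⟨ℓ, hℓ⟩ hℓN).baseChange K v = χ (CuspForm.heckeAlgebra.T hℓ hℓN hℓS) • v := by
  classical
  obtain ⟨w, hw, hMw⟩ := exists_eigenvector_matrix N S χ
  refine ⟨(Algebra.TensorProduct.basis K (Module.Free.chooseBasis ℤ (Λ N))).equivFun.symm w,
    ?_, fun ℓ hℓ hℓN hℓS => baseChange_of_mulVec N S ⟨ℓ, hℓ, hℓN, hℓS⟩ _ w (hMw _)⟩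
  intro h0
  apply hw
  have := congrArg (Algebra.TensorProduct.basis K (Module.Free.chooseBasis ℤ (Λ N))).equivFun h0
  rwa [LinearEquiv.apply_symm_apply, map_zero] at this

end Period

/-! ### Scaling to a primitive vector -/

/-- In a local principal ideal domain, a nonzero vector over the fraction field is a multiple of
an integral vector with a unit coordinate. -/
theorem exists_unit_scaling {R K : Type*} [CommRing R] [IsDomain R] [IsPrincipalIdealRing R]
    [IsLocalRing R] [Field K] [Algebra R K] [IsFractionRing R K] {n : Type*} [Fintype n]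
    (w : n → K) (hw : w ≠ 0) :
    ∃ (u : n → R) (c : K), c ≠ 0 ∧ (∃ j, IsUnit (u j)) ∧ ∀ j, algebraMap R K (u j) = c * w j := by
  classical
  obtain ⟨d, hd⟩ := IsLocalization.exist_integer_multiples_of_finite (nonZeroDivisors R) w
  choose a ha using hd
  have hd0 : algebraMap R K (d : R) ≠ 0 :=
    IsFractionRing.to_map_ne_zero_of_mem_nonZeroDivisors d.2
  obtain ⟨j₀, hj₀⟩ := Function.ne_iff.mp hw
  have haj₀ : a j₀ ≠ 0 := by
    intro h0
    have h1 := ha j₀
    rw [h0, map_zero, Algebra.smul_def] at h1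
    exact (mul_ne_zero hd0 hj₀) h1.symm
  obtain ⟨g, hg⟩ := (IsPrincipalIdealRing.principal (Ideal.span (Set.range a))).principal
  have hg' : Ideal.span (Set.range a) = Ideal.span {g} := hg
  have hag : ∀ j, a j ∈ Ideal.span {g} := fun j => by
    rw [← hg']
    exact Ideal.subset_span (Set.mem_range_self j)
  have hg0 : g ≠ 0 := by
    rintro rfl
    have := hag j₀
    rw [Ideal.span_singleton_eq_bot.mpr rfl, Ideal.mem_bot] at this
    exact haj₀ this
  choose u hu using fun j => Ideal.mem_span_singleton'.mp (hag j)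
  have hgmem : g ∈ Ideal.span (Set.range a) := by
    rw [hg']
    exact Ideal.subset_span rfl
  obtain ⟨c, hc⟩ := (Ideal.mem_span_range_iff_exists_fun).mp hgmem
  have hsum : ∑ j, c j * u j = 1 := by
    have h1 : (∑ j, c j * u j) * g = 1 * g := by
      rw [Finset.sum_mul, one_mul]
      conv_rhs => rw [← hc]
      exact Finset.sum_congr rfl fun j _ => by rw [← hu j]; ring
    exact mul_right_cancel₀ hg0 h1
  have hunit : ∃ j, IsUnit (u j) := by
    by_contra hcon
    push Not at hcon
    have h1 : (1 : R) ∈ IsLocalRing.maximalIdeal R := by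
      rw [← hsum]
      exact Ideal.sum_mem _ fun j _ => Ideal.mul_mem_left _ _
        ((IsLocalRing.mem_maximalIdeal _).mpr (hcon j))
    exact (IsLocalRing.maximalIdeal.isMaximal R).ne_top ((Ideal.eq_top_iff_one _).mpr h1)
  have hgK : algebraMap R K g ≠ 0 := by
    intro h0
    exact hg0 (IsFractionRing.injective R K (by rw [h0, map_zero]))
  refine ⟨u, algebraMap R K (d : R) / algebraMap R K g, div_ne_zero hd0 hgK, hunit, fun j => ?_⟩
  have h1 := ha j
  rw [Algebra.smul_def, ← hu j, map_mul] at h1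
  field_simp
  linear_combination h1

/-- The coordinates of an element of `I • ⊤` lie in `I`. -/
theorem repr_mem_of_mem_smul_top {R M ι : Type*} [CommRing R] [AddCommGroup M] [Module R M]
    (b : Module.Basis ι R M) (I : Ideal R) {x : M} (hx : x ∈ I • (⊤ : Submodule R M)) (j : ι) :
    b.repr x j ∈ I := by
  refine Submodule.smul_induction_on hx (fun r hr m _ => ?_) (fun x y hx hy => ?_)
  · rw [map_smul, Finsupp.smul_apply, smul_eq_mul]
    exact I.mul_mem_right _ hr
  · rw [map_add, Finsupp.add_apply]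
    exact I.add_mem hx hy

/-- **The primitive eigenvector over a discrete valuation ring.**  For a ring homomorphism `χ`
from the Hecke algebra to a discrete valuation ring `R` there is a vector of `R ⊗ Λ` with a unit
coordinate (in particular not in `𝔪 (R ⊗ Λ)`) on which the transfer operators act through
`χ (T_ℓ)`. -/
theorem exists_eigenvector (N : ℕ) [NeZero N] (S : Set ℕ) {R : Type*} [CommRing R] [IsDomain R]
    [IsDiscreteValuationRing R] (χ : CuspForm.heckeAlgebra N 2 S →+* R) :
    ∃ v : R ⊗[ℤ] Λ N,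
      (∃ j, IsUnit ((Algebra.TensorProduct.basis R (Module.Free.chooseBasis ℤ (Λ N))).repr v j)) ∧
      v ∉ IsLocalRing.maximalIdeal R • (⊤ : Submodule R (R ⊗[ℤ] Λ N)) ∧
      ∀ (ℓ : ℕ) (hℓ : ℓ.Prime) (hℓN : ¬ ℓ ∣ N) (hℓS : ℓ ∉ S),
        (trΛ N ⟨ℓ, hℓ⟩ hℓN).baseChange R v = χ (CuspForm.heckeAlgebra.T hℓ hℓN hℓS) • v := by
  classical
  obtain ⟨w, hw, hMw⟩ := exists_eigenvector_matrix N S
    ((algebraMap R (FractionRing R)).comp χ)
  obtain ⟨u, c, hc, ⟨j₀, hj₀⟩, hu⟩ := exists_unit_scaling (R := R) w hw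
  have hMu : ∀ ℓ : Idx N S, ((mat N S ℓ).map (Int.cast : ℤ → R)) *ᵥ u = χ (hT N S ℓ) • u := by
    intro ℓ
    funext i
    have e1 := congrFun (hMw ℓ) i
    simp only [Matrix.mulVec, dotProduct, Matrix.map_apply, Pi.smul_apply, smul_eq_mul,
      RingHom.comp_apply] at e1 ⊢
    apply IsFractionRing.injective R (FractionRing R)
    simp only [map_sum, map_mul, map_intCast, hu]
    have e2 : ∑ j, ((mat N S ℓ i j : ℤ) : FractionRing R) * (c * w j) =
        c * ∑ j, ((mat N S ℓ i j : ℤ) : FractionRing R) * w j := by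
      rw [Finset.mul_sum]
      exact Finset.sum_congr rfl fun j _ => by ring
    rw [e2, e1]
    ring
  set bR := Algebra.TensorProduct.basis R (Module.Free.chooseBasis ℤ (Λ N)) with hbR
  have hj₀' : IsUnit (bR.repr (bR.equivFun.symm u) j₀) := by
    rw [hbR, repr_equivFun_symm]
    exact hj₀
  refine ⟨bR.equivFun.symm u, ⟨j₀, hj₀'⟩, ?_,
    fun ℓ hℓ hℓN hℓS => baseChange_of_mulVec N S ⟨ℓ, hℓ, hℓN, hℓS⟩ _ u (hMu _)⟩
  intro hmem
  have h1 := repr_mem_of_mem_smul_top bR _ hmem j₀
  exact (IsLocalRing.mem_maximalIdeal _).mp h1 hj₀'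

end Fermat.Agent.S30.Eigen

end
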