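/-
Wave 10 (S30) / wave 9b (S31): the CLOSED exports of row [IV] of S29, with no hypotheses,
for the final files:

* `EmbC.kumExistsStmt : S29.IV.KumExistsStmt` (existence of the Kummer classes),
* `EmbC.exStmt : S29.Emb.ExStmt` (fact (E)),
* `EmbC.embStmt : S29.Emb.EmbStmt` (the embedding `Λ/mΛ ↪ J₀(N)(ℚ̄)[m]`, Hecke-compatible).
-/
import Fermat.Agent.S29.EmbIface
import Fermat.Agent.S29.EmbBridge
import Fermat.Agent.S29.KumExists
import Fermat.Agent.S29.ThetaFnStmt
import Fermat.Agent.S29.PlaceAn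
import Fermat.Agent.S29.KumFinal
import Fermat.Agent.S29.Desc
import Fermat.Agent.S29.AnCompat
import Fermat.Agent.S29.UniqRB
import Fermat.Agent.S29.HeckeR
import Fermat.Agent.S29.EmbKer

set_option autoImplicit false

namespace Fermat.Agent.S30.EmbC

/-- **(K1)** existence of the Kummer classes, from the five leaves. -/
theorem kumExistsStmt : Fermat.Agent.S29.IV.KumExistsStmt :=
  Fermat.Agent.S29.KumExists.kumExistsStmt_of Fermat.Agent.S29.ThetaFn.thetaFnStmt
    (fun _ _ _ _ ι N _ _ P h F hh hF hinv =>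
      Fermat.Agent.S29.PlaceAn.dvd_ord_of_pow ι N P h hh F hF hinv)
    Fermat.Agent.S29.KumFin.kumFinStmt Fermat.Agent.S29.Desc.descStmt
    Fermat.Agent.S29.AnCompat.anCompatStmt

/-- **(E)** existence in the relation `Emb.Rel`. -/
theorem exStmt : Fermat.Agent.S29.Emb.ExStmt :=
  Fermat.Agent.S29.Emb.exStmt_of_kumExists kumExistsStmt

/-- **Row [IV] of S29, closed**: the Hecke-compatible embedding statement. -/
theorem embStmt : Fermat.Agent.S29.Emb.EmbStmt :=
  Fermat.Agent.S29.Emb.embStmt_of_facts exStmt Fermat.Agent.S29.UniqRB.uniqStmt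
    Fermat.Agent.S29.HeckeR.heckeStmt Fermat.Agent.S29.EmbKer.kerStmt

end Fermat.Agent.S30.EmbC
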