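/-
S30 (wave 10), leaf LEVEL (helper27): the finite-level Galois modules.

For a character `χ : 𝕋 → R` of the Hecke algebra (`R` a domain of characteristic zero) and an
eigenvector `v ∈ R ⊗ Λ` (`Λ = Hom_par(Γ₀(N), ℤ)`) with a unit coordinate, put for every `n`
`x_n := (1 ⊗ Φ_{p^n}) v ∈ R ⊗ J₀(N)(ℚ̄)[p^n]` (`Φ_m : Λ → J₀(N)(ℚ̄)[m]` the Hecke-equivariant
map of `Emb.EmbStmt`, kernel `⊆ mΛ`) and let `W_n` be the `R`-span of the Galois orbit of `x_n`.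

`exists_levels_of_vec` / `exists_levels`:
* `p^n W_n = 0` and the annihilator of `x_n` is contained in `p^n R` (flatness of `R` over `ℤ`);
* `σ + ℓ σ⁻¹ = χ(T_ℓ)` on `W_n` for every Frobenius element `σ` at `ℓ ∤ N`, `ℓ ∉ S`
  (`C1.hecke_eq`, `C1.hecke_smul_comm`, Hecke equivariance of `Φ`);
* inertia at `q ∤ N p` acts trivially on `W_n` (`C1.inertia_smul`);
* `G_ℚ` acts on `W_n` through a finite quotient (`FinLevel`).
-/
import Fermat.Agent.S29.EmbIface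
import Fermat.Agent.S29.GalMod
import Fermat.Agent.S29.Eig
import Fermat.Prelude.Def_CuspForm_HeckeAlgebra

set_option autoImplicit false

noncomputable section

open scoped TensorProduct
open ModularCurve AlgebraicCurve
open Fermat.Agent.S29 Fermat.Agent.S29.Transfer

namespace Fermat.Agent.S30.Level

local notation "Qb" => AlgebraicClosure ℚ
local notation "GQ" => (AlgebraicClosure ℚ ≃ₐ[ℚ] AlgebraicClosure ℚ)

/-! ### Base change of a map with kernel in `m L` -/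

section Ker

variable {L M : Type*} [AddCommGroup L] [AddCommGroup M] {R : Type*} [CommRing R]

/-- A module killed by `m` stays killed by `m` after base change. -/
theorem intCast_smul_tensor_eq_zero (m : ℤ) (hM : ∀ y : M, m • y = 0) (w : R ⊗[ℤ] M) :
    (m : R) • w = 0 := by
  induction w using TensorProduct.induction_on with
  | zero => exact smul_zero _
  | tmul r y =>
    rw [Int.cast_smul_eq_zsmul R, ← TensorProduct.tmul_smul, hM y, TensorProduct.tmul_zero]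
  | add w₁ w₂ ih₁ ih₂ => rw [smul_add, ih₁, ih₂, add_zero]

/-- If `ker Φ ⊆ m L`, then `ker (R ⊗ Φ) ⊆ m (R ⊗ L)`, for `R` flat over `ℤ`. -/
theorem exists_eq_smul_of_baseChange_eq_zero [Module.Flat ℤ R] (m : ℤ) (Φ : L →ₗ[ℤ] M)
    (hker : ∀ χ : L, Φ χ = 0 → ∃ χ' : L, χ = m • χ')
    (w : R ⊗[ℤ] L) (hw : Φ.baseChange R w = 0) : ∃ u : R ⊗[ℤ] L, w = (m : R) • u := by
  set K : Submodule ℤ L := LinearMap.ker Φ with hK
  -- every element of the image of `R ⊗ ker Φ` is divisible by `m`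
  have key : ∀ z : R ⊗[ℤ] K, ∃ u : R ⊗[ℤ] L, K.subtype.lTensor R z = (m : R) • u := by
    intro z
    induction z using TensorProduct.induction_on with
    | zero => exact ⟨0, by rw [map_zero, smul_zero]⟩
    | tmul r χ =>
      obtain ⟨χ', hχ'⟩ := hker (χ : L) (LinearMap.mem_ker.mp χ.2)
      refine ⟨r ⊗ₜ[ℤ] χ', ?_⟩
      rw [LinearMap.lTensor_tmul, Submodule.subtype_apply, hχ', TensorProduct.tmul_smul,
        Int.cast_smul_eq_zsmul R]
    | add z₁ z₂ ih₁ ih₂ =>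
      obtain ⟨u₁, h₁⟩ := ih₁
      obtain ⟨u₂, h₂⟩ := ih₂
      exact ⟨u₁ + u₂, by rw [map_add, h₁, h₂, smul_add]⟩
  -- `Φ` factors through the injection `L ⧸ ker Φ → M`
  have hinj : Function.Injective (K.liftQ Φ le_rfl) :=
    LinearMap.ker_eq_bot.mp (Submodule.ker_liftQ_eq_bot K Φ le_rfl le_rfl)
  have hinj' : Function.Injective ((K.liftQ Φ le_rfl).lTensor R) :=
    Module.Flat.lTensor_preserves_injective_linearMap _ hinj
  have h1 : K.mkQ.lTensor R w = 0 := by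
    apply hinj'
    rw [map_zero, ← LinearMap.comp_apply, ← LinearMap.lTensor_comp, Submodule.liftQ_mkQ]
    exact hw
  have hex : Function.Exact (K.subtype.lTensor R) (K.mkQ.lTensor R) :=
    lTensor_exact R (LinearMap.exact_subtype_mkQ K) (Submodule.mkQ_surjective K)
  obtain ⟨z, hz⟩ := (hex w).mp h1
  obtain ⟨u, hu⟩ := key z
  exact ⟨u, hz.symm.trans hu⟩

/-- **Exact annihilator**: if `ker Φ ⊆ m L` and some `R`-linear functional is a unit at `v`, then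
`r • (1 ⊗ Φ) v = 0` forces `m ∣ r`. -/
theorem dvd_of_smul_baseChange_eq_zero [Module.Flat ℤ R] (m : ℤ) (Φ : L →ₗ[ℤ] M)
    (hker : ∀ χ : L, Φ χ = 0 → ∃ χ' : L, χ = m • χ')
    (v : R ⊗[ℤ] L) (f : R ⊗[ℤ] L →ₗ[R] R) (hf : IsUnit (f v)) (r : R)
    (h : r • Φ.baseChange R v = 0) : (m : R) ∣ r := by
  obtain ⟨u, hu⟩ := exists_eq_smul_of_baseChange_eq_zero m Φ hker (r • v) (by rw [map_smul, h])
  have h1 := congrArg f hu
  rw [map_smul, map_smul, smul_eq_mul, smul_eq_mul] at h1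
  obtain ⟨c, hc⟩ := hf
  refine ⟨f u * (c⁻¹ : Rˣ), ?_⟩
  rw [← mul_assoc, ← h1, ← hc, mul_assoc, Units.mul_inv, mul_one]

end Ker

/-! ### The span of an orbit -/

section Orbit

variable {G : Type*} [Group G] {R : Type*} [CommRing R] {M : Type*} [AddCommGroup M] [Module R M]
  (ρ : G →* Module.End R M) (x₀ : M)

/-- The `R`-span of the `G`-orbit of `x₀`. -/
def orbitSpan : Submodule R M := Submodule.span R (Set.range fun σ : G => ρ σ x₀)

theorem orbitSpan_stable (σ : G) {w : M} (hw : w ∈ orbitSpan ρ x₀) : ρ σ w ∈ orbitSpan ρ x₀ := by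
  induction hw using Submodule.span_induction with
  | mem w hw =>
    obtain ⟨τ, rfl⟩ := hw
    refine Submodule.subset_span ⟨σ * τ, ?_⟩
    show ρ (σ * τ) x₀ = ρ σ (ρ τ x₀)
    rw [map_mul, Module.End.mul_apply]
  | zero => rw [map_zero]; exact (orbitSpan ρ x₀).zero_mem
  | add a b _ _ iha ihb => rw [map_add]; exact (orbitSpan ρ x₀).add_mem iha ihb
  | smul c a _ iha => rw [map_smul]; exact (orbitSpan ρ x₀).smul_mem c iha

theorem mem_orbitSpan : x₀ ∈ orbitSpan ρ x₀ :=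
  Submodule.subset_span ⟨1, by
    show ρ 1 x₀ = x₀
    rw [map_one, Module.End.one_apply]⟩

/-- The representation on the span of an orbit. -/
def orbitRep : G →* Module.End R (orbitSpan ρ x₀) where
  toFun σ := (ρ σ).restrict fun _ hw => orbitSpan_stable ρ x₀ σ hw
  map_one' := by
    ext w
    show ρ 1 (w : M) = w
    rw [map_one, Module.End.one_apply]
  map_mul' σ τ := by
    ext w
    show ρ (σ * τ) (w : M) = ρ σ (ρ τ (w : M))
    rw [map_mul, Module.End.mul_apply]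

theorem coe_orbitRep (σ : G) (w : orbitSpan ρ x₀) :
    ((orbitRep ρ x₀ σ w : orbitSpan ρ x₀) : M) = ρ σ (w : M) := rfl

/-- An element acting trivially on the orbit acts trivially on its span. -/
theorem orbitRep_eq_one {σ : G} (h : ∀ τ : G, ρ σ (ρ τ x₀) = ρ τ x₀) : orbitRep ρ x₀ σ = 1 := by
  have key : ∀ w ∈ orbitSpan ρ x₀, ρ σ w = w := by
    intro w hw
    induction hw using Submodule.span_induction with
    | mem w hw =>
      obtain ⟨τ, rfl⟩ := hw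
      exact h τ
    | zero => rw [map_zero]
    | add a b _ _ iha ihb => rw [map_add, iha, ihb]
    | smul c a _ iha => rw [map_smul, iha]
  ext w
  exact key w w.2

/-- A relation `σ + c σ⁻¹ = t` on the orbit holds on its span. -/
theorem orbitRep_add_smul {σ : G} {c t : R}
    (h : ∀ τ : G, ρ σ (ρ τ x₀) + c • ρ σ⁻¹ (ρ τ x₀) = t • ρ τ x₀) (w : orbitSpan ρ x₀) :
    orbitRep ρ x₀ σ w + c • orbitRep ρ x₀ σ⁻¹ w = t • w := by
  have key : ∀ w ∈ orbitSpan ρ x₀, ρ σ w + c • ρ σ⁻¹ w = t • w := by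
    intro w hw
    induction hw using Submodule.span_induction with
    | mem w hw =>
      obtain ⟨τ, rfl⟩ := hw
      exact h τ
    | zero => simp
    | add a b _ _ iha ihb =>
      rw [map_add, map_add, smul_add, smul_add, ← iha, ← ihb]
      abel
    | smul d a _ iha =>
      rw [map_smul, map_smul, smul_comm c d, ← smul_add, iha, smul_comm]
  exact Subtype.ext (key w w.2)

end Orbit

/-- The orbit of an element with open stabiliser is finite (any commutative ring of scalars). -/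
theorem finite_orbit {R : Type*} [CommRing R] {M : Type*} [AddCommGroup M] [Module R M]
    (ρ : GQ →* Module.End R M) (x₀ : M) (h : GalMod.HasLevel (fun σ => ρ σ) x₀) :
    (Set.range fun σ : GQ => ρ σ x₀).Finite := by
  obtain ⟨L, hL, hfix⟩ := h
  refine GalMod.finite_range_of_factors (T := (L →ₐ[ℚ] Qb))
    (fun σ : GQ => (σ : Qb →ₐ[ℚ] Qb).comp L.val) (fun σ : GQ => ρ σ x₀) 1 fun σ τ hστ => ?_
  have h1 : ∀ y ∈ L, (τ⁻¹ * σ) y = y := by
    intro y hy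
    have h2 : σ y = τ y := congrArg (fun f : L →ₐ[ℚ] Qb => f ⟨y, hy⟩) hστ
    rw [AlgEquiv.mul_apply, h2, ← AlgEquiv.mul_apply, inv_mul_cancel, AlgEquiv.one_apply]
  have h3 := hfix (τ⁻¹ * σ) h1
  have h4 : ρ σ x₀ = ρ τ (ρ (τ⁻¹ * σ) x₀) := by
    rw [← Module.End.mul_apply, ← map_mul, mul_inv_cancel_left]
  rw [h4]
  exact congrArg _ h3

/-- The span of the orbit of an element is of finite level, if every element has an open
stabiliser. -/
theorem exists_level_orbitRep {R : Type*} [CommRing R] {M : Type*} [AddCommGroup M] [Module R M]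
    (ρ : GQ →* Module.End R M) (x₀ : M) (hlev : ∀ w : M, GalMod.HasLevel (fun σ => ρ σ) w) :
    ∃ L : IntermediateField ℚ Qb, FiniteDimensional ℚ L ∧
      ∀ σ : GQ, (∀ y ∈ L, σ y = y) → orbitRep ρ x₀ σ = 1 := by
  classical
  have hfin := finite_orbit ρ x₀ (hlev x₀)
  obtain ⟨L, hL, hfix⟩ := GalMod.hasLevel_finset (fun σ => ρ σ) hfin.toFinset fun w _ => hlev w
  exact ⟨L, hL, fun σ hσ => orbitRep_eq_one ρ x₀ fun τ =>
    hfix σ hσ _ (hfin.mem_toFinset.mpr ⟨τ, rfl⟩)⟩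

/-- `T = σ + n σ⁻¹` on `J`, `T` commuting with the action, `x₀` an eigenvector of `1 ⊗ T`: the
relation `σ + n σ⁻¹ = t` on the orbit of `x₀` in `R ⊗ J`. -/
theorem frob_rel_abs {G : Type*} [Group G] {J : Type*} [AddCommGroup J] (R : Type*) [CommRing R]
    (gal : G →* Module.End ℤ J) (σ : G) (n : ℕ) (t : R) (T : Module.End ℤ J)
    (hT : ∀ x, T x = gal σ x + (n : ℤ) • gal σ⁻¹ x)
    (hcomm : ∀ τ x, T (gal τ x) = gal τ (T x))
    (x₀ : R ⊗[ℤ] J) (heig : T.baseChange R x₀ = t • x₀) (τ : G) :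
    GalMod.baseChangeHom R gal σ (GalMod.baseChangeHom R gal τ x₀)
      + (n : R) • GalMod.baseChangeHom R gal σ⁻¹ (GalMod.baseChangeHom R gal τ x₀)
      = t • GalMod.baseChangeHom R gal τ x₀ := by
  have h1 := GalMod.baseChange_eq_add_smul R hT (GalMod.baseChangeHom R gal τ x₀)
  have h2 := GalMod.baseChange_comm R (hcomm τ) x₀
  simp only [GalMod.baseChangeHom_apply] at h1 ⊢
  rw [← h1, h2, heig, map_smul]

/-! ### The `p^n`-torsion of `J₀(N)` -/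

section Concrete

variable {N : ℕ} [NeZero N] {p : ℕ}

/-- Elements of `J₀(N)[p^n]` are `p`-power torsion. -/
theorem tors (n : ℕ) (x : Jtor N (p ^ n)) : ∃ k : ℕ, p ^ k • (x : JZero N) = 0 := by
  refine ⟨n, ?_⟩
  have h := (Submodule.mem_torsionBy_iff _ _).mp x.2
  rw [← natCast_zsmul]
  exact h

theorem zsmul_eq_zero (n : ℕ) (x : Jtor N (p ^ n)) : ((p ^ n : ℕ) : ℤ) • x = 0 :=
  Subtype.ext ((Submodule.mem_torsionBy_iff _ _).mp x.2)

/-- Inertia at `q ∤ N p` acts trivially on `J₀(N)[p^n]`. -/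
theorem galTor_inertia {q : ℕ} (hq : q.Prime) (hqNp : ¬ q ∣ N * p) (n : ℕ)
    (A : ValuationSubring Qb) (hA : A.LiesOverPrime q) {τ : GQ}
    (hτ : τ ∈ A.inertiaSubgroupIn ℚ) : GalMod.galTorHom N (p ^ n) τ = 1 :=
  LinearMap.ext fun x => Subtype.ext (C1.inertia_smul hq hqNp A hA hτ (tors n x))

/-- `T_ℓ = σ + ℓ σ⁻¹` on `J₀(N)[p^n]`. -/
theorem heckeTor_eq {ℓ : ℕ} (hℓ : ℓ.Prime) (hℓNp : ¬ ℓ ∣ N * p) (n : ℕ)
    (A : ValuationSubring Qb) (hA : A.LiesOverPrime ℓ) {σ : GQ} (hσ : A.IsFrobeniusAt σ ℓ)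
    (x : Jtor N (p ^ n)) :
    heckeTor N (p ^ n) ⟨ℓ, hℓ⟩ x
      = GalMod.galTorHom N (p ^ n) σ x + (ℓ : ℤ) • GalMod.galTorHom N (p ^ n) σ⁻¹ x := by
  refine Subtype.ext ?_
  show heckeOperatorBar N ⟨ℓ, hℓ⟩ (x : JZero N)
    = σ • (x : JZero N) + (ℓ : ℤ) • (σ⁻¹ • (x : JZero N))
  rw [natCast_zsmul]
  exact C1.hecke_eq hℓ hℓNp A hA hσ (tors n x)

/-- `T_ℓ` commutes with the Galois action on `J₀(N)[p^n]`. -/
theorem heckeTor_galTor {ℓ : ℕ} (hℓ : ℓ.Prime) (hℓNp : ¬ ℓ ∣ N * p) (n : ℕ) (τ : GQ)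
    (x : Jtor N (p ^ n)) :
    heckeTor N (p ^ n) ⟨ℓ, hℓ⟩ (GalMod.galTorHom N (p ^ n) τ x)
      = GalMod.galTorHom N (p ^ n) τ (heckeTor N (p ^ n) ⟨ℓ, hℓ⟩ x) :=
  Subtype.ext (C1.hecke_smul_comm hℓ hℓNp τ (tors n x))

/-- Every element of `R ⊗ J₀(N)[m]` has an open stabiliser. -/
theorem hasLevel_tensor (R : Type*) [CommRing R] (m : ℕ) (w : R ⊗[ℤ] Jtor N m) :
    GalMod.HasLevel (fun σ => GalMod.baseChangeHom R (GalMod.galTorHom N m) σ) w :=
  GalMod.hasLevel_baseChange (fun σ => GalMod.galTorHom N m σ) (fun y => by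
    obtain ⟨L, hL, h⟩ := FinLevel.finLevelStmt N (y : JZero N)
    exact ⟨L, hL, fun σ hσ => Subtype.ext (h σ hσ)⟩) w

/-- The Frobenius relation on the orbit of a Hecke eigenvector in `R ⊗ J₀(N)[p^n]`. -/
theorem frob_rel {R : Type*} [CommRing R] {ℓ : ℕ} (hℓ : ℓ.Prime) (hℓNp : ¬ ℓ ∣ N * p) (n : ℕ)
    (A : ValuationSubring Qb) (hA : A.LiesOverPrime ℓ) {σ : GQ} (hσ : A.IsFrobeniusAt σ ℓ)
    (x : R ⊗[ℤ] Jtor N (p ^ n)) (t : R)
    (heig : (heckeTor N (p ^ n) ⟨ℓ, hℓ⟩).baseChange R x = t • x) (τ : GQ) :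
    GalMod.baseChangeHom R (GalMod.galTorHom N (p ^ n)) σ
        (GalMod.baseChangeHom R (GalMod.galTorHom N (p ^ n)) τ x)
      + (ℓ : R) • GalMod.baseChangeHom R (GalMod.galTorHom N (p ^ n)) σ⁻¹
        (GalMod.baseChangeHom R (GalMod.galTorHom N (p ^ n)) τ x)
      = t • GalMod.baseChangeHom R (GalMod.galTorHom N (p ^ n)) τ x :=
  frob_rel_abs R (GalMod.galTorHom N (p ^ n)) σ ℓ t (heckeTor N (p ^ n) ⟨ℓ, hℓ⟩)
    (heckeTor_eq hℓ hℓNp n A hA hσ) (heckeTor_galTor hℓ hℓNp n) x heig τ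

/-- Inertia at `q ∤ N p` acts trivially on `R ⊗ J₀(N)[p^n]`. -/
theorem inertia_rel {R : Type*} [CommRing R] {q : ℕ} (hq : q.Prime) (hqNp : ¬ q ∣ N * p) (n : ℕ)
    (A : ValuationSubring Qb) (hA : A.LiesOverPrime q) {τ : GQ}
    (hτ : τ ∈ A.inertiaSubgroupIn ℚ) (x : R ⊗[ℤ] Jtor N (p ^ n)) :
    GalMod.baseChangeHom R (GalMod.galTorHom N (p ^ n)) τ x = x := by
  rw [GalMod.baseChangeHom_apply, galTor_inertia hq hqNp n A hA hτ, LinearMap.baseChange_one,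
    Module.End.one_apply]

/-- The image of a Hecke eigenvector under a Hecke-equivariant map is an eigenvector. -/
theorem eig_baseChange {R : Type*} [CommRing R] {m : ℕ} (Φ : Λ N →ₗ[ℤ] Jtor N m)
    (ℓ : Nat.Primes) (hℓN : ¬ (ℓ : ℕ) ∣ N)
    (hΦ : ∀ lam : Λ N, heckeTor N m ℓ (Φ lam) = Φ (trΛ N ℓ hℓN lam))
    (v : R ⊗[ℤ] Λ N) (t : R) (hv : (trΛ N ℓ hℓN).baseChange R v = t • v) :
    (heckeTor N m ℓ).baseChange R (Φ.baseChange R v) = t • Φ.baseChange R v := by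
  have h1 : (heckeTor N m ℓ) ∘ₗ Φ = Φ ∘ₗ (trΛ N ℓ hℓN) := LinearMap.ext fun lam => hΦ lam
  have h2 := congrArg (fun g : Λ N →ₗ[ℤ] Jtor N m => g.baseChange R v) h1
  simp only [LinearMap.baseChange_comp, LinearMap.comp_apply] at h2
  exact h2.trans ((congrArg (Φ.baseChange R) hv).trans (map_smul (Φ.baseChange R) t v))

end Concrete

/-! ### The modules `W_n` -/

/-- **The finite-level Galois modules**, from an eigenvector `v ∈ R ⊗ Λ` with a unit coordinate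
(in the form: some `R`-linear functional `f` with `f v` a unit). -/
theorem exists_levels_of_vec (hemb : Emb.EmbStmt) (p : ℕ) [Fact p.Prime] (N : ℕ) [NeZero N]
    (S : Finset ℕ) (hpS : p ∈ S) (R : Type) [CommRing R] [IsDomain R] [CharZero R]
    (χ : CuspForm.heckeAlgebra N 2 (↑S : Set ℕ) →+* R)
    (v : R ⊗[ℤ] Λ N) (f : R ⊗[ℤ] Λ N →ₗ[R] R) (hf : IsUnit (f v))
    (hv : ∀ (ℓ : ℕ) (hℓ : ℓ.Prime) (hℓN : ¬ ℓ ∣ N) (hℓS : ℓ ∉ (↑S : Set ℕ)),
      (trΛ N ⟨ℓ, hℓ⟩ hℓN).baseChange R v = χ (CuspForm.heckeAlgebra.T hℓ hℓN hℓS) • v) :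
    ∃ (W : ℕ → Type) (_ : ∀ n, AddCommGroup (W n)) (_ : ∀ n, Module R (W n))
      (ρ : ∀ n, GQ →* Module.End R (W n)) (x : ∀ n, W n),
      (∀ n (w : W n), (p : R) ^ n • w = 0) ∧
      (∀ n (r : R), r • x n = 0 → (p : R) ^ n ∣ r) ∧
      (∀ (n ℓ : ℕ) (hℓ : ℓ.Prime) (hℓN : ¬ ℓ ∣ N) (hℓS : ℓ ∉ (↑S : Set ℕ))
        (A : ValuationSubring Qb), A.LiesOverPrime ℓ → ∀ σ : GQ, A.IsFrobeniusAt σ ℓ →
          ∀ w : W n, ρ n σ w + (ℓ : R) • ρ n σ⁻¹ w
            = χ (CuspForm.heckeAlgebra.T hℓ hℓN hℓS) • w) ∧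
      (∀ (n q : ℕ), q.Prime → ¬ q ∣ N → q ≠ p → ∀ P : ValuationSubring Qb, P.LiesOverPrime q →
        ∀ τ ∈ P.inertiaSubgroupIn ℚ, ρ n τ = 1) ∧
      (∀ n : ℕ, ∃ L : IntermediateField ℚ Qb, FiniteDimensional ℚ L ∧
        ∀ σ : GQ, (∀ y ∈ L, σ y = y) → ρ n σ = 1) := by
  classical
  have hp : p.Prime := Fact.out
  choose Φ hΦker hΦhecke using fun n : ℕ => hemb N (p ^ n) (pow_pos hp.pos n)
  have hcast : ∀ n : ℕ, (((p ^ n : ℕ) : ℤ) : R) = (p : R) ^ n := fun n => by push_cast; rfl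
  -- primes away from `N p`
  have hndvd : ∀ {q : ℕ}, q.Prime → ¬ q ∣ N → q ≠ p → ¬ q ∣ N * p := by
    intro q hq hqN hqp h
    rcases (Nat.Prime.dvd_mul hq).mp h with h | h
    · exact hqN h
    · exact hqp ((Nat.prime_dvd_prime_iff_eq hq hp).mp h)
  have hndvd' : ∀ {q : ℕ}, q.Prime → ¬ q ∣ N → q ≠ p → ∀ n : ℕ, ¬ q ∣ N * p ^ n := by
    intro q hq hqN hqp n h
    rcases (Nat.Prime.dvd_mul hq).mp h with h | h
    · exact hqN h
    · exact hqp ((Nat.prime_dvd_prime_iff_eq hq hp).mp (hq.dvd_of_dvd_pow h))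
  refine ⟨fun n => orbitSpan (GalMod.baseChangeHom R (GalMod.galTorHom N (p ^ n)))
      ((Φ n).baseChange R v), fun n => inferInstance, fun n => inferInstance,
    fun n => orbitRep (GalMod.baseChangeHom R (GalMod.galTorHom N (p ^ n)))
      ((Φ n).baseChange R v),
    fun n => ⟨(Φ n).baseChange R v, mem_orbitSpan _ _⟩, ?_, ?_, ?_, ?_, ?_⟩
  · -- `p^n` kills `W_n`
    intro n w
    apply Subtype.ext
    have h := intCast_smul_tensor_eq_zero (R := R) ((p ^ n : ℕ) : ℤ) (zsmul_eq_zero n)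
      (w : R ⊗[ℤ] Jtor N (p ^ n))
    rw [hcast n] at h
    exact h
  · -- the annihilator of `x_n`
    intro n r hr
    have h0 : r • (Φ n).baseChange R v = 0 := congrArg Subtype.val hr
    have h := dvd_of_smul_baseChange_eq_zero ((p ^ n : ℕ) : ℤ) (Φ n) (hΦker n) v f hf r h0
    rwa [hcast n] at h
  · -- the Frobenius relation
    intro n ℓ hℓ hℓN hℓS A hA σ hσ w
    have hℓp : ℓ ≠ p := fun h => hℓS (h ▸ hpS)
    exact orbitRep_add_smul _ _ (frob_rel hℓ (hndvd hℓ hℓN hℓp) n A hA hσ _ _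
      (eig_baseChange (Φ n) ⟨ℓ, hℓ⟩ hℓN (hΦhecke n ⟨ℓ, hℓ⟩ (hndvd' hℓ hℓN hℓp n)) v _
        (hv ℓ hℓ hℓN hℓS))) w
  · -- inertia
    intro n q hq hqN hqp P hP τ hτ
    exact orbitRep_eq_one _ _ fun τ' => inertia_rel hq (hndvd hq hqN hqp) n P hP hτ _
  · -- finite level
    intro n
    exact exists_level_orbitRep _ _ fun w => hasLevel_tensor R (p ^ n) w

/-- The eigenvector statement consumed below (= `Eigen.exists_eigenvector` of
`S30/Eigen.lean`, for the given data). -/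
def EigenStmt (N : ℕ) [NeZero N] (S : Set ℕ) (R : Type) [CommRing R]
    (χ : CuspForm.heckeAlgebra N 2 S →+* R) : Prop :=
  ∃ v : R ⊗[ℤ] Λ N,
    (∃ j, IsUnit ((Algebra.TensorProduct.basis R (Module.Free.chooseBasis ℤ (Λ N))).repr v j)) ∧
    ∀ (ℓ : ℕ) (hℓ : ℓ.Prime) (hℓN : ¬ ℓ ∣ N) (hℓS : ℓ ∉ S),
      (trΛ N ⟨ℓ, hℓ⟩ hℓN).baseChange R v = χ (CuspForm.heckeAlgebra.T hℓ hℓN hℓS) • v

/-- **The finite-level Galois modules** `W_n ⊂ R ⊗ J₀(N)(ℚ̄)[p^n]` of a Hecke character `χ`. -/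
theorem exists_levels (hemb : Emb.EmbStmt) (p : ℕ) [Fact p.Prime] (N : ℕ) [NeZero N]
    (S : Finset ℕ) (hpS : p ∈ S) (R : Type) [CommRing R] [IsDomain R] [CharZero R]
    (χ : CuspForm.heckeAlgebra N 2 (↑S : Set ℕ) →+* R) (heig : EigenStmt N (↑S : Set ℕ) R χ) :
    ∃ (W : ℕ → Type) (_ : ∀ n, AddCommGroup (W n)) (_ : ∀ n, Module R (W n))
      (ρ : ∀ n, GQ →* Module.End R (W n)) (x : ∀ n, W n),
      (∀ n (w : W n), (p : R) ^ n • w = 0) ∧
      (∀ n (r : R), r • x n = 0 → (p : R) ^ n ∣ r) ∧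
      (∀ (n ℓ : ℕ) (hℓ : ℓ.Prime) (hℓN : ¬ ℓ ∣ N) (hℓS : ℓ ∉ (↑S : Set ℕ))
        (A : ValuationSubring Qb), A.LiesOverPrime ℓ → ∀ σ : GQ, A.IsFrobeniusAt σ ℓ →
          ∀ w : W n, ρ n σ w + (ℓ : R) • ρ n σ⁻¹ w
            = χ (CuspForm.heckeAlgebra.T hℓ hℓN hℓS) • w) ∧
      (∀ (n q : ℕ), q.Prime → ¬ q ∣ N → q ≠ p → ∀ P : ValuationSubring Qb, P.LiesOverPrime q →
        ∀ τ ∈ P.inertiaSubgroupIn ℚ, ρ n τ = 1) ∧
      (∀ n : ℕ, ∃ L : IntermediateField ℚ Qb, FiniteDimensional ℚ L ∧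
        ∀ σ : GQ, (∀ y ∈ L, σ y = y) → ρ n σ = 1) := by
  obtain ⟨v, ⟨j, hj⟩, hv⟩ := heig
  exact exists_levels_of_vec hemb p N S hpS R χ v
    ((Algebra.TensorProduct.basis R (Module.Free.chooseBasis ℤ (Λ N))).coord j) hj hv

end Fermat.Agent.S30.Level
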