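/-
S30 (wave 10), leaf LEVEL, closed forms (helper27).

`S30/Level.lean` builds the finite-level Galois modules `W_n ⊂ R ⊗ J₀(N)(ℚ̄)[p^n]` from an
eigenvector with a unit coordinate.  Here the eigenvector is supplied by
`Eigen.exists_eigenvector` (`R` a discrete valuation ring) and the Hecke-equivariant maps
`Λ → J₀(N)(ℚ̄)[p^n]` by `EmbC.embStmt`:

* `LevelC.exists_levels` : the interface literal, with the hypothesis `Emb.EmbStmt`;
* `LevelC.levels` : the same conclusion with no hypothesis.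
-/
import Fermat.Agent.S30.Level
import Fermat.Agent.S30.Eigen
import Fermat.Agent.S30.EmbC

set_option autoImplicit false

noncomputable section

open scoped TensorProduct
open Fermat.Agent.S29 Fermat.Agent.S29.Transfer

namespace Fermat.Agent.S30.LevelC

local notation "Qb" => AlgebraicClosure ℚ
local notation "GQ" => (AlgebraicClosure ℚ ≃ₐ[ℚ] AlgebraicClosure ℚ)

/-- The eigenvector statement of `S30/Level.lean`, over a discrete valuation ring. -/
theorem eigenStmt (N : ℕ) [NeZero N] (S : Set ℕ) (R : Type) [CommRing R] [IsDomain R]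
    [IsDiscreteValuationRing R] (χ : CuspForm.heckeAlgebra N 2 S →+* R) :
    Level.EigenStmt N S R χ := by
  obtain ⟨v, hj, -, hv⟩ := Eigen.exists_eigenvector N S χ
  exact ⟨v, hj, hv⟩

/-- **The finite-level Galois modules** of a Hecke character `χ : 𝕋 → R`, `R` a discrete
valuation ring of characteristic zero. -/
theorem exists_levels (hemb : Emb.EmbStmt) (p : ℕ) [Fact p.Prime] (N : ℕ) [NeZero N]
    (S : Finset ℕ) (hpS : p ∈ S) (R : Type) [CommRing R] [IsDomain R]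
    [IsDiscreteValuationRing R] [CharZero R]
    (χ : CuspForm.heckeAlgebra N 2 (↑S : Set ℕ) →+* R) :
    ∃ (W : ℕ → Type) (_ : ∀ n, AddCommGroup (W n)) (_ : ∀ n, Module R (W n))
      (ρ : ∀ n, GQ →* Module.End R (W n)) (x : ∀ n, W n),
      (∀ n (w : W n), (p : R) ^ n • w = 0) ∧
      (∀ n (r : R), r • x n = 0 → (p : R) ^ n ∣ r) ∧
      (∀ (n ℓ : ℕ) (hℓ : ℓ.Prime) (hℓN : ¬ ℓ ∣ N) (hℓS : ℓ ∉ (↑S : Set ℕ))
        (A : ValuationSubring Qb), A.LiesOverPrime ℓ → ∀ σ : GQ, A.IsFrobeniusAt σ ℓ →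
          ∀ w : W n, ρ n σ w + (ℓ : R) • ρ n σ⁻¹ w
            = χ (CuspForm.heckeAlgebra.T hℓ hℓN hℓS) • w) ∧
      (∀ (n q : ℕ), q.Prime → ¬ q ∣ N → q ≠ p → ∀ P : ValuationSubring Qb, P.LiesOverPrime q →
        ∀ τ ∈ P.inertiaSubgroupIn ℚ, ρ n τ = 1) ∧
      (∀ n : ℕ, ∃ L : IntermediateField ℚ Qb, FiniteDimensional ℚ L ∧
        ∀ σ : GQ, (∀ y ∈ L, σ y = y) → ρ n σ = 1) :=
  Level.exists_levels hemb p N S hpS R χ (eigenStmt N (↑S : Set ℕ) R χ)

/-- **The finite-level Galois modules**, with no hypothesis. -/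
theorem levels (p : ℕ) [Fact p.Prime] (N : ℕ) [NeZero N]
    (S : Finset ℕ) (hpS : p ∈ S) (R : Type) [CommRing R] [IsDomain R]
    [IsDiscreteValuationRing R] [CharZero R]
    (χ : CuspForm.heckeAlgebra N 2 (↑S : Set ℕ) →+* R) :
    ∃ (W : ℕ → Type) (_ : ∀ n, AddCommGroup (W n)) (_ : ∀ n, Module R (W n))
      (ρ : ∀ n, GQ →* Module.End R (W n)) (x : ∀ n, W n),
      (∀ n (w : W n), (p : R) ^ n • w = 0) ∧
      (∀ n (r : R), r • x n = 0 → (p : R) ^ n ∣ r) ∧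
      (∀ (n ℓ : ℕ) (hℓ : ℓ.Prime) (hℓN : ¬ ℓ ∣ N) (hℓS : ℓ ∉ (↑S : Set ℕ))
        (A : ValuationSubring Qb), A.LiesOverPrime ℓ → ∀ σ : GQ, A.IsFrobeniusAt σ ℓ →
          ∀ w : W n, ρ n σ w + (ℓ : R) • ρ n σ⁻¹ w
            = χ (CuspForm.heckeAlgebra.T hℓ hℓN hℓS) • w) ∧
      (∀ (n q : ℕ), q.Prime → ¬ q ∣ N → q ≠ p → ∀ P : ValuationSubring Qb, P.LiesOverPrime q →
        ∀ τ ∈ P.inertiaSubgroupIn ℚ, ρ n τ = 1) ∧
      (∀ n : ℕ, ∃ L : IntermediateField ℚ Qb, FiniteDimensional ℚ L ∧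
        ∀ σ : GQ, (∀ y ∈ L, σ y = y) → ρ n σ = 1) :=
  exists_levels Fermat.Agent.S30.EmbC.embStmt p N S hpS R χ

end Fermat.Agent.S30.LevelC
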