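/-
S30, abstract core of the trace function.

`R` is a commutative ring which is separated and complete for the `π`-adic topology, `G` a group,
`ε : G →* Rˣ` a character.  For every `n` we are given an `R`-module `W n` with an action of `G`,
killed by `π ^ n`, and an element `x n` whose annihilator is exactly `π ^ n R`.  If for every `g`
and `n` the operator `g + ε(g) g⁻¹` is a scalar on `W 1, …, W n` simultaneously, then there is a
unique function `t : G → R` with

  `g + ε(g) g⁻¹ = t(g)` on every `W n`,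

and `t` is a two-dimensional pseudo-character with determinant `ε`:

* `exists_trace`, `trace_unique`;
* `trace_one : t 1 = 2`, `trace_mul : t (g h) + ε(h) t (g h⁻¹) = t g * t h`, `trace_conj`,
  `trace_inv`;
* `trace_congr`, `trace_eq` : continuity / triviality of inertia;
* `trace_frob` : the value of `t` at an element satisfying a quadratic equation on all `W n`;
* `trace_of_sq_eq_one` : `t c = 0` for an involution `c` with `ε c = -1`.

`padic_sep`, `padic_comp` : the two hypotheses on `R` for a complete discrete valuation ring and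
`π` a nonzero element of its maximal ideal.
-/
import Mathlib

set_option autoImplicit false

noncomputable section

namespace Fermat.Agent.S30.TraceCore

section Core

variable {R : Type*} [CommRing R] (π : R)
  {G : Type*} [Group G] (ε : G →* Rˣ)
  (W : ℕ → Type*) [∀ n, AddCommGroup (W n)] [∀ n, Module R (W n)]
  (ρ : ∀ n, G →* Module.End R (W n)) (x : ∀ n, W n)

/-- **Existence of the trace function.** -/
theorem exists_trace
    (hcomp : ∀ a : ℕ → R, (∀ n, π ^ n ∣ a (n + 1) - a n) → ∃ L : R, ∀ n, π ^ n ∣ L - a n)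
    (hann : ∀ n (r : R), r • x n = 0 → π ^ n ∣ r)
    (htor : ∀ n (w : W n), π ^ n • w = 0)
    (hloc : ∀ (g : G) (n : ℕ), ∃ τ : R, ∀ j ≤ n, ∀ w : W j,
      ρ j g w + (ε g : R) • ρ j g⁻¹ w = τ • w) :
    ∃ t : G → R, ∀ n g (w : W n), ρ n g w + (ε g : R) • ρ n g⁻¹ w = t g • w := by
  choose τ hτ using hloc
  have hcauchy : ∀ g n, π ^ n ∣ τ g (n + 1) - τ g n := by
    intro g n
    apply hann n
    rw [sub_smul, ← hτ g (n + 1) n (Nat.le_succ n) (x n), ← hτ g n n le_rfl (x n), sub_self]
  have hL : ∀ g, ∃ L : R, ∀ n, π ^ n ∣ L - τ g n := fun g => hcomp (τ g) (hcauchy g)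
  choose t ht using hL
  refine ⟨t, fun n g w => ?_⟩
  obtain ⟨c, hc⟩ := ht g n
  have h1 : t g = τ g n + π ^ n * c := by rw [← hc]; ring
  rw [h1, add_smul, mul_comm, mul_smul, htor n w, smul_zero, add_zero]
  exact hτ g n n le_rfl w

variable {π ε W ρ x}
variable (hsep : ∀ r : R, (∀ n : ℕ, π ^ n ∣ r) → r = 0)
  (hann : ∀ n (r : R), r • x n = 0 → π ^ n ∣ r)

include hsep hann in
/-- two scalars acting in the same way on all the `x n` are equal -/
theorem eq_of_forall_smul {X Y : R} (h : ∀ n, X • x n = Y • x n) : X = Y := by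
  have h1 : X - Y = 0 := hsep _ fun n => hann n _ (by rw [sub_smul, h n, sub_self])
  exact sub_eq_zero.mp h1

variable {t : G → R}
  (ht : ∀ n g (w : W n), ρ n g w + (ε g : R) • ρ n g⁻¹ w = t g • w)

include hsep hann ht in
/-- **Uniqueness of the trace function.** -/
theorem trace_unique {t' : G → R}
    (ht' : ∀ n g (w : W n), ρ n g w + (ε g : R) • ρ n g⁻¹ w = t' g • w) : t = t' := by
  funext g
  exact eq_of_forall_smul hsep hann fun n => by rw [← ht n g, ← ht' n g]

include hsep hann ht in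
theorem trace_one : t 1 = 2 := by
  refine eq_of_forall_smul hsep hann fun n => ?_
  rw [← ht n 1 (x n)]
  simp only [inv_one, map_one, Module.End.one_apply, Units.val_one, one_smul]
  rw [two_smul]

include hsep hann ht in
/-- **The pseudo-character identity.** -/
theorem trace_mul (g h : G) : t (g * h) + (ε h : R) * t (g * h⁻¹) = t g * t h := by
  refine eq_of_forall_smul hsep hann fun n => ?_
  set w := x n with hw
  have h1 := ht n (g * h) w
  have h2 := ht n (g * h⁻¹) w
  have h3 := ht n h w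
  have h4 := ht n h (ρ n g⁻¹ w)
  have h5 := ht n g w
  have e1 : ((ε h : R)) * (((ε h)⁻¹ : Rˣ) : R) = 1 := Units.mul_inv _
  simp only [mul_inv_rev, inv_inv, map_mul, Module.End.mul_apply, Units.val_mul] at h1 h2
  rw [map_inv ε h] at h2
  have e2 : (ε h : R) * ((ε g : R) * (((ε h)⁻¹ : Rˣ) : R)) = (ε g : R) := by
    rw [mul_left_comm, e1, mul_one]
  calc (t (g * h) + (ε h : R) * t (g * h⁻¹)) • w
      = t (g * h) • w + (ε h : R) • (t (g * h⁻¹) • w) := by rw [add_smul, mul_smul]
    _ = (ρ n g (ρ n h w) + ((ε g : R) * (ε h : R)) • ρ n h⁻¹ (ρ n g⁻¹ w))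
          + (ε h : R) • (ρ n g (ρ n h⁻¹ w)
            + ((ε g : R) * (((ε h)⁻¹ : Rˣ) : R)) • ρ n h (ρ n g⁻¹ w)) := by rw [← h1, ← h2]
    _ = ρ n g (ρ n h w + (ε h : R) • ρ n h⁻¹ w)
          + (ε g : R) • (ρ n h (ρ n g⁻¹ w) + (ε h : R) • ρ n h⁻¹ (ρ n g⁻¹ w)) := by
        rw [smul_add, smul_smul, e2, map_add, map_smul, smul_add, smul_smul]
        abel
    _ = ρ n g (t h • w) + (ε g : R) • (t h • ρ n g⁻¹ w) := by rw [h3, h4]
    _ = t h • (ρ n g w + (ε g : R) • ρ n g⁻¹ w) := by
        rw [map_smul, smul_add, smul_comm (t h) (ε g : R)]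
    _ = (t g * t h) • w := by rw [h5, smul_smul, mul_comm]

include hsep hann ht in
theorem trace_conj (g h : G) : t (h * g * h⁻¹) = t g := by
  refine eq_of_forall_smul hsep hann fun n => ?_
  set w := x n with hw
  have h1 := ht n (h * g * h⁻¹) w
  have h2 := ht n g (ρ n h⁻¹ w)
  have e : ε (h * g * h⁻¹) = ε g := by
    rw [map_mul, map_mul, map_inv, mul_comm (ε h), mul_assoc, mul_inv_cancel, mul_one]
  have e3 : ρ n h (ρ n h⁻¹ w) = w := by
    rw [← Module.End.mul_apply, ← map_mul, mul_inv_cancel, map_one, Module.End.one_apply]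
  have e4 : (h * g * h⁻¹)⁻¹ = h * g⁻¹ * h⁻¹ := by group
  rw [e, e4] at h1
  simp only [map_mul, Module.End.mul_apply] at h1
  rw [← h1]
  have h4 : ρ n h (ρ n g (ρ n h⁻¹ w)) + (ε g : R) • ρ n h (ρ n g⁻¹ (ρ n h⁻¹ w))
      = ρ n h (t g • ρ n h⁻¹ w) := by
    rw [← h2, map_add, map_smul]
  rw [h4, map_smul, e3]

include hsep hann ht in
theorem trace_inv (g : G) : (ε g : R) * t g⁻¹ = t g := by
  refine eq_of_forall_smul hsep hann fun n => ?_
  set w := x n with hw
  have h1 := ht n g⁻¹ w
  have h2 := ht n g w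
  have e1 : ((ε g : R)) * (((ε g)⁻¹ : Rˣ) : R) = 1 := Units.mul_inv _
  rw [inv_inv, map_inv ε g] at h1
  rw [mul_smul, ← h1, smul_add, smul_smul, e1, one_smul, add_comm, h2]

include hann ht in
/-- **Continuity**: if `σ` acts trivially on `W n` and `ε σ ≡ 1 mod π ^ n`, then
`t (g σ) ≡ t (σ g) ≡ t g mod π ^ n`. -/
theorem trace_congr (htor : ∀ n (w : W n), π ^ n • w = 0) (n : ℕ) (σ : G) (hσ : ρ n σ = 1)
    (hε : π ^ n ∣ (ε σ : R) - 1) (g : G) :
    π ^ n ∣ t (g * σ) - t g ∧ π ^ n ∣ t (σ * g) - t g := by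
  have hσ' : ρ n σ⁻¹ = 1 := by
    have : ρ n σ⁻¹ * ρ n σ = 1 := by rw [← map_mul, inv_mul_cancel, map_one]
    rwa [hσ, mul_one] at this
  obtain ⟨c, hc⟩ := hε
  have hεσ : (ε σ : R) = 1 + π ^ n * c := by rw [← hc]; ring
  set w := x n with hw
  have h0 := ht n g w
  have key : ∀ u : W n, ((ε g : R) * (ε σ : R)) • u = (ε g : R) • u := by
    intro u
    rw [hεσ, mul_add, mul_one, add_smul, mul_left_comm, mul_smul, htor n, add_zero]
  constructor
  · apply hann n
    have h1 := ht n (g * σ) w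
    simp only [mul_inv_rev, map_mul, Module.End.mul_apply, hσ, hσ', Module.End.one_apply,
      Units.val_mul] at h1
    rw [key] at h1
    rw [sub_smul, ← h1, ← h0, sub_self]
  · apply hann n
    have h1 := ht n (σ * g) w
    simp only [mul_inv_rev, map_mul, Module.End.mul_apply, hσ, hσ', Module.End.one_apply,
      Units.val_mul] at h1
    rw [mul_comm (ε σ : R), key] at h1
    rw [sub_smul, ← h1, ← h0, sub_self]

include hsep hann ht in
/-- **Inertia**: if `σ` acts trivially on all `W n` and `ε σ = 1`, then `t (g σ) = t (σ g) = t g`. -/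
theorem trace_eq (htor : ∀ n (w : W n), π ^ n • w = 0) (σ : G) (hσ : ∀ n, ρ n σ = 1)
    (hε : ε σ = 1) (g : G) : t (g * σ) = t g ∧ t (σ * g) = t g := by
  have h : ∀ n, π ^ n ∣ t (g * σ) - t g ∧ π ^ n ∣ t (σ * g) - t g := fun n =>
    trace_congr hann ht htor n σ (hσ n) (by rw [hε, Units.val_one, sub_self]; exact dvd_zero _) g
  exact ⟨sub_eq_zero.mp (hsep _ fun n => (h n).1), sub_eq_zero.mp (hsep _ fun n => (h n).2)⟩

include hsep hann ht in
/-- the value of `t` at an element which satisfies a quadratic equation on all `W n`. -/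
theorem trace_frob (σ : G) (a : R)
    (h : ∀ n (w : W n), ρ n σ w + (ε σ : R) • ρ n σ⁻¹ w = a • w) : t σ = a :=
  eq_of_forall_smul hsep hann fun n => by rw [← ht n σ, h n]

include hsep hann ht in
theorem trace_of_sq_eq_one (c : G) (hc : c * c = 1) (hε : ε c = -1) : t c = 0 := by
  refine eq_of_forall_smul hsep hann fun n => ?_
  have hinv : c⁻¹ = c := inv_eq_of_mul_eq_one_left hc
  have h1 := ht n c (x n)
  rw [hinv, hε] at h1
  rw [← h1, zero_smul]
  simp

end Core

section DVR

open IsLocalRing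

variable {R : Type*} [CommRing R] [IsDomain R] [IsDiscreteValuationRing R]

/-- `π`-adic separation of a complete discrete valuation ring. -/
theorem padic_sep [IsHausdorff (maximalIdeal R) R] {π : R} (hπ : π ∈ maximalIdeal R) (r : R)
    (h : ∀ n : ℕ, π ^ n ∣ r) : r = 0 := by
  apply IsHausdorff.haus (I := maximalIdeal R) inferInstance
  intro n
  rw [SModEq.zero, smul_eq_mul, Ideal.mul_top]
  obtain ⟨c, rfl⟩ := h n
  exact Ideal.mul_mem_right _ _ (Ideal.pow_mem_pow hπ n)

/-- `π`-adic completeness of a complete discrete valuation ring. -/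
theorem padic_comp [IsPrecomplete (maximalIdeal R) R] {π : R} (hπ0 : π ≠ 0) (a : ℕ → R)
    (h : ∀ n, π ^ n ∣ a (n + 1) - a n) : ∃ L : R, ∀ n, π ^ n ∣ L - a n := by
  by_cases hu : IsUnit π
  · exact ⟨0, fun n => (hu.pow n).dvd⟩
  have hπm : π ∈ maximalIdeal R := by
    rw [mem_maximalIdeal, mem_nonunits_iff]
    exact hu
  -- telescoping
  have htel : ∀ n k, π ^ n ∣ a (n + k) - a n := by
    intro n k
    induction k with
    | zero => simp
    | succ k ih =>
      have h1 : π ^ n ∣ a (n + k + 1) - a (n + k) :=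
        (pow_dvd_pow π (Nat.le_add_right n k)).trans (h (n + k))
      have h2 : a (n + (k + 1)) - a n = (a (n + k + 1) - a (n + k)) + (a (n + k) - a n) := by
        rw [← add_assoc]; ring
      rw [h2]
      exact dvd_add h1 ih
  have htel' : ∀ m n, m ≤ n → π ^ m ∣ a n - a m := by
    intro m n hmn
    obtain ⟨k, rfl⟩ := Nat.exists_eq_add_of_le hmn
    exact htel m k
  -- `π R` contains a power of the maximal ideal
  obtain ⟨ϖ, hϖ⟩ := IsDiscreteValuationRing.exists_irreducible R
  have hne : (Ideal.span {π} : Ideal R) ≠ ⊥ := by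
    rw [Ne, Ideal.span_singleton_eq_bot]
    exact hπ0
  obtain ⟨e, he⟩ := IsDiscreteValuationRing.ideal_eq_span_pow_irreducible hne hϖ
  have hmax : maximalIdeal R = Ideal.span {ϖ} := hϖ.maximalIdeal_eq
  have hpow : ∀ n, maximalIdeal R ^ (e * n) ≤ Ideal.span {π ^ n} := by
    intro n
    rw [hmax, pow_mul, Ideal.span_singleton_pow, ← he, Ideal.span_singleton_pow]
  -- the limit
  have hc : ∀ {m n : ℕ}, m ≤ n → a m ≡ a n [SMOD (maximalIdeal R ^ m • ⊤ : Submodule R R)] := by
    intro m n hmn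
    rw [SModEq.sub_mem, smul_eq_mul, Ideal.mul_top]
    obtain ⟨c, hc⟩ := htel' m n hmn
    have h1 : a m - a n = π ^ m * (-c) := by
      rw [mul_neg, ← hc]; ring
    rw [h1]
    exact Ideal.mul_mem_right _ _ (Ideal.pow_mem_pow hπm m)
  obtain ⟨L, hL⟩ := IsPrecomplete.prec (I := maximalIdeal R) (M := R) inferInstance
    (f := a) (fun {m n} hmn => hc hmn)
  refine ⟨L, fun n => ?_⟩
  have h1 : a (e * n + n) - L ∈ maximalIdeal R ^ (e * n) := by
    have := hL (e * n + n)
    rw [SModEq.sub_mem, smul_eq_mul, Ideal.mul_top] at this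
    exact Ideal.pow_le_pow_right (Nat.le_add_right _ _) this
  have h2 : π ^ n ∣ a (e * n + n) - L := Ideal.mem_span_singleton.mp (hpow n h1)
  have h3 : π ^ n ∣ a (e * n + n) - a n := htel' n (e * n + n) (Nat.le_add_left _ _)
  have h4 : L - a n = (a (e * n + n) - a n) - (a (e * n + n) - L) := by ring
  rw [h4]
  exact dvd_sub h3 h2

end DVR

end Fermat.Agent.S30.TraceCore
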