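/-
S30 (wave 10), leaf TRACE (helper28): the trace function `t : G_ℚ → R` of the Galois
representation attached to a character `χ` of the Hecke algebra, with values in the complete
discrete valuation ring `R = 𝒪'`.

Input (`S30/Level.lean`): for every `n` an `R`-module `W n` killed by `pⁿ` with an action of
`G_ℚ` of finite level, unramified outside `N p`, an element `x n` with exact annihilator `pⁿ R`,
and the Eichler–Shimura relation `σ + ℓ σ⁻¹ = χ(T_ℓ)` on `W n` for every Frobenius element `σ`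
at a prime `ℓ ∉ S`.  No compatibility between the levels is needed.

For `g ∈ G_ℚ` and `n`, weak Chebotarev on a number field which trivialises `W 0, …, W n` and
contains the `pⁿ`-th roots of unity gives a Frobenius element `τ` at `ℓ ∉ S` and `m` with
`g = τ ^ m` there; then `g + ε(g) g⁻¹` acts on `W 0, …, W n` by the Dickson scalar
`D_m(χ(T_ℓ), ℓ)` (`ε` the `p`-adic cyclotomic character).  The abstract core (`TraceCore`) turns
these local scalars into one function `t` with `g + ε(g) g⁻¹ = t(g)` on all `W n`, and gives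

* `t 1 = 2`, `t (g h) + ε(h) t (g h⁻¹) = t g * t h` (pseudo-character of dimension `2`);
* `t σ = χ(T_ℓ)` for every Frobenius element `σ` at `ℓ ∉ S`;
* `t (g τ) = t g` for `τ` in an inertia group at `q ∤ N`, `q ≠ p`;
* `t (g σ) ≡ t g` modulo `𝔪ⁿ` for all `σ` in an open subgroup.
-/
import Fermat.Agent.S30.TraceCore
import Fermat.Agent.S29.FinLevel
import Fermat.Agent.S31.CycPow
import Fermat.Prelude.Def_CuspForm_HeckeAlgebra

set_option autoImplicit false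

noncomputable section

namespace Fermat.Agent.S30.Trace

local notation "Qb" => AlgebraicClosure ℚ
local notation "GQ" => (AlgebraicClosure ℚ ≃ₐ[ℚ] AlgebraicClosure ℚ)

open Fermat.Agent.S29 (ChebStmt)
open Fermat.Agent.S29.FinLevel (Eventually)

/-! ### The Dickson recursion -/

section Dickson

variable {R : Type*} [CommRing R]

/-- The Dickson sequence `D₀ = 2`, `D₁ = a`, `D_{m+2} = a D_{m+1} - c D_m`. -/
def dk (a c : R) : ℕ → R
  | 0 => 2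
  | 1 => a
  | (m + 2) => a * dk a c (m + 1) - c * dk a c m

/-- If `s + c s⁻¹ = a` then `s ^ m + c ^ m s⁻ᵐ = D_m(a, c)`. -/
theorem pow_add_smul_pow_eq {E : Type*} [Ring E] [Algebra R E] {s s' : E}
    (hs : s * s' = 1) (hs' : s' * s = 1) {c a : R} (h : s + c • s' = a • (1 : E)) (m : ℕ) :
    s ^ m + c ^ m • s' ^ m = dk a c m • (1 : E) := by
  suffices H : ∀ m : ℕ, s ^ m + c ^ m • s' ^ m = dk a c m • (1 : E) ∧
      s ^ (m + 1) + c ^ (m + 1) • s' ^ (m + 1) = dk a c (m + 1) • (1 : E) from (H m).1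
  intro m
  induction m with
  | zero =>
    refine ⟨?_, ?_⟩
    · simp [dk, two_smul]
    · simpa [dk] using h
  | succ m ih =>
    obtain ⟨h0, h1⟩ := ih
    refine ⟨h1, ?_⟩
    have key : s ^ (m + 1 + 1) + c ^ (m + 1 + 1) • s' ^ (m + 1 + 1)
        = (s ^ (m + 1) + c ^ (m + 1) • s' ^ (m + 1)) * (s + c • s')
          - c • (s ^ m + c ^ m • s' ^ m) := by
      have e1 : s ^ (m + 1) * s' = s ^ m := by rw [pow_succ, mul_assoc, hs, mul_one]
      have e2 : s' ^ (m + 1) * s = s' ^ m := by rw [pow_succ, mul_assoc, hs', mul_one]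
      have e3 : s ^ (m + 1) * s = s ^ (m + 1 + 1) := (pow_succ s (m + 1)).symm
      have e4 : s' ^ (m + 1) * s' = s' ^ (m + 1 + 1) := (pow_succ s' (m + 1)).symm
      rw [add_mul, mul_add, mul_add, mul_smul_comm, smul_mul_assoc, smul_mul_assoc,
        mul_smul_comm, e1, e2, e3, e4, smul_smul]
      module
    have hd : dk a c (m + 1 + 1) = dk a c (m + 1) * a - c * dk a c m := by
      rw [dk, mul_comm]
    rw [key, h1, h, h0, smul_mul_smul_comm, mul_one, smul_smul, ← sub_smul, hd]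

end Dickson

/-! ### Roots of unity are fixed by an open subgroup -/

theorem eventually_roots (M : ℕ) (hM : 0 < M) :
    Eventually fun σ : GQ => ∀ ζ : Qb, ζ ^ M = 1 → σ ζ = ζ := by
  have h := Eventually.finset (Polynomial.nthRootsFinset M (1 : Qb))
    (p := fun ζ σ => σ ζ = ζ) fun ζ _ => Fermat.Agent.S29.FinLevel.eventually_const ζ
  exact h.mono fun σ hσ ζ hζ => hσ ζ ((Polynomial.mem_nthRootsFinset hM (1 : Qb)).mpr hζ)

/-! ### The trace function -/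

section Main

open IsLocalRing

variable (p : ℕ) [Fact p.Prime] (N : ℕ) [NeZero N] (S : Finset ℕ)
  (R : Type) [CommRing R] [IsDomain R] [IsDiscreteValuationRing R]
  [IsAdicComplete (maximalIdeal R) R] [CharZero R]
  (χ : CuspForm.heckeAlgebra N 2 (↑S : Set ℕ) →+* R)

/-- **The trace function from the levels** (data of `Level.exists_levels` as explicit
arguments). -/
theorem exists_trace_of_levels (hcheb : ChebStmt) (hpS : p ∈ S)
    (hNS : ∀ q : ℕ, q.Prime → q ∣ N → q ∈ S) (hpR : (p : R) ∈ maximalIdeal R)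
    (W : ℕ → Type) [∀ n, AddCommGroup (W n)] [∀ n, Module R (W n)]
    (ρ : ∀ n, GQ →* Module.End R (W n)) (x : ∀ n, W n)
    (htor : ∀ n (w : W n), (p : R) ^ n • w = 0)
    (hann : ∀ n (r : R), r • x n = 0 → (p : R) ^ n ∣ r)
    (hfrob : ∀ (n ℓ : ℕ) (hℓ : ℓ.Prime) (hℓN : ¬ ℓ ∣ N) (hℓS : ℓ ∉ (↑S : Set ℕ))
      (A : ValuationSubring Qb), A.LiesOverPrime ℓ → ∀ σ : GQ, A.IsFrobeniusAt σ ℓ →
      ∀ w : W n, ρ n σ w + (ℓ : R) • ρ n σ⁻¹ w = χ (CuspForm.heckeAlgebra.T hℓ hℓN hℓS) • w)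
    (hinert : ∀ (n q : ℕ), q.Prime → ¬ q ∣ N → q ≠ p → ∀ P : ValuationSubring Qb,
      P.LiesOverPrime q → ∀ τ ∈ P.inertiaSubgroupIn ℚ, ρ n τ = 1)
    (hlevel : ∀ n : ℕ, ∃ L : IntermediateField ℚ Qb, FiniteDimensional ℚ L ∧
      ∀ σ : GQ, (∀ y ∈ L, σ y = y) → ρ n σ = 1)
    (ε : GQ →* Rˣ)
    (hε1 : ∀ (g : GQ) (n m : ℕ), (∀ ζ : Qb, ζ ^ (p ^ n) = 1 → g ζ = ζ ^ m) →
      ((ε g : R) - (m : R)) ∈ Ideal.span {(p : R) ^ n})
    (hε2 : ∀ ℓ : ℕ, ℓ.Prime → ℓ ≠ p → ∀ A : ValuationSubring Qb, A.LiesOverPrime ℓ →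
      ∀ σ : GQ, A.IsFrobeniusAt σ ℓ → ((ε σ : Rˣ) : R) = (ℓ : R))
    (hε3 : ∀ q : ℕ, q.Prime → q ≠ p → ∀ B : ValuationSubring Qb, B.LiesOverPrime q →
      ∀ τ ∈ B.inertiaSubgroupIn ℚ, ε τ = 1) :
    ∃ t : GQ → R, t 1 = 2 ∧
      (∀ g h, t (g * h) + ((ε h : Rˣ) : R) * t (g * h⁻¹) = t g * t h) ∧
      (∀ (ℓ : ℕ) (hℓ : ℓ.Prime) (hℓN : ¬ ℓ ∣ N) (hℓS : ℓ ∉ (↑S : Set ℕ))
        (A : ValuationSubring Qb), A.LiesOverPrime ℓ → ∀ σ : GQ, A.IsFrobeniusAt σ ℓ →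
        t σ = χ (CuspForm.heckeAlgebra.T hℓ hℓN hℓS)) ∧
      (∀ q : ℕ, q.Prime → ¬ q ∣ N → q ≠ p → ∀ P : ValuationSubring Qb, P.LiesOverPrime q →
        ∀ τ ∈ P.inertiaSubgroupIn ℚ, ∀ g, t (g * τ) = t g) ∧
      (∀ n : ℕ, ∃ L : IntermediateField ℚ Qb, FiniteDimensional ℚ L ∧
        ∀ σ : GQ, (∀ x ∈ L, σ x = x) → ∀ g, t (g * σ) - t g ∈ maximalIdeal R ^ n) := by
  have hpP : p.Prime := Fact.out
  have hp0 : (p : R) ≠ 0 := Nat.cast_ne_zero.mpr hpP.ne_zero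
  have hsep : ∀ r : R, (∀ n : ℕ, (p : R) ^ n ∣ r) → r = 0 := fun r h =>
    TraceCore.padic_sep hpR r h
  have hcomp : ∀ a : ℕ → R, (∀ n, (p : R) ^ n ∣ a (n + 1) - a n) →
      ∃ L : R, ∀ n, (p : R) ^ n ∣ L - a n := fun a h => TraceCore.padic_comp hp0 a h
  -- the local scalars
  have hloc : ∀ (g : GQ) (n : ℕ), ∃ τ : R, ∀ j ≤ n, ∀ w : W j,
      ρ j g w + (ε g : R) • ρ j g⁻¹ w = τ • w := by
    intro g n
    have E1 : Eventually fun σ : GQ => ∀ j ∈ Finset.range (n + 1), ρ j σ = 1 :=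
      Eventually.finset (Finset.range (n + 1)) (p := fun j σ => ρ j σ = 1) fun j _ => hlevel j
    have E2 := eventually_roots (p ^ n) (pow_pos hpP.pos n)
    obtain ⟨L, hLfin, hL⟩ := E1.and E2
    obtain ⟨ℓ, A, τ, m, hℓ, hℓS, hA, hτ, hgτ⟩ := hcheb L hLfin S g
    have hℓp : ℓ ≠ p := fun h => hℓS (h ▸ hpS)
    have hℓN : ¬ ℓ ∣ N := fun h => hℓS (hNS ℓ hℓ h)
    have hℓS' : ℓ ∉ (↑S : Set ℕ) := fun h => hℓS (Finset.mem_coe.mp h)
    refine ⟨dk (χ (CuspForm.heckeAlgebra.T hℓ hℓN hℓS')) (ℓ : R) m, fun j hj w => ?_⟩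
    -- two elements of the open subgroup
    have hσ₁ : ∀ y ∈ L, ((τ ^ m)⁻¹ * g) y = y := by
      intro y hy
      rw [AlgEquiv.mul_apply, hgτ y hy, AlgEquiv.aut_inv, AlgEquiv.symm_apply_apply]
    have hσ₂ : ∀ y ∈ L, (g⁻¹ * τ ^ m) y = y := by
      intro y hy
      rw [AlgEquiv.mul_apply, ← hgτ y hy, AlgEquiv.aut_inv, AlgEquiv.symm_apply_apply]
    obtain ⟨h1ρ, h1ζ⟩ := hL _ hσ₁
    obtain ⟨h2ρ, -⟩ := hL _ hσ₂
    have hjr : j ∈ Finset.range (n + 1) := Finset.mem_range.mpr (Nat.lt_succ_of_le hj)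
    have hg : ρ j g = ρ j τ ^ m := by
      have e : g = τ ^ m * ((τ ^ m)⁻¹ * g) := by rw [mul_inv_cancel_left]
      rw [e, map_mul, h1ρ j hjr, mul_one, map_pow]
    have hginv : ρ j g⁻¹ = ρ j τ⁻¹ ^ m := by
      have e : g⁻¹ = (g⁻¹ * τ ^ m) * (τ⁻¹) ^ m := by rw [inv_pow, mul_inv_cancel_right]
      rw [e, map_mul, h2ρ j hjr, one_mul, map_pow]
    -- the Eichler–Shimura relation and the Dickson recursion
    have hs : ρ j τ * ρ j τ⁻¹ = 1 := by rw [← map_mul, mul_inv_cancel, map_one]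
    have hs' : ρ j τ⁻¹ * ρ j τ = 1 := by rw [← map_mul, inv_mul_cancel, map_one]
    have hrel : ρ j τ + (ℓ : R) • ρ j τ⁻¹
        = χ (CuspForm.heckeAlgebra.T hℓ hℓN hℓS') • (1 : Module.End R (W j)) :=
      LinearMap.ext fun w => hfrob j ℓ hℓ hℓN hℓS' A hA τ hτ w
    have hpow := pow_add_smul_pow_eq hs hs' hrel m
    -- the cyclotomic character of `g`
    have hεg : ((ε g : R) - ((ℓ ^ m : ℕ) : R)) ∈ Ideal.span {(p : R) ^ n} := by
      refine hε1 g n (ℓ ^ m) fun ζ hζ => ?_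
      have e1 := h1ζ ζ hζ
      have e2 : g ζ = (τ ^ m) ζ := by
        have := congrArg (τ ^ m) e1
        rwa [← AlgEquiv.mul_apply, mul_inv_cancel_left] at this
      rw [e2]
      exact Fermat.Agent.S31.CycPow.frob_pow_apply A hpP hℓ hℓp hA hτ n ζ hζ m
    have hεw : ∀ u : W j, (ε g : R) • u = ((ℓ : R) ^ m) • u := by
      intro u
      obtain ⟨c, hc⟩ := Ideal.mem_span_singleton'.mp hεg
      have h3 : (ε g : R) = (ℓ : R) ^ m + c * ((p : R) ^ (n - j) * (p : R) ^ j) := by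
        rw [← pow_add, Nat.sub_add_cancel hj, hc]
        push_cast
        ring
      rw [h3, add_smul, mul_smul, mul_smul, htor j u, smul_zero, smul_zero, add_zero]
    rw [hg, hginv, hεw]
    exact congrArg (fun f : Module.End R (W j) => f w) hpow
  obtain ⟨t, ht⟩ := TraceCore.exists_trace (p : R) ε W ρ x hcomp hann htor hloc
  refine ⟨t, TraceCore.trace_one hsep hann ht, fun g h => TraceCore.trace_mul hsep hann ht g h,
    ?_, ?_, ?_⟩
  · intro ℓ hℓ hℓN hℓS A hA σ hσ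
    have hℓp : ℓ ≠ p := fun h => hℓS (Finset.mem_coe.mpr (h ▸ hpS))
    refine TraceCore.trace_frob hsep hann ht σ _ fun n w => ?_
    rw [hε2 ℓ hℓ hℓp A hA σ hσ]
    exact hfrob n ℓ hℓ hℓN hℓS A hA σ hσ w
  · intro q hq hqN hqp P hP τ hτ g
    exact (TraceCore.trace_eq hsep hann ht htor τ (fun n => hinert n q hq hqN hqp P hP τ hτ)
      (hε3 q hq hqp P hP τ hτ) g).1
  · intro n
    obtain ⟨L, hLfin, hL⟩ := (show Eventually fun σ : GQ => ρ n σ = 1 from hlevel n).and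
      (eventually_roots (p ^ n) (pow_pos hpP.pos n))
    refine ⟨L, hLfin, fun σ hσ g => ?_⟩
    obtain ⟨hρσ, hζσ⟩ := hL σ hσ
    have hεσ : (p : R) ^ n ∣ (ε σ : R) - 1 := by
      have h1 := hε1 σ n 1 fun ζ hζ => by rw [pow_one]; exact hζσ ζ hζ
      rw [Nat.cast_one] at h1
      exact Ideal.mem_span_singleton.mp h1
    obtain ⟨c, hc⟩ := (TraceCore.trace_congr hann ht htor n σ hρσ hεσ g).1
    rw [hc]
    exact Ideal.mul_mem_right _ _ (Ideal.pow_mem_pow hpR n)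

/-- **The trace function**, with the data of `Level.exists_levels` packaged as in its
statement. -/
theorem exists_trace (hcheb : ChebStmt) (hpS : p ∈ S)
    (hNS : ∀ q : ℕ, q.Prime → q ∣ N → q ∈ S) (hpR : (p : R) ∈ maximalIdeal R)
    (hlev : ∃ (W : ℕ → Type) (_ : ∀ n, AddCommGroup (W n)) (_ : ∀ n, Module R (W n))
      (ρ : ∀ n, GQ →* Module.End R (W n)) (x : ∀ n, W n),
      (∀ n (w : W n), (p : R) ^ n • w = 0) ∧
      (∀ n (r : R), r • x n = 0 → (p : R) ^ n ∣ r) ∧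
      (∀ (n ℓ : ℕ) (hℓ : ℓ.Prime) (hℓN : ¬ ℓ ∣ N) (hℓS : ℓ ∉ (↑S : Set ℕ))
        (A : ValuationSubring Qb), A.LiesOverPrime ℓ → ∀ σ : GQ, A.IsFrobeniusAt σ ℓ →
        ∀ w : W n, ρ n σ w + (ℓ : R) • ρ n σ⁻¹ w
          = χ (CuspForm.heckeAlgebra.T hℓ hℓN hℓS) • w) ∧
      (∀ (n q : ℕ), q.Prime → ¬ q ∣ N → q ≠ p → ∀ P : ValuationSubring Qb,
        P.LiesOverPrime q → ∀ τ ∈ P.inertiaSubgroupIn ℚ, ρ n τ = 1) ∧
      (∀ n : ℕ, ∃ L : IntermediateField ℚ Qb, FiniteDimensional ℚ L ∧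
        ∀ σ : GQ, (∀ y ∈ L, σ y = y) → ρ n σ = 1))
    (ε : GQ →* Rˣ)
    (hε1 : ∀ (g : GQ) (n m : ℕ), (∀ ζ : Qb, ζ ^ (p ^ n) = 1 → g ζ = ζ ^ m) →
      ((ε g : R) - (m : R)) ∈ Ideal.span {(p : R) ^ n})
    (hε2 : ∀ ℓ : ℕ, ℓ.Prime → ℓ ≠ p → ∀ A : ValuationSubring Qb, A.LiesOverPrime ℓ →
      ∀ σ : GQ, A.IsFrobeniusAt σ ℓ → ((ε σ : Rˣ) : R) = (ℓ : R))
    (hε3 : ∀ q : ℕ, q.Prime → q ≠ p → ∀ B : ValuationSubring Qb, B.LiesOverPrime q →
      ∀ τ ∈ B.inertiaSubgroupIn ℚ, ε τ = 1) :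
    ∃ t : GQ → R, t 1 = 2 ∧
      (∀ g h, t (g * h) + ((ε h : Rˣ) : R) * t (g * h⁻¹) = t g * t h) ∧
      (∀ (ℓ : ℕ) (hℓ : ℓ.Prime) (hℓN : ¬ ℓ ∣ N) (hℓS : ℓ ∉ (↑S : Set ℕ))
        (A : ValuationSubring Qb), A.LiesOverPrime ℓ → ∀ σ : GQ, A.IsFrobeniusAt σ ℓ →
        t σ = χ (CuspForm.heckeAlgebra.T hℓ hℓN hℓS)) ∧
      (∀ q : ℕ, q.Prime → ¬ q ∣ N → q ≠ p → ∀ P : ValuationSubring Qb, P.LiesOverPrime q →
        ∀ τ ∈ P.inertiaSubgroupIn ℚ, ∀ g, t (g * τ) = t g) ∧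
      (∀ n : ℕ, ∃ L : IntermediateField ℚ Qb, FiniteDimensional ℚ L ∧
        ∀ σ : GQ, (∀ x ∈ L, σ x = x) → ∀ g, t (g * σ) - t g ∈ maximalIdeal R ^ n) := by
  obtain ⟨W, _, _, ρ, x, htor, hann, hfrob, hinert, hlevel⟩ := hlev
  exact exists_trace_of_levels p N S R χ hcheb hpS hNS hpR W ρ x htor hann hfrob hinert hlevel
    ε hε1 hε2 hε3

end Main

end Fermat.Agent.S30.Trace
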