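import Fermat.Agent.S30.PseudoRep

/-!
# S30, leaf (W): Wiles' 2×2 construction over a domain — integrality and congruences

`R` is a domain with fraction field `K`, `2 ≠ 0`; `(t, d)` is an `R`-valued pseudo-character of
a group `G` (`t 1 = 2`, `t (g h) + d h · t (g h⁻¹) = t g · t h`) and `c ∈ G` satisfies
`c² = 1`, `d c = −1` ("complex conjugation").  Wiles' matrices are
`ρ g = !![a g, u·x(g,h₀); w·x(g₀,g), δ g]` with `a g = (t g + t (c g))/2`,
`δ g = (t g − t (c g))/2`, `x(g,h) = a (g h) − a g · a h`.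

* `integral_of_entries` / `exists_rep_of_entries`: any homomorphism with these entries has
  bounded denominators (`δ·ρ g ∈ M₂(R)` for one `δ ≠ 0`), and `t (g σ) − t g ∈ I` for all `g`
  implies `δ·(ρ σ − 1) ∈ M₂(I)` (every ideal `I` of `R`).
* `exists_rep`: **(W)**, closed form — the existence of such a `ρ` (trace `t`, determinant `d`)
  from helper4's field-level `PseudoRep.exists_rep_entries`; `exists_rep'`: the same with the
  equations oriented as in `Lat.exists_galoisRepAdic`, plus `(∀ g, t (g σ) = t g) → ρ σ = 1`.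
-/

namespace Fermat.Agent.S30.Wiles

open Matrix

section ringLevel

variable {R : Type*} [CommRing R] {G : Type*} [Group G]

/-- `2·a(g)`, twice the upper-left entry of Wiles' matrix. -/
def A2 (t : G → R) (c : G) (g : G) : R := t g + t (c * g)

/-- `2·δ(g)`, twice the lower-right entry of Wiles' matrix. -/
def D2 (t : G → R) (c : G) (g : G) : R := t g - t (c * g)

/-- `4·x(g,h)`, four times Wiles' off-diagonal function. -/
def X4 (t : G → R) (c : G) (g h : G) : R :=
  2 * A2 t c (g * h) - A2 t c g * A2 t c h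

variable (t : G → R) (d : G →* Rˣ)

theorem unit_mul_inv (h1 : t 1 = 2)
    (hPC : ∀ g h, t (g * h) + (d h : R) * t (g * h⁻¹) = t g * t h) (h : G) :
    (d h : R) * t h⁻¹ = t h := by
  have := hPC 1 h
  rw [one_mul, one_mul, h1] at this
  linear_combination this

theorem map_comm (h1 : t 1 = 2)
    (hPC : ∀ g h, t (g * h) + (d h : R) * t (g * h⁻¹) = t g * t h) (g h : G) :
    t (g * h) = t (h * g) := by
  have e1 := hPC g h
  have e2 := hPC h g
  have e3 := unit_mul_inv t d h1 hPC (g * h⁻¹)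
  rw [_root_.mul_inv_rev, inv_inv, map_mul, map_inv, Units.val_mul] at e3
  have e4 : (d h : R) * ((d h)⁻¹ : Rˣ) = 1 := by
    rw [← Units.val_mul, mul_inv_cancel, Units.val_one]
  linear_combination e1 - e2 + (d h : R) * e3 - (d g : R) * t (h * g⁻¹) * e4

theorem map_conj_eq_zero [IsDomain R] (h1 : t 1 = 2)
    (hPC : ∀ g h, t (g * h) + (d h : R) * t (g * h⁻¹) = t g * t h)
    (c : G) (hc : c * c = 1) (hdc : ((d c : Rˣ) : R) = -1) : t c = 0 := by
  have e := hPC c c
  rw [hc, mul_inv_cancel, hdc, h1] at e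
  have : t c * t c = 0 := by linear_combination -e
  exact mul_self_eq_zero.mp this

section ideal

variable {t d}
variable (I : Ideal R) (c σ : G)

theorem A2_mul_right_sub_mem (hσ : ∀ g, t (g * σ) - t g ∈ I) (g : G) :
    A2 t c (g * σ) - A2 t c g ∈ I := by
  have e : A2 t c (g * σ) - A2 t c g
      = (t (g * σ) - t g) + (t (c * g * σ) - t (c * g)) := by
    unfold A2; rw [mul_assoc]; ring
  rw [e]
  exact I.add_mem (hσ g) (hσ (c * g))

theorem A2_mul_left_sub_mem (h1 : t 1 = 2)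
    (hPC : ∀ g h, t (g * h) + (d h : R) * t (g * h⁻¹) = t g * t h)
    (hσ : ∀ g, t (g * σ) - t g ∈ I) (g : G) :
    A2 t c (σ * g) - A2 t c g ∈ I := by
  have e : A2 t c (σ * g) - A2 t c g
      = (t (g * σ) - t g) + (t (g * c * σ) - t (g * c)) := by
    unfold A2
    rw [map_comm t d h1 hPC σ g, map_comm t d h1 hPC c (σ * g), map_comm t d h1 hPC c g,
      map_comm t d h1 hPC (σ * g) c, ← mul_assoc, map_comm t d h1 hPC _ g]
    rw [show g * (c * σ) = g * c * σ by rw [mul_assoc]]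
    ring
  rw [e]
  exact I.add_mem (hσ g) (hσ (g * c))

theorem A2_sub_two_mem (h1 : t 1 = 2) (htc : t c = 0)
    (hσ : ∀ g, t (g * σ) - t g ∈ I) : A2 t c σ - 2 ∈ I := by
  have e : A2 t c σ - 2 = (t (1 * σ) - t 1) + (t (c * σ) - t c) := by
    unfold A2; rw [one_mul, h1, htc]; ring
  rw [e]
  exact I.add_mem (hσ 1) (hσ c)

theorem D2_sub_two_mem (h1 : t 1 = 2) (htc : t c = 0)
    (hσ : ∀ g, t (g * σ) - t g ∈ I) : D2 t c σ - 2 ∈ I := by
  have e : D2 t c σ - 2 = (t (1 * σ) - t 1) - (t (c * σ) - t c) := by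
    unfold D2; rw [one_mul, h1, htc]; ring
  rw [e]
  exact I.sub_mem (hσ 1) (hσ c)

theorem X4_right_mem (h1 : t 1 = 2) (htc : t c = 0)
    (hσ : ∀ g, t (g * σ) - t g ∈ I) (g : G) : X4 t c g σ ∈ I := by
  have e : X4 t c g σ
      = 2 * (A2 t c (g * σ) - A2 t c g) - A2 t c g * (A2 t c σ - 2) := by
    unfold X4; ring
  rw [e]
  exact I.sub_mem (I.mul_mem_left _ (A2_mul_right_sub_mem I c σ hσ g))
    (I.mul_mem_left _ (A2_sub_two_mem I c σ h1 htc hσ))

theorem X4_left_mem (h1 : t 1 = 2)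
    (hPC : ∀ g h, t (g * h) + (d h : R) * t (g * h⁻¹) = t g * t h) (htc : t c = 0)
    (hσ : ∀ g, t (g * σ) - t g ∈ I) (h : G) : X4 t c σ h ∈ I := by
  have e : X4 t c σ h
      = 2 * (A2 t c (σ * h) - A2 t c h) - (A2 t c σ - 2) * A2 t c h := by
    unfold X4; ring
  rw [e]
  exact I.sub_mem (I.mul_mem_left _ (A2_mul_left_sub_mem I c σ h1 hPC hσ h))
    (I.mul_mem_right _ (A2_sub_two_mem I c σ h1 htc hσ))

end ideal

end ringLevel


section wrapper

variable {R : Type*} [CommRing R] [IsDomain R] {K : Type*} [Field K] [Algebra R K]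
  [IsFractionRing R K] {G : Type*} [Group G]

omit [IsDomain R] [IsFractionRing R K] in
theorem aa_eq (t : G → R) (c g : G) :
    PseudoRep.aa (fun g => algebraMap R K (t g)) c g = algebraMap R K (A2 t c g) / 2 := by
  unfold PseudoRep.aa A2; rw [map_add]

omit [IsDomain R] [IsFractionRing R K] in
theorem dd_eq (t : G → R) (c g : G) :
    PseudoRep.dd (fun g => algebraMap R K (t g)) c g = algebraMap R K (D2 t c g) / 2 := by
  unfold PseudoRep.dd D2; rw [map_sub]

omit [IsDomain R] in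
theorem two_ne_zero_K (h2 : (2 : R) ≠ 0) : (2 : K) ≠ 0 := by
  intro h
  apply h2
  apply IsFractionRing.injective R K
  rw [map_ofNat, h, map_zero]

omit [IsDomain R] in
theorem xx_eq (h2 : (2 : R) ≠ 0) (t : G → R) (c g h : G) :
    PseudoRep.xx (PseudoRep.aa (fun g => algebraMap R K (t g)) c) g h = algebraMap R K (X4 t c g h) / 4 := by
  have h2K : (2 : K) ≠ 0 := two_ne_zero_K h2
  have h4 : (4 : K) = 2 * 2 := by norm_num
  unfold PseudoRep.xx X4
  rw [aa_eq, aa_eq, aa_eq, map_sub, map_mul, map_mul, map_ofNat, h4]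
  field_simp

theorem exists_frac (u : K) :
    ∃ ξ υ : R, ξ ≠ 0 ∧ algebraMap R K ξ * u = algebraMap R K υ := by
  obtain ⟨υ, ξ, hξ, rfl⟩ := IsFractionRing.div_surjective (A := R) u
  have hξ0 : algebraMap R K ξ ≠ 0 :=
    IsFractionRing.to_map_ne_zero_of_mem_nonZeroDivisors hξ
  refine ⟨ξ, υ, ?_, ?_⟩
  · rintro rfl
    exact hξ0 (map_zero _)
  · field_simp

/-- **Integrality and congruences of Wiles' matrices from the entry formulas** (any
normalisations `u`, `w ∈ K` of the two off-diagonal entries). -/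
theorem integral_of_entries (h2 : (2 : R) ≠ 0) (t : G → R) (d : G →* Rˣ)
    (h1 : t 1 = 2)
    (hPC : ∀ g h, t (g * h) + (d h : R) * t (g * h⁻¹) = t g * t h)
    (c : G) (hc : c * c = 1) (hdc : ((d c : Rˣ) : R) = -1)
    (ρ : G →* Matrix (Fin 2) (Fin 2) K) (g₀ h₀ : G) (u w : K)
    (hρ : ∀ g, ρ g = !![PseudoRep.aa (fun g => algebraMap R K (t g)) c g,
        u * PseudoRep.xx (PseudoRep.aa (fun g => algebraMap R K (t g)) c) g h₀;
        w * PseudoRep.xx (PseudoRep.aa (fun g => algebraMap R K (t g)) c) g₀ g,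
        PseudoRep.dd (fun g => algebraMap R K (t g)) c g]) :
    ∃ δ : R, δ ≠ 0 ∧
      (∀ g i j, ∃ r : R, algebraMap R K δ * ρ g i j = algebraMap R K r) ∧
      ∀ (I : Ideal R) (σ : G), (∀ g, t (g * σ) - t g ∈ I) →
        ∀ i j, ∃ r ∈ I, algebraMap R K δ * (ρ σ - 1) i j = algebraMap R K r := by
  have h2K : (2 : K) ≠ 0 := two_ne_zero_K h2
  have h4K : (4 : K) ≠ 0 := by
    have : (4 : K) = 2 * 2 := by norm_num
    rw [this]; exact mul_ne_zero h2K h2K
  have h4 : (4 : R) ≠ 0 := by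
    have : (4 : R) = 2 * 2 := by norm_num
    rw [this]; exact mul_ne_zero h2 h2
  have htc : t c = 0 := map_conj_eq_zero t d h1 hPC c hc hdc
  obtain ⟨ξ, υ, hξ, hξu⟩ := exists_frac (R := R) u
  obtain ⟨ζ, ω, hζ, hζw⟩ := exists_frac (R := R) w
  refine ⟨4 * ξ * ζ, mul_ne_zero (mul_ne_zero h4 hξ) hζ, ?_, ?_⟩
  · intro g i j
    rw [hρ g]
    fin_cases i <;> fin_cases j
    · refine ⟨2 * ξ * ζ * A2 t c g, ?_⟩
      simp only [Fin.zero_eta, Fin.isValue, of_apply, cons_val', cons_val_zero, cons_val_fin_one]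
      rw [aa_eq, map_mul, map_mul, map_mul, map_mul, map_mul, map_ofNat, map_ofNat]
      field_simp
      ring
    · refine ⟨υ * ζ * X4 t c g h₀, ?_⟩
      simp only [Fin.zero_eta, Fin.isValue, Fin.mk_one, of_apply, cons_val', cons_val_one,
        cons_val_fin_one, cons_val_zero]
      rw [xx_eq h2, map_mul, map_mul, map_mul, map_mul, map_ofNat, ← hξu]
      field_simp
    · refine ⟨ξ * ω * X4 t c g₀ g, ?_⟩
      simp only [Fin.mk_one, Fin.isValue, Fin.zero_eta, of_apply, cons_val', cons_val_zero,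
        cons_val_fin_one, cons_val_one]
      rw [xx_eq h2, map_mul, map_mul, map_mul, map_mul, map_ofNat, ← hζw]
      field_simp
    · refine ⟨2 * ξ * ζ * D2 t c g, ?_⟩
      simp only [Fin.mk_one, Fin.isValue, of_apply, cons_val', cons_val_one, cons_val_fin_one]
      rw [dd_eq, map_mul, map_mul, map_mul, map_mul, map_mul, map_ofNat, map_ofNat]
      field_simp
      ring
  · intro I σ hσ i j
    rw [hρ σ]
    fin_cases i <;> fin_cases j
    · refine ⟨2 * ξ * ζ * (A2 t c σ - 2),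
        I.mul_mem_left _ (A2_sub_two_mem I c σ h1 htc hσ), ?_⟩
      simp only [Fin.zero_eta, Fin.isValue, Matrix.sub_apply, of_apply, cons_val', cons_val_zero,
        cons_val_fin_one, Matrix.one_apply_eq]
      rw [aa_eq, map_mul, map_mul, map_mul, map_mul, map_mul, map_sub, map_ofNat, map_ofNat]
      field_simp
      ring
    · refine ⟨υ * ζ * X4 t c σ h₀,
        I.mul_mem_left _ (X4_left_mem I c σ h1 hPC htc hσ h₀), ?_⟩
      simp only [Fin.zero_eta, Fin.isValue, Fin.mk_one, Matrix.sub_apply, of_apply, cons_val',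
        cons_val_one, cons_val_fin_one, cons_val_zero, ne_eq, zero_ne_one, not_false_eq_true,
        one_apply_ne, sub_zero]
      rw [xx_eq h2, map_mul, map_mul, map_mul, map_mul, map_ofNat, ← hξu]
      field_simp
    · refine ⟨ξ * ω * X4 t c g₀ σ,
        I.mul_mem_left _ (X4_right_mem I c σ h1 htc hσ g₀), ?_⟩
      simp only [Fin.mk_one, Fin.isValue, Fin.zero_eta, Matrix.sub_apply, of_apply, cons_val',
        cons_val_zero, cons_val_fin_one, cons_val_one, ne_eq, one_ne_zero, not_false_eq_true,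
        one_apply_ne, sub_zero]
      rw [xx_eq h2, map_mul, map_mul, map_mul, map_mul, map_ofNat, ← hζw]
      field_simp
    · refine ⟨2 * ξ * ζ * (D2 t c σ - 2),
        I.mul_mem_left _ (D2_sub_two_mem I c σ h1 htc hσ), ?_⟩
      simp only [Fin.mk_one, Fin.isValue, Matrix.sub_apply, of_apply, cons_val', cons_val_one,
        cons_val_fin_one, Matrix.one_apply_eq]
      rw [dd_eq, map_mul, map_mul, map_mul, map_mul, map_mul, map_sub, map_ofNat, map_ofNat]
      field_simp
      ring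

/-- **(W) from the entry formulas.** If `ρ : G →* M₂(K)` has Wiles' entries attached to the
`R`-valued pseudo-character `(t, d)` (with the "complex conjugation" `c`; the off-diagonal
entries normalised by arbitrary `u`, `w ∈ K`), trace `t` and determinant `d`, then it has bounded denominators, and congruences of `t` modulo an ideal `I`
of `R` propagate to the entries of `δ·(ρ σ − 1)`. -/
theorem exists_rep_of_entries (h2 : (2 : R) ≠ 0) (t : G → R) (d : G →* Rˣ)
    (h1 : t 1 = 2)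
    (hPC : ∀ g h, t (g * h) + (d h : R) * t (g * h⁻¹) = t g * t h)
    (c : G) (hc : c * c = 1) (hdc : ((d c : Rˣ) : R) = -1)
    (ρ : G →* Matrix (Fin 2) (Fin 2) K) (g₀ h₀ : G) (u w : K)
    (htr : ∀ g, (ρ g).trace = algebraMap R K (t g))
    (hdet : ∀ g, (ρ g).det = algebraMap R K (d g))
    (hρ : ∀ g, ρ g = !![PseudoRep.aa (fun g => algebraMap R K (t g)) c g,
        u * PseudoRep.xx (PseudoRep.aa (fun g => algebraMap R K (t g)) c) g h₀;
        w * PseudoRep.xx (PseudoRep.aa (fun g => algebraMap R K (t g)) c) g₀ g,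
        PseudoRep.dd (fun g => algebraMap R K (t g)) c g]) :
    ∃ (δ : R) (ρ : G →* Matrix (Fin 2) (Fin 2) K), δ ≠ 0 ∧
      (∀ g i j, ∃ r : R, algebraMap R K δ * ρ g i j = algebraMap R K r) ∧
      (∀ g, (ρ g).trace = algebraMap R K (t g)) ∧
      (∀ g, (ρ g).det = algebraMap R K (d g)) ∧
      ∀ (I : Ideal R) (σ : G), (∀ g, t (g * σ) - t g ∈ I) →
        ∀ i j, ∃ r ∈ I, algebraMap R K δ * (ρ σ - 1) i j = algebraMap R K r := by
  obtain ⟨δ, hδ, hint, hI⟩ := integral_of_entries h2 t d h1 hPC c hc hdc ρ g₀ h₀ u w hρ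
  exact ⟨δ, ρ, hδ, hint, htr, hdet, hI⟩

end wrapper

section closed

/-- **(W): Wiles' construction over a domain `R` with fraction field `K`** (`2 ≠ 0`).
An `R`-valued pseudo-character `(t, d)` of a group `G` (`t 1 = 2`,
`t (g h) + d h · t (g h⁻¹) = t g · t h`) together with `c ∈ G`, `c² = 1`, `d c = −1`, is the
trace/determinant of a homomorphism `ρ : G →* M₂(K)` with bounded denominators
(`δ·ρ g ∈ M₂(R)` for one `δ ≠ 0`), and for every ideal `I` of `R` and `σ ∈ G`:
`t (g σ) ≡ t g mod I` for all `g` forces `δ·(ρ σ − 1) ∈ M₂(I)`. -/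
theorem exists_rep (R : Type*) [CommRing R] [IsDomain R] (K : Type*) [Field K] [Algebra R K]
    [IsFractionRing R K] (h2 : (2 : R) ≠ 0) (G : Type*) [Group G] (t : G → R) (d : G →* Rˣ)
    (h1 : t 1 = 2)
    (hPC : ∀ g h, t (g * h) + (d h : R) * t (g * h⁻¹) = t g * t h)
    (c : G) (hc : c * c = 1) (hdc : ((d c : Rˣ) : R) = -1) :
    ∃ (δ : R) (ρ : G →* Matrix (Fin 2) (Fin 2) K), δ ≠ 0 ∧
      (∀ g i j, ∃ r : R, algebraMap R K δ * ρ g i j = algebraMap R K r) ∧
      (∀ g, (ρ g).trace = algebraMap R K (t g)) ∧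
      (∀ g, (ρ g).det = algebraMap R K (d g)) ∧
      ∀ (I : Ideal R) (σ : G), (∀ g, t (g * σ) - t g ∈ I) →
        ∀ i j, ∃ r ∈ I, algebraMap R K δ * (ρ σ - 1) i j = algebraMap R K r := by
  have hχc : (Units.map (algebraMap R K : R →* K)).comp d c = -1 := by
    apply Units.ext
    show algebraMap R K ((d c : Rˣ) : R) = ((-1 : Kˣ) : K)
    rw [hdc, map_neg, map_one, Units.val_neg, Units.val_one]
  obtain ⟨ρ, g₀, h₀, u, htr, hdet, -, hρ⟩ :=
    PseudoRep.exists_rep_entries (two_ne_zero_K h2)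
      ((Units.map (algebraMap R K : R →* K)).comp d) (fun g => algebraMap R K (t g))
      (by show algebraMap R K (t 1) = 2; rw [h1, map_ofNat])
      (fun g h => by
        show algebraMap R K (t (g * h)) + algebraMap R K ((d h : Rˣ) : R)
          * algebraMap R K (t (g * h⁻¹)) = algebraMap R K (t g) * algebraMap R K (t h)
        rw [← map_mul, ← map_add, hPC, map_mul])
      c hc hχc
  refine exists_rep_of_entries h2 t d h1 hPC c hc hdc ρ g₀ h₀ u 1 htr hdet (fun g => ?_)
  rw [hρ g, one_mul]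

/-- Variant of `exists_rep` with the equations oriented as in `Lat.exists_galoisRepAdic`. -/
theorem exists_rep' (R : Type*) [CommRing R] [IsDomain R] (K : Type*) [Field K] [Algebra R K]
    [IsFractionRing R K] (h2 : (2 : R) ≠ 0) (G : Type*) [Group G] (t : G → R) (d : G →* Rˣ)
    (h1 : t 1 = 2)
    (hPC : ∀ g h, t (g * h) + (d h : R) * t (g * h⁻¹) = t g * t h)
    (c : G) (hc : c * c = 1) (hdc : ((d c : Rˣ) : R) = -1) :
    ∃ (δ : R) (ρ : G →* Matrix (Fin 2) (Fin 2) K), δ ≠ 0 ∧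
      (∀ g i j, ∃ r : R, algebraMap R K r = algebraMap R K δ * ρ g i j) ∧
      (∀ g, (ρ g).trace = algebraMap R K (t g)) ∧
      (∀ g, (ρ g).det = algebraMap R K (d g)) ∧
      (∀ (I : Ideal R) (σ : G), (∀ g, t (g * σ) - t g ∈ I) →
        ∀ i j, ∃ r ∈ I, algebraMap R K r = algebraMap R K δ * (ρ σ - 1) i j) ∧
      ∀ σ : G, (∀ g, t (g * σ) = t g) → ρ σ = 1 := by
  obtain ⟨δ, ρ, hδ, hint, htr, hdet, hI⟩ := exists_rep R K h2 G t d h1 hPC c hc hdc
  refine ⟨δ, ρ, hδ, fun g i j => ?_, htr, hdet, fun I σ hσ i j => ?_, fun σ hσ => ?_⟩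
  · obtain ⟨r, hr⟩ := hint g i j
    exact ⟨r, hr.symm⟩
  · obtain ⟨r, hrI, hr⟩ := hI I σ hσ i j
    exact ⟨r, hrI, hr.symm⟩
  · have hδK : algebraMap R K δ ≠ 0 := fun h0 =>
      hδ ((IsFractionRing.injective R K) (by rw [h0, map_zero]))
    have h0 : ρ σ - 1 = 0 := by
      ext i j
      obtain ⟨r, hrI, hr⟩ := hI ⊥ σ (fun g => by rw [hσ g, sub_self]; exact Submodule.zero_mem _) i j
      rw [(Submodule.mem_bot R).mp hrI, map_zero] at hr
      simpa using (mul_eq_zero.mp hr).resolve_left hδK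
    exact sub_eq_zero.mp h0

end closed

end Fermat.Agent.S30.Wiles
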