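/-
S30 (wave 10): the exact-annihilator lemma.

`R` a domain of characteristic zero (so `R` is flat over `ℤ`), `Φ : L → M` a `ℤ`-linear map whose
kernel is contained in `m L`.  Then the kernel of `Φ.baseChange R : R ⊗ L → R ⊗ M` is contained in
`m (R ⊗ L)`; hence, if `v ∈ R ⊗ L` is primitive (some `R`-linear functional takes a unit value on
`v`) and `r • (Φ.baseChange R) v = 0`, then `m ∣ r`.  If moreover `m • Φ = 0`, the annihilator of
`(Φ.baseChange R) v` is exactly `m R`.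
-/
import Mathlib

set_option autoImplicit false

open scoped TensorProduct

namespace Fermat.Agent.S30.Ann

variable {R : Type*} [CommRing R] [IsDomain R] [CharZero R]
variable {L M : Type*} [AddCommGroup L] [AddCommGroup M]

/-- a domain of characteristic zero is flat over `ℤ`. -/
theorem flat_int (R : Type*) [CommRing R] [IsDomain R] [CharZero R] : Module.Flat ℤ R := by
  have : Module.IsTorsionFree ℤ R := inferInstance
  infer_instance

/-- the kernel of `Φ.baseChange R` is contained in `m (R ⊗ L)` when `ker Φ ⊆ m L`. -/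
theorem exists_eq_smul_of_baseChange_eq_zero (Φ : L →ₗ[ℤ] M) (m : ℕ)
    (hker : ∀ x : L, Φ x = 0 → ∃ y : L, x = (m : ℤ) • y) (u : R ⊗[ℤ] L)
    (hu : Φ.baseChange R u = 0) : ∃ w : R ⊗[ℤ] L, u = (m : R) • w := by
  have hflat : Module.Flat ℤ R := flat_int R
  have hmem : u ∈ LinearMap.ker (TensorProduct.AlgebraTensorModule.lTensor R R Φ) := by
    rw [LinearMap.mem_ker]
    exact hu
  rw [Module.Flat.ker_lTensor_eq] at hmem
  obtain ⟨z, rfl⟩ := hmem
  clear hu
  induction z using TensorProduct.induction_on with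
  | zero => exact ⟨0, by simp⟩
  | tmul a k =>
    obtain ⟨y, hy⟩ := hker (k : L) k.2
    refine ⟨a ⊗ₜ[ℤ] y, ?_⟩
    show a ⊗ₜ[ℤ] ((k : L)) = (m : R) • (a ⊗ₜ[ℤ] y)
    rw [hy, TensorProduct.tmul_smul, ← Int.cast_smul_eq_zsmul R, Int.cast_natCast]
  | add z₁ z₂ h₁ h₂ =>
    obtain ⟨w₁, hw₁⟩ := h₁
    obtain ⟨w₂, hw₂⟩ := h₂
    exact ⟨w₁ + w₂, by rw [map_add, hw₁, hw₂, smul_add]⟩

/-- **exact annihilator, lower bound**: if `ker Φ ⊆ m L`, `v ∈ R ⊗ L` is primitive (a functional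
takes a unit value on it) and `r` kills `(Φ.baseChange R) v`, then `m ∣ r`. -/
theorem dvd_of_smul_baseChange_eq_zero (Φ : L →ₗ[ℤ] M) (m : ℕ)
    (hker : ∀ x : L, Φ x = 0 → ∃ y : L, x = (m : ℤ) • y) (v : R ⊗[ℤ] L)
    (f : R ⊗[ℤ] L →ₗ[R] R) (hf : IsUnit (f v)) (r : R)
    (h : r • Φ.baseChange R v = 0) : (m : R) ∣ r := by
  have h' : Φ.baseChange R (r • v) = 0 := by rw [map_smul, h]
  obtain ⟨w, hw⟩ := exists_eq_smul_of_baseChange_eq_zero Φ m hker (r • v) h'
  have h2 : r * f v = (m : R) * f w := by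
    have := congrArg f hw
    rwa [map_smul, map_smul, smul_eq_mul, smul_eq_mul] at this
  obtain ⟨c, hc⟩ := hf
  refine ⟨f w * (c⁻¹ : Rˣ), ?_⟩
  have h3 : r = r * f v * (c⁻¹ : Rˣ) := by
    rw [← hc, mul_assoc, Units.mul_inv, mul_one]
  rw [h3, h2, mul_assoc]

/-- the same, for a vector with a unit coordinate in the basis `1 ⊗ bⱼ` of `R ⊗ L`. -/
theorem dvd_of_smul_baseChange_eq_zero' [Module.Free ℤ L] [Module.Finite ℤ L] (Φ : L →ₗ[ℤ] M)
    (m : ℕ) (hker : ∀ x : L, Φ x = 0 → ∃ y : L, x = (m : ℤ) • y) (v : R ⊗[ℤ] L)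
    (hv : ∃ j, IsUnit ((Algebra.TensorProduct.basis R (Module.Free.chooseBasis ℤ L)).repr v j))
    (r : R) (h : r • Φ.baseChange R v = 0) : (m : R) ∣ r := by
  obtain ⟨j, hj⟩ := hv
  exact dvd_of_smul_baseChange_eq_zero Φ m hker v
    ((Algebra.TensorProduct.basis R (Module.Free.chooseBasis ℤ L)).coord j) hj r h

omit [IsDomain R] [CharZero R] in
/-- a vector outside `𝔪 (R ⊗ L)` has a unit coordinate (`R` local, `L` finite free). -/
theorem exists_isUnit_coord [IsLocalRing R] [Module.Free ℤ L] [Module.Finite ℤ L]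
    (v : R ⊗[ℤ] L)
    (hv : v ∉ IsLocalRing.maximalIdeal R • (⊤ : Submodule R (R ⊗[ℤ] L))) :
    ∃ j, IsUnit ((Algebra.TensorProduct.basis R (Module.Free.chooseBasis ℤ L)).repr v j) := by
  classical
  by_contra hcon
  rw [not_exists] at hcon
  apply hv
  set B := Algebra.TensorProduct.basis R (Module.Free.chooseBasis ℤ L) with hB
  rw [← B.sum_repr v]
  refine Submodule.sum_mem _ fun j _ => ?_
  exact Submodule.smul_mem_smul ((IsLocalRing.mem_maximalIdeal _).mpr (hcon j)) Submodule.mem_top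

omit [IsDomain R] [CharZero R] in
/-- **exact annihilator, upper bound**: `m` kills `(Φ.baseChange R) v` when `m • Φ = 0`. -/
theorem smul_baseChange_eq_zero (Φ : L →ₗ[ℤ] M) (m : ℕ) (hm : ∀ x : L, (m : ℤ) • Φ x = 0)
    (v : R ⊗[ℤ] L) : (m : R) • Φ.baseChange R v = 0 := by
  induction v using TensorProduct.induction_on with
  | zero => simp
  | tmul a x =>
    have e : (m : R) • (a ⊗ₜ[ℤ] Φ x) = a ⊗ₜ[ℤ] ((m : ℤ) • Φ x) := by
      rw [TensorProduct.tmul_smul, ← Int.cast_smul_eq_zsmul R, Int.cast_natCast]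
    rw [LinearMap.baseChange_tmul, e, hm, TensorProduct.tmul_zero]
  | add z₁ z₂ h₁ h₂ => rw [map_add, smul_add, h₁, h₂, add_zero]

/-- **exact annihilator**: `r • (Φ.baseChange R) v = 0 ↔ m ∣ r`. -/
theorem smul_baseChange_eq_zero_iff (Φ : L →ₗ[ℤ] M) (m : ℕ)
    (hm : ∀ x : L, (m : ℤ) • Φ x = 0)
    (hker : ∀ x : L, Φ x = 0 → ∃ y : L, x = (m : ℤ) • y) (v : R ⊗[ℤ] L)
    (f : R ⊗[ℤ] L →ₗ[R] R) (hf : IsUnit (f v)) (r : R) :
    r • Φ.baseChange R v = 0 ↔ (m : R) ∣ r := by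
  constructor
  · exact dvd_of_smul_baseChange_eq_zero Φ m hker v f hf r
  · rintro ⟨s, rfl⟩
    rw [mul_comm, mul_smul, smul_baseChange_eq_zero Φ m hm, smul_zero]

/-- composite form: `Φ` with values in a submodule `T ≤ M` (e.g. the `m`-torsion), followed by
the inclusion; the hypotheses are those of `Φ` itself. -/
theorem dvd_of_smul_baseChange_subtype_eq_zero {T : Submodule ℤ M} (Φ : L →ₗ[ℤ] T) (m : ℕ)
    (hker : ∀ x : L, Φ x = 0 → ∃ y : L, x = (m : ℤ) • y) (v : R ⊗[ℤ] L)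
    (f : R ⊗[ℤ] L →ₗ[R] R) (hf : IsUnit (f v)) (r : R)
    (h : r • (T.subtype ∘ₗ Φ).baseChange R v = 0) : (m : R) ∣ r := by
  refine dvd_of_smul_baseChange_eq_zero (T.subtype ∘ₗ Φ) m (fun x hx => hker x ?_) v f hf r h
  exact Subtype.ext (by simpa using hx)

omit [IsDomain R] [CharZero R] in
/-- composite form of the upper bound. -/
theorem smul_baseChange_subtype_eq_zero {T : Submodule ℤ M} (Φ : L →ₗ[ℤ] T) (m : ℕ)
    (hT : ∀ x ∈ T, (m : ℤ) • x = 0) (v : R ⊗[ℤ] L) :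
    (m : R) • (T.subtype ∘ₗ Φ).baseChange R v = 0 := by
  refine smul_baseChange_eq_zero (T.subtype ∘ₗ Φ) m (fun x => ?_) v
  exact hT _ (Φ x).2

/-- the form with `m = p ^ n`: `(p : R) ^ n ∣ r`. -/
theorem pow_dvd_of_smul_baseChange_eq_zero (Φ : L →ₗ[ℤ] M) (p n : ℕ)
    (hker : ∀ x : L, Φ x = 0 → ∃ y : L, x = ((p ^ n : ℕ) : ℤ) • y) (v : R ⊗[ℤ] L)
    (f : R ⊗[ℤ] L →ₗ[R] R) (hf : IsUnit (f v)) (r : R)
    (h : r • Φ.baseChange R v = 0) : (p : R) ^ n ∣ r := by
  have := dvd_of_smul_baseChange_eq_zero Φ (p ^ n) hker v f hf r h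
  rwa [Nat.cast_pow] at this

omit [IsDomain R] [CharZero R] in
/-- the form with `m = p ^ n` of the upper bound. -/
theorem pow_smul_baseChange_eq_zero (Φ : L →ₗ[ℤ] M) (p n : ℕ)
    (hm : ∀ x : L, ((p ^ n : ℕ) : ℤ) • Φ x = 0) (v : R ⊗[ℤ] L) :
    (p : R) ^ n • Φ.baseChange R v = 0 := by
  have := smul_baseChange_eq_zero (R := R) Φ (p ^ n) hm v
  rwa [Nat.cast_pow] at this

/-- the inclusion of a submodule stays injective after `R ⊗[ℤ] -` (`R` flat over `ℤ`). -/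
theorem baseChange_subtype_injective (T : Submodule ℤ M) :
    Function.Injective (T.subtype.baseChange R) := by
  have hflat : Module.Flat ℤ R := flat_int R
  rw [LinearMap.baseChange_eq_ltensor]
  exact Module.Flat.lTensor_preserves_injective_linearMap _ T.injective_subtype

end Fermat.Agent.S30.Ann
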