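/-
S30 (wave 10 proposal), leaf CC / P5: complex conjugation as an element of `Gal(ℚ̄/ℚ)`.

For an embedding `ι : ℚ̄ → ℂ` there is `c ∈ Gal(ℚ̄/ℚ)` with `c * c = 1` and `ι ∘ c = conj ∘ ι`;
such a `c` inverts every root of unity and is not the identity.
-/
import Mathlib

set_option autoImplicit false
set_option linter.style.haveILetI false

namespace Fermat.Agent.S30.Conj

local notation "Qb" => AlgebraicClosure ℚ

/-- complex conjugation transported to `ℚ̄` along an embedding `ι : ℚ̄ → ℂ`. -/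
theorem exists_conj_of_embedding (ι : Qb →+* ℂ) :
    ∃ c : Qb ≃ₐ[ℚ] Qb, c * c = 1 ∧ ∀ x : Qb, ι (c x) = (starRingEnd ℂ) (ι x) := by
  letI : Algebra Qb ℂ := ι.toAlgebra
  haveI : IsScalarTower ℚ Qb ℂ := IsScalarTower.of_algebraMap_eq (fun q => by
    rw [RingHom.algebraMap_toAlgebra]
    simp)
  have hcl : IsAlgClosure ℚ (AlgebraicClosure ℚ) := AlgebraicClosure.instIsAlgClosure ℚ
  haveI : Normal ℚ Qb := IsAlgClosure.normal ℚ _
  let conjQ : ℂ ≃ₐ[ℚ] ℂ := Complex.conjAe.restrictScalars ℚ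
  let c : Qb ≃ₐ[ℚ] Qb := conjQ.restrictNormal Qb
  have hc : ∀ x, ι (c x) = (starRingEnd ℂ) (ι x) := fun x => by
    have h := AlgEquiv.restrictNormal_commutes conjQ Qb x
    rw [RingHom.algebraMap_toAlgebra] at h
    exact h
  refine ⟨c, ?_, hc⟩
  ext x
  apply ι.injective
  rw [AlgEquiv.mul_apply, hc, hc]
  simp

/-- an embedding `ℚ̄ → ℂ` exists. -/
theorem exists_embedding : ∃ ι : Qb →+* ℂ, Function.Injective ι := by
  haveI : Algebra.IsAlgebraic ℚ Qb := AlgebraicClosure.isAlgebraic ℚ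
  exact ⟨(IsAlgClosed.lift (R := ℚ) (S := Qb) (M := ℂ)).toRingHom, RingHom.injective _⟩

/-- a `c` compatible with complex conjugation inverts the roots of unity. -/
theorem conj_root_of_unity (ι : Qb →+* ℂ) (c : Qb ≃ₐ[ℚ] Qb)
    (hc : ∀ x : Qb, ι (c x) = (starRingEnd ℂ) (ι x)) (ζ : Qb) (n : ℕ) (hn : 0 < n)
    (hζ : ζ ^ n = 1) : c ζ = ζ⁻¹ := by
  apply ι.injective
  have h1 : (ι ζ) ^ n = 1 := by rw [← map_pow, hζ, map_one]
  have hnorm : ‖ι ζ‖ = 1 := Complex.norm_eq_one_of_pow_eq_one h1 hn.ne'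
  rw [hc, map_inv₀]
  exact (Complex.inv_eq_conj hnorm).symm

/-- **complex conjugation in `Gal(ℚ̄/ℚ)`**: an involution inverting all roots of unity. -/
theorem exists_conj :
    ∃ c : Qb ≃ₐ[ℚ] Qb, c * c = 1 ∧
      ∀ (ζ : Qb) (n : ℕ), 0 < n → ζ ^ n = 1 → c ζ = ζ⁻¹ := by
  obtain ⟨ι, -⟩ := exists_embedding
  obtain ⟨c, hcc, hc⟩ := exists_conj_of_embedding ι
  exact ⟨c, hcc, conj_root_of_unity ι c hc⟩

/-- an element of `Gal(ℚ̄/ℚ)` inverting the 4th roots of unity is not the identity. -/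
theorem ne_one_of_conj (c : Qb ≃ₐ[ℚ] Qb)
    (hc : ∀ (ζ : Qb) (n : ℕ), 0 < n → ζ ^ n = 1 → c ζ = ζ⁻¹) : c ≠ 1 := by
  intro h1
  obtain ⟨i, hi⟩ := IsAlgClosed.exists_pow_nat_eq (-1 : Qb) (n := 2) (by norm_num)
  have hi4 : i ^ 4 = 1 := by
    have : i ^ 4 = (i ^ 2) ^ 2 := by ring
    rw [this, hi]; norm_num
  have h2 := hc i 4 (by norm_num) hi4
  rw [h1, AlgEquiv.one_apply] at h2
  have hi0 : i ≠ 0 := by
    rintro rfl
    norm_num at hi
  have h3 : i ^ 2 = 1 := by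
    have : i * i = i * i⁻¹ := by rw [← h2]
    rw [mul_inv_cancel₀ hi0] at this
    rw [sq]; exact this
  rw [hi] at h3
  norm_num at h3

/-- complex conjugation with all three properties. -/
theorem exists_conj' :
    ∃ c : Qb ≃ₐ[ℚ] Qb, c * c = 1 ∧ c ≠ 1 ∧
      ∀ (ζ : Qb) (n : ℕ), 0 < n → ζ ^ n = 1 → c ζ = ζ⁻¹ := by
  obtain ⟨c, hcc, hc⟩ := exists_conj
  exact ⟨c, hcc, ne_one_of_conj c hc, hc⟩

end Fermat.Agent.S30.Conj
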