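/-
S30 (wave 9c): interface of the proof of `CuspForm.exists_galoisRep_of_point` by the finite-level
route (board #1214, #1228).

`R = 𝒪'` is a complete discrete valuation ring of characteristic `0` with `p ∈ 𝔪`, `K = Frac R`,
`G = Gal(ℚ̄/ℚ)`, `χ_H : 𝕋 → R` a character of the Hecke algebra away from `S`.

* `DataStmt` (modular input): a faithful `R`-module `M` with an `R`-linear `G`-action `r`, a
  character `χ : G → Rˣ` (the `p`-adic cyclotomic character) and a function `t : G → R` with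
  `r g + χ g • r g⁻¹ = t g` for all `g`; a complex conjugation `c` (`c² = 1`, `χ c = -1`);
  `t (Frob_ℓ) = χ_H (T_ℓ)`, `χ (Frob_ℓ) = ℓ` for `ℓ ∉ S`; `t (g σ) ≡ t g` mod `𝔪ⁿ` for `σ` fixing a
  number field `L_n`; `t (g τ) = t g` for `τ` in an inertia group at `q ∤ N p`.
* `PseudoRepStmt` (algebra): Wiles' construction of a `2`-dimensional representation over `K`
  from such a relation, with bounded denominators and the rigidity estimate.
* `LatticeRepStmt` (algebra): a stable lattice, free of rank `2`, for a representation over `K`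
  with bounded denominators.
* `ComplexConjStmt`, `CycAdicStmt`, `EigVecStmt`: the leaves of `DataStmt`.
-/
import Fermat.Statements.S30
import Fermat.Agent.S29.Transfer

set_option autoImplicit false

noncomputable section

open scoped TensorProduct
open Polynomial

namespace Fermat.Agent.S30

/-! ### Algebra -/

/-- **(1) PSR.**  A group `G` acting on a faithful module `M` over a domain `R` (`2 ≠ 0`) such
that `g + χ(g) g⁻¹ = t(g)` for all `g`, with an element `c` of order `≤ 2` and `χ(c) = -1`: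
there is a `2`-dimensional representation over `K = Frac R` with trace `t` and determinant `χ`,
with bounded denominators, such that `t(g σ) ≡ t(g)` modulo `I` for all `g` forces
`δ (ρ(σ) - 1) ≡ 0` modulo `I`. -/
def PseudoRepStmt : Prop :=
  ∀ (R K : Type) [CommRing R] [IsDomain R] [Field K] [Algebra R K] [IsFractionRing R K],
    (2 : R) ≠ 0 →
    ∀ (G : Type) [Group G] (M : Type) [AddCommGroup M] [Module R M]
      (r : G →* Module.End R M) (χ : G →* Rˣ) (t : G → R) (c : G),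
      (∀ s : R, (∀ m : M, s • m = 0) → s = 0) →
      (∀ g, r g + ((χ g : Rˣ) : R) • r g⁻¹ = t g • (1 : Module.End R M)) →
      c * c = 1 → χ c = -1 →
      ∃ (ρ : G →* Matrix (Fin 2) (Fin 2) K) (δ : R), δ ≠ 0 ∧
        (∀ g, (ρ g).trace = algebraMap R K (t g)) ∧
        (∀ g, (ρ g).det = algebraMap R K ((χ g : Rˣ) : R)) ∧
        (∀ g i j, ∃ a : R, algebraMap R K a = algebraMap R K δ * ρ g i j) ∧
        ∀ (I : Ideal R) (σ : G), (∀ g, t (g * σ) - t g ∈ I) →
          ∀ i j, ∃ a ∈ I, algebraMap R K a = algebraMap R K δ * (ρ σ - 1) i j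

/-- **(2) LAT.**  A representation over `K = Frac R` (`R` a discrete valuation ring) with
bounded denominators stabilises a lattice which is free of rank `2`; characteristic polynomials
are preserved; `δ (ρ(σ) - 1) ≡ 0` modulo `𝔪^(n+k)` gives `ρ'(σ) ≡ 1` modulo `𝔪ⁿ`. -/
def LatticeRepStmt : Prop :=
  ∀ (R K : Type) [CommRing R] [IsDomain R] [IsDiscreteValuationRing R] [Field K] [Algebra R K]
    [IsFractionRing R K] (G : Type) [Group G] (ρ : G →* Matrix (Fin 2) (Fin 2) K) (δ : R),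
    δ ≠ 0 → (∀ g i j, ∃ a : R, algebraMap R K a = algebraMap R K δ * ρ g i j) →
    ∃ (V : Type) (_ : AddCommGroup V) (_ : Module R V) (_ : Module.Free R V)
      (_ : Module.Finite R V) (ρ' : G →* Module.End R V) (k : ℕ),
      Module.finrank R V = 2 ∧
      (∀ g, (LinearMap.charpoly (ρ' g)).map (algebraMap R K) = (ρ g).charpoly) ∧
      (∀ (n : ℕ) (σ : G),
        (∀ i j, ∃ a ∈ IsLocalRing.maximalIdeal R ^ (n + k),
          algebraMap R K a = algebraMap R K δ * (ρ σ - 1) i j) →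
        ∀ v : V, ρ' σ v - v ∈ (IsLocalRing.maximalIdeal R ^ n) • (⊤ : Submodule R V)) ∧
      ∀ σ, ρ σ = 1 → ρ' σ = 1

/-! ### The modular input -/

/-- **(6') DATA.** -/
def DataStmt : Prop :=
  ∀ (p : ℕ) [Fact p.Prime] (N : ℕ) [NeZero N] (S : Finset ℕ), p ∈ S →
    (∀ q : ℕ, q.Prime → q ∣ N → q ∈ S) →
    ∀ (R : Type) [CommRing R] [IsDomain R] [IsDiscreteValuationRing R]
      [IsAdicComplete (IsLocalRing.maximalIdeal R) R] [CharZero R],
      (p : R) ∈ IsLocalRing.maximalIdeal R →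
    ∀ χH : CuspForm.heckeAlgebra N 2 (↑S : Set ℕ) →+* R,
    ∃ (M : Type) (_ : AddCommGroup M) (_ : Module R M)
      (r : (AlgebraicClosure ℚ ≃ₐ[ℚ] AlgebraicClosure ℚ) →* Module.End R M)
      (χ : (AlgebraicClosure ℚ ≃ₐ[ℚ] AlgebraicClosure ℚ) →* Rˣ)
      (t : (AlgebraicClosure ℚ ≃ₐ[ℚ] AlgebraicClosure ℚ) → R)
      (c : AlgebraicClosure ℚ ≃ₐ[ℚ] AlgebraicClosure ℚ),
      (∀ s : R, (∀ m : M, s • m = 0) → s = 0) ∧
      (∀ g, r g + ((χ g : Rˣ) : R) • r g⁻¹ = t g • (1 : Module.End R M)) ∧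
      c * c = 1 ∧ χ c = -1 ∧
      (∀ (ℓ : ℕ) (hℓ : ℓ.Prime) (hℓN : ¬ ℓ ∣ N) (hℓS : ℓ ∉ (↑S : Set ℕ))
        (A : ValuationSubring (AlgebraicClosure ℚ)), A.LiesOverPrime ℓ →
        ∀ σ : AlgebraicClosure ℚ ≃ₐ[ℚ] AlgebraicClosure ℚ, A.IsFrobeniusAt σ ℓ →
          t σ = χH (CuspForm.heckeAlgebra.T hℓ hℓN hℓS) ∧ ((χ σ : Rˣ) : R) = (ℓ : R)) ∧
      (∀ n : ℕ, ∃ L : IntermediateField ℚ (AlgebraicClosure ℚ), FiniteDimensional ℚ L ∧
        ∀ σ : AlgebraicClosure ℚ ≃ₐ[ℚ] AlgebraicClosure ℚ, (∀ x ∈ L, σ x = x) →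
          ∀ g : AlgebraicClosure ℚ ≃ₐ[ℚ] AlgebraicClosure ℚ,
            t (g * σ) - t g ∈ IsLocalRing.maximalIdeal R ^ n) ∧
      ∀ q : ℕ, q.Prime → ¬ q ∣ N → q ≠ p →
        ∀ B : ValuationSubring (AlgebraicClosure ℚ), B.LiesOverPrime q →
          ∀ τ ∈ B.inertiaSubgroupIn ℚ, ∀ g : AlgebraicClosure ℚ ≃ₐ[ℚ] AlgebraicClosure ℚ,
            t (g * τ) = t g

/-! ### Leaves of `DataStmt` -/

/-- **(3) CC.**  A complex conjugation: an involution of `ℚ̄` inverting every root of unity. -/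
def ComplexConjStmt : Prop :=
  ∃ c : AlgebraicClosure ℚ ≃ₐ[ℚ] AlgebraicClosure ℚ, c * c = 1 ∧
    ∀ (n : ℕ) (ζ : AlgebraicClosure ℚ), n ≠ 0 → ζ ^ n = 1 → c ζ = ζ⁻¹

/-- **(4) CYC-adic.**  The `p`-adic cyclotomic character with values in `Rˣ`: if `g` raises every
`pⁿ`-th root of unity to the `k`-th power then `χ g ≡ k` modulo `pⁿ R`. -/
def CycAdicStmt : Prop :=
  ∀ (p : ℕ), p.Prime → ∀ (R : Type) [CommRing R] [IsDomain R] [IsDiscreteValuationRing R]
    [IsAdicComplete (IsLocalRing.maximalIdeal R) R] [CharZero R],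
    (p : R) ∈ IsLocalRing.maximalIdeal R →
    ∃ χ : (AlgebraicClosure ℚ ≃ₐ[ℚ] AlgebraicClosure ℚ) →* Rˣ,
      ∀ (g : AlgebraicClosure ℚ ≃ₐ[ℚ] AlgebraicClosure ℚ) (n k : ℕ),
        (∀ ζ : AlgebraicClosure ℚ, ζ ^ (p ^ n) = 1 → g ζ = ζ ^ k) →
        ((χ g : Rˣ) : R) - (k : R) ∈ Ideal.span {(p : R) ^ n}

/-- **(5) EIGV.**  A character of the Hecke algebra away from `S` (`S` containing the primes
dividing `N`) with values in a discrete valuation ring `R` of characteristic `0` has a primitive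
eigenvector in `R ⊗ Λ`, `Λ = Hom_par(Γ₀(N), ℤ)` with the transfer operators. -/
def EigVecStmt : Prop :=
  ∀ (N : ℕ) [NeZero N] (S : Finset ℕ), (∀ q : ℕ, q.Prime → q ∣ N → q ∈ S) →
    ∀ (R : Type) [CommRing R] [IsDomain R] [IsDiscreteValuationRing R] [CharZero R]
      (χH : CuspForm.heckeAlgebra N 2 (↑S : Set ℕ) →+* R),
    ∃ v : R ⊗[ℤ] Fermat.Agent.S29.Transfer.Λ N,
      (∀ (s a : R) (w : R ⊗[ℤ] Fermat.Agent.S29.Transfer.Λ N), s • v = a • w →
        s ∈ Ideal.span {a}) ∧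
      ∀ (ℓ : Nat.Primes) (hℓN : ¬ (ℓ : ℕ) ∣ N) (hℓS : (ℓ : ℕ) ∉ (↑S : Set ℕ)),
        (Fermat.Agent.S29.Transfer.trΛ N ℓ hℓN).baseChange R v
          = χH (CuspForm.heckeAlgebra.T ℓ.2 hℓN hℓS) • v

end Fermat.Agent.S30
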