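/-
S30: the local scalar relation `hloc` of the trace core, from weak Chebotarev.

Input (all as hypotheses): a character `ε : G_ℚ → Rˣ` with the congruence clause on `p`-power roots
of unity and `ε(Frob_ℓ) = ℓ` for `ℓ ∉ T`; levels `W n` (killed by `p ^ n`) with `G_ℚ`-actions `ρ n`
of finite level, on which every Frobenius element `σ` at `ℓ ∉ T` satisfies `σ + ℓ σ⁻¹ = a`.
Output: for every `g` and `n` ONE scalar `τ` with `g + ε(g) g⁻¹ = τ` on `W j`, `j ≤ n`
(the hypothesis `hloc` of `TraceCore.exists_trace`).  The scalar is the Dickson value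
`dk a ℓ m` where `g = σ ^ m` on a level field.
-/
import Mathlib
import Fermat.Agent.S29.Iface

set_option autoImplicit false
set_option linter.style.haveILetI false

namespace Fermat.Agent.S30.Loc

local notation "Qb" => AlgebraicClosure ℚ
local notation "G" => (AlgebraicClosure ℚ ≃ₐ[ℚ] AlgebraicClosure ℚ)

/-- the Dickson sequence `D₀ = 2`, `D₁ = a`, `D_{m+2} = a D_{m+1} - c D_m`. -/
def dk {R : Type*} [CommRing R] (a c : R) : ℕ → R
  | 0 => 2
  | 1 => a
  | (m + 2) => a * dk a c (m + 1) - c * dk a c m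

@[simp] theorem dk_zero {R : Type*} [CommRing R] (a c : R) : dk a c 0 = 2 := rfl

@[simp] theorem dk_one {R : Type*} [CommRing R] (a c : R) : dk a c 1 = a := rfl

theorem dk_succ_succ {R : Type*} [CommRing R] (a c : R) (m : ℕ) :
    dk a c (m + 2) = a * dk a c (m + 1) - c * dk a c m := rfl

/-- the power recursion with an explicit scalar: `s + c s⁻¹ = a ⇒ s ^ m + c ^ m s⁻ᵐ = D_m(a, c)`. -/
theorem pow_add_pow {k E : Type*} [CommRing k] [Ring E] [Algebra k E] {A B : E}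
    (hAB : A * B = 1) (hBA : B * A = 1) {a c : k} (h : A + c • B = a • (1 : E)) (m : ℕ) :
    A ^ m + c ^ m • B ^ m = dk a c m • (1 : E) := by
  induction m using Nat.strong_induction_on with
  | _ m ih =>
    match m with
    | 0 => simp [two_smul]
    | 1 => simpa using h
    | (m + 2) =>
      have h1 := ih (m + 1) (by omega)
      have h0 := ih m (by omega)
      have e1 : A * B ^ (m + 1) = B ^ m := by rw [pow_succ', ← mul_assoc, hAB, one_mul]
      have e2 : B * A ^ (m + 1) = A ^ m := by rw [pow_succ', ← mul_assoc, hBA, one_mul]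
      have key : A ^ (m + 2) + c ^ (m + 2) • B ^ (m + 2) =
          (A + c • B) * (A ^ (m + 1) + c ^ (m + 1) • B ^ (m + 1)) -
            c • (A ^ m + c ^ m • B ^ m) := by
        have x1 : A * A ^ (m + 1) = A ^ (m + 2) := (pow_succ' A (m + 1)).symm
        have x2 : B * B ^ (m + 1) = B ^ (m + 2) := (pow_succ' B (m + 1)).symm
        rw [add_mul, mul_add, mul_add, mul_smul_comm, smul_mul_assoc, smul_mul_assoc,
          mul_smul_comm, e1, e2, x1, x2, smul_smul, smul_add, smul_smul]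
        have y1 : c * c ^ (m + 1) = c ^ (m + 2) := (pow_succ' c (m + 1)).symm
        have y2 : c * c ^ m = c ^ (m + 1) := (pow_succ' c m).symm
        rw [y1, y2]
        abel
      rw [key, h, h1, h0, dk_succ_succ, smul_mul_smul_comm, mul_one, smul_smul, sub_smul]

/-- a finite-dimensional subfield of `ℚ̄` containing finitely many given ones and the
`p ^ n`-th roots of unity. -/
theorem exists_field {p : ℕ} (hp : p.Prime) (n : ℕ) (Lf : ℕ → IntermediateField ℚ Qb)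
    (hLf : ∀ j, FiniteDimensional ℚ (Lf j)) :
    ∃ L : IntermediateField ℚ Qb, FiniteDimensional ℚ L ∧ (∀ j ≤ n, Lf j ≤ L) ∧
      ∀ ζ : Qb, ζ ^ (p ^ n) = 1 → ζ ∈ L := by
  have hpos : 0 < p ^ n := pow_pos hp.pos n
  have hfin : Finite {ζ : Qb | ζ ^ (p ^ n) = 1} := by
    have : {ζ : Qb | ζ ^ (p ^ n) = 1} = ↑(Polynomial.nthRootsFinset (p ^ n) (1 : Qb)) := by
      ext ζ
      simp [Polynomial.mem_nthRootsFinset hpos]
    rw [this]
    exact Finset.finite_toSet _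
  haveI : Algebra.IsAlgebraic ℚ Qb := AlgebraicClosure.isAlgebraic ℚ
  haveI : FiniteDimensional ℚ (IntermediateField.adjoin ℚ {ζ : Qb | ζ ^ (p ^ n) = 1}) :=
    IntermediateField.finiteDimensional_adjoin (fun x _ => Algebra.IsIntegral.isIntegral x)
  haveI : ∀ j : Fin (n + 1), FiniteDimensional ℚ (Lf j) := fun j => hLf j
  refine ⟨(⨆ j : Fin (n + 1), Lf j) ⊔ IntermediateField.adjoin ℚ {ζ : Qb | ζ ^ (p ^ n) = 1},
    inferInstance, fun j hj => ?_, fun ζ hζ => ?_⟩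
  · exact le_trans (le_iSup (fun j : Fin (n + 1) => Lf j) ⟨j, Nat.lt_succ_of_le hj⟩) le_sup_left
  · exact (le_sup_right : IntermediateField.adjoin ℚ {ζ : Qb | ζ ^ (p ^ n) = 1} ≤ _)
      (IntermediateField.subset_adjoin ℚ _ hζ)

/-- **the local scalar relation from weak Chebotarev.** -/
theorem hloc (hcheb : Fermat.Agent.S29.ChebStmt) {p : ℕ} (hp : p.Prime) (T : Finset ℕ)
    {R : Type*} [CommRing R] (ε : G →* Rˣ)
    (hε1 : ∀ (g : G) (n m : ℕ), (∀ ζ : Qb, ζ ^ (p ^ n) = 1 → g ζ = ζ ^ m) →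
      ((ε g : R) - (m : R)) ∈ Ideal.span {(p : R) ^ n})
    (hε2 : ∀ ℓ : ℕ, ℓ.Prime → ℓ ∉ T → ∀ A : ValuationSubring Qb, A.LiesOverPrime ℓ →
      ∀ σ : G, A.IsFrobeniusAt σ ℓ → ((ε σ : Rˣ) : R) = (ℓ : R))
    (W : ℕ → Type*) [∀ n, AddCommGroup (W n)] [∀ n, Module R (W n)]
    (ρ : ∀ n, G →* Module.End R (W n))
    (htor : ∀ n (w : W n), (p : R) ^ n • w = 0)
    (hfrob : ∀ ℓ : ℕ, ℓ.Prime → ℓ ∉ T → ∀ A : ValuationSubring Qb, A.LiesOverPrime ℓ →
      ∀ σ : G, A.IsFrobeniusAt σ ℓ →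
        ∃ a : R, ∀ n (w : W n), ρ n σ w + (ℓ : R) • ρ n σ⁻¹ w = a • w)
    (hlev : ∀ n : ℕ, ∃ L : IntermediateField ℚ Qb, FiniteDimensional ℚ L ∧
      ∀ σ : G, (∀ y ∈ L, σ y = y) → ρ n σ = 1) :
    ∀ (g : G) (n : ℕ), ∃ τ : R, ∀ j ≤ n, ∀ w : W j,
      ρ j g w + (ε g : R) • ρ j g⁻¹ w = τ • w := by
  intro g n
  choose Lf hLfd hLf using hlev
  obtain ⟨L, hLfin, hLle, hLμ⟩ := exists_field hp n Lf hLfd
  obtain ⟨ℓ, A, σ, m, hℓ, hℓT, hA, hσ, hgσ⟩ := hcheb L hLfin T g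
  obtain ⟨a, ha⟩ := hfrob ℓ hℓ hℓT A hA σ hσ
  have hεσ := hε2 ℓ hℓ hℓT A hA σ hσ
  set η : G := (σ ^ m)⁻¹ * g with hη
  have hηL : ∀ y ∈ L, η y = y := fun y hy => by
    rw [hη, AlgEquiv.mul_apply, hgσ y hy, ← AlgEquiv.mul_apply, inv_mul_cancel,
      AlgEquiv.one_apply]
  have hg : g = σ ^ m * η := by rw [hη, mul_inv_cancel_left]
  have hεη : ((ε η : R) - 1) ∈ Ideal.span {(p : R) ^ n} := by
    have h1 := hε1 η n 1 (fun ζ hζ => by rw [pow_one]; exact hηL ζ (hLμ ζ hζ))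
    simpa using h1
  refine ⟨dk a (ℓ : R) m, fun j hj w => ?_⟩
  have hρη : ρ j η = 1 := hLf j η (fun y hy => hηL y (hLle j hj hy))
  have hρηinv : ρ j η⁻¹ = 1 := by
    have h0 : ρ j η⁻¹ * ρ j η = 1 := by rw [← map_mul, inv_mul_cancel, map_one]
    rwa [hρη, mul_one] at h0
  have hss' : ρ j σ * ρ j σ⁻¹ = 1 := by rw [← map_mul, mul_inv_cancel, map_one]
  have hs's : ρ j σ⁻¹ * ρ j σ = 1 := by rw [← map_mul, inv_mul_cancel, map_one]
  have hop : ρ j σ + (ℓ : R) • ρ j σ⁻¹ = a • (1 : Module.End R (W j)) := by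
    ext v
    simpa using ha j v
  have hpow := pow_add_pow hss' hs's hop m
  have e1 : ρ j g = (ρ j σ) ^ m := by rw [hg, map_mul, hρη, mul_one, map_pow]
  have e2 : ρ j g⁻¹ = (ρ j σ⁻¹) ^ m := by
    rw [hg, mul_inv_rev, map_mul, hρηinv, one_mul, ← map_pow, inv_pow]
  have e3 : ∀ v : W j, (ε g : R) • v = (ℓ : R) ^ m • v := by
    intro v
    obtain ⟨k, hk⟩ := Ideal.mem_span_singleton'.mp hεη
    have h1 : (ε g : R) = (ℓ : R) ^ m * (1 + k * (p : R) ^ n) := by
      rw [hg, map_mul, map_pow, Units.val_mul, Units.val_pow_eq_pow_val, hεσ, hk]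
      ring
    have h2 : ((p : R) ^ n) • v = 0 := by
      obtain ⟨i, rfl⟩ := Nat.exists_eq_add_of_le hj
      rw [pow_add, mul_comm, mul_smul, htor j v, smul_zero]
    rw [h1, mul_smul, add_smul, one_smul, mul_smul, h2, smul_zero, add_zero]
  rw [e1, e2, e3]
  have h3 := congrArg (fun f : Module.End R (W j) => f w) hpow
  simpa using h3

end Fermat.Agent.S30.Loc
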