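/-
S30 leaf (1) "PSR": Wiles' construction of a two-dimensional representation from a
trace function satisfying `r g + χ g • r g⁻¹ = t g`, by means of an involution `c`
with `χ c = -1` (complex conjugation).  Mathlib only.
-/
import Mathlib

set_option autoImplicit false

namespace Fermat.Agent.S30.PseudoRep

open Matrix

section Scalar

variable {K : Type*} [Field K] {G : Type*} [Group G]

/-- the defect of multiplicativity of `a` -/
def xx (a : G → K) (g h : G) : K := a (g * h) - a g * a h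

/-- the matrix attached to `g` -/
noncomputable def repFun (a d : G → K) (g₀ h₀ : G) (u : K) (g : G) : Matrix (Fin 2) (Fin 2) K :=
  !![a g, xx a g h₀ * u; xx a g₀ g, d g]

theorem xx_one_left (a : G → K) (ha : a 1 = 1) (h : G) : xx a 1 h = 0 := by
  simp [xx, ha]

theorem xx_one_right (a : G → K) (ha : a 1 = 1) (g : G) : xx a g 1 = 0 := by
  simp [xx, ha]

theorem repFun_one (a d : G → K) (ha : a 1 = 1) (hd : d 1 = 1) (g₀ h₀ : G) (u : K) :
    repFun a d g₀ h₀ u 1 = 1 := by
  ext i j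
  fin_cases i <;> fin_cases j <;>
    simp [repFun, xx_one_left a ha, xx_one_right a ha, ha, hd]

theorem repFun_mul (a d : G → K) (g₀ h₀ : G) (u : K)
    (hQ : ∀ g h, xx a g h = xx a g h₀ * u * xx a g₀ h)
    (h2 : ∀ g h, d (g * h) - d g * d h = xx a h g)
    (h3 : ∀ g h k, xx a (g * h) k = a g * xx a h k + xx a g k * d h)
    (h4 : ∀ g h k, xx a k (g * h) = xx a k g * a h + d g * xx a k h) (g h : G) :
    repFun a d g₀ h₀ u (g * h) = repFun a d g₀ h₀ u g * repFun a d g₀ h₀ u h := by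
  have e1 : xx a g h = a (g * h) - a g * a h := rfl
  ext i j
  fin_cases i <;> fin_cases j
  · simp [repFun, Matrix.mul_apply, Fin.sum_univ_two]
    linear_combination hQ g h - e1
  · simp [repFun, Matrix.mul_apply, Fin.sum_univ_two]
    linear_combination u * h3 g h h₀
  · simp [repFun, Matrix.mul_apply, Fin.sum_univ_two]
    linear_combination h4 g h g₀
  · simp [repFun, Matrix.mul_apply, Fin.sum_univ_two]
    linear_combination h2 g h + hQ h g

theorem repFun_trace (a d : G → K) (g₀ h₀ : G) (u : K) (g : G) :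
    (repFun a d g₀ h₀ u g).trace = a g + d g := by
  simp [repFun, Matrix.trace_fin_two]

theorem repFun_det (a d : G → K) (g₀ h₀ : G) (u : K)
    (hQ : ∀ g h, xx a g h = xx a g h₀ * u * xx a g₀ h) (g : G) :
    (repFun a d g₀ h₀ u g).det = a g * d g - xx a g g := by
  simp [repFun, Matrix.det_fin_two]
  linear_combination -(hQ g g)

end Scalar

section Idem

variable {K : Type*} [Field K] {G : Type*} [Group G] {E : Type*} [Ring E] [Algebra K E]

/-- the operator data: two complementary idempotents `e`, `f` and the two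
"half relations" -/
structure Split (r : G →* E) (χ : G →* Kˣ) (a d : G → K) (e f : E) : Prop where
  ef : e + f = 1
  ee : e * e = e
  ff : f * f = f
  ef0 : e * f = 0
  fe0 : f * e = 0
  R1 : ∀ g, e * r g + (χ g : K) • (r g⁻¹ * f) = a g • (1 : E)
  R2 : ∀ g, f * r g + (χ g : K) • (r g⁻¹ * e) = d g • (1 : E)
  sq : ∀ g, r g * r g = (a g + d g) • r g - (χ g : K) • (1 : E)

namespace Split

variable {r : G →* E} {χ : G →* Kˣ} {a d : G → K} {e f : E}

theorem eAe (H : Split r χ a d e f) (g : G) : e * r g * e = a g • e := by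
  have h := congrArg (· * e) (H.R1 g)
  simp only [add_mul, smul_mul_assoc, mul_assoc, H.fe0, mul_zero, smul_zero, add_zero,
    one_mul] at h
  rw [mul_assoc]; exact h

theorem fDf (H : Split r χ a d e f) (g : G) : f * r g * f = d g • f := by
  have h := congrArg (· * f) (H.R2 g)
  simp only [add_mul, smul_mul_assoc, mul_assoc, H.ef0, mul_zero, smul_zero, add_zero,
    one_mul] at h
  rw [mul_assoc]; exact h

theorem fAf (H : Split r χ a d e f) (g : G) : (χ g : K) • (f * r g⁻¹ * f) = a g • f := by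
  have h := congrArg (f * ·) (H.R1 g)
  simp only [mul_add, mul_smul_comm, ← mul_assoc, H.fe0, zero_mul, zero_add, mul_one] at h
  exact h

theorem eDe (H : Split r χ a d e f) (g : G) : (χ g : K) • (e * r g⁻¹ * e) = d g • e := by
  have h := congrArg (e * ·) (H.R2 g)
  simp only [mul_add, mul_smul_comm, ← mul_assoc, H.ef0, zero_mul, zero_add, mul_one] at h
  exact h

/-- splitting a product through `1 = e + f` -/
theorem split_mul (H : Split r χ a d e f) (p q : E) : p * q = p * e * (e * q) + p * f * (f * q) := by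
  have h1 : p * e * (e * q) = p * e * q := by rw [mul_assoc, ← mul_assoc e, H.ee, mul_assoc]
  have h2 : p * f * (f * q) = p * f * q := by rw [mul_assoc, ← mul_assoc f, H.ff, mul_assoc]
  rw [h1, h2, ← add_mul, ← mul_add, H.ef, mul_one]

theorem BC (H : Split r χ a d e f) (g h : G) :
    (e * r g * f) * (f * r h * e) = xx a g h • e := by
  have h0 : e * r (g * h) * e = a (g * h) • e := H.eAe (g * h)
  rw [map_mul, H.split_mul (r g) (r h)] at h0
  have h1 : e * (r g * e * (e * r h) + r g * f * (f * r h)) * e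
      = (e * r g * e) * (e * r h * e) + (e * r g * f) * (f * r h * e) := by
    simp only [mul_add, add_mul, mul_assoc]
  rw [h1, H.eAe, H.eAe, smul_mul_smul_comm, H.ee] at h0
  rw [xx, sub_smul, ← h0, add_sub_cancel_left]

theorem CB (H : Split r χ a d e f) (g h : G) :
    (f * r g * e) * (e * r h * f) = xx d g h • f := by
  have h0 : f * r (g * h) * f = d (g * h) • f := H.fDf (g * h)
  rw [map_mul, H.split_mul (r g) (r h)] at h0
  have h1 : f * (r g * e * (e * r h) + r g * f * (f * r h)) * f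
      = (f * r g * e) * (e * r h * f) + (f * r g * f) * (f * r h * f) := by
    simp only [mul_add, add_mul, mul_assoc]
  rw [h1, H.fDf, H.fDf, smul_mul_smul_comm, H.ff] at h0
  rw [xx, sub_smul, ← h0, add_sub_cancel_right]

theorem B3 (H : Split r χ a d e f) (g h : G) :
    e * r (g * h) * f = a g • (e * r h * f) + d h • (e * r g * f) := by
  rw [map_mul, H.split_mul (r g) (r h)]
  have h1 : e * (r g * e * (e * r h) + r g * f * (f * r h)) * f
      = (e * r g * e) * (e * r h * f) + (e * r g * f) * (f * r h * f) := by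
    simp only [mul_add, add_mul, mul_assoc]
  have h2 : e * (e * r h * f) = e * r h * f := by rw [← mul_assoc, ← mul_assoc, H.ee]
  have h3 : e * r g * f * f = e * r g * f := by rw [mul_assoc (e * r g), H.ff]
  rw [h1, H.eAe, H.fDf, smul_mul_assoc, mul_smul_comm, h2, h3]

theorem C4 (H : Split r χ a d e f) (g h : G) :
    f * r (g * h) * e = a h • (f * r g * e) + d g • (f * r h * e) := by
  rw [map_mul, H.split_mul (r g) (r h)]
  have h1 : f * (r g * e * (e * r h) + r g * f * (f * r h)) * e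
      = (f * r g * e) * (e * r h * e) + (f * r g * f) * (f * r h * e) := by
    simp only [mul_add, add_mul, mul_assoc]
  have h2 : f * (f * r h * e) = f * r h * e := by rw [← mul_assoc, ← mul_assoc, H.ff]
  have h3 : f * r g * e * e = f * r g * e := by rw [mul_assoc (f * r g), H.ee]
  rw [h1, H.eAe, H.fDf, smul_mul_assoc, mul_smul_comm, h2, h3]

theorem symm (H : Split r χ a d e f) : Split r χ d a f e where
  ef := by rw [add_comm]; exact H.ef
  ee := H.ff
  ff := H.ee
  ef0 := H.fe0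
  fe0 := H.ef0
  R1 := H.R2
  R2 := H.R1
  sq := fun g => by rw [add_comm]; exact H.sq g

end Split

/-- the scalar identities needed to build the representation -/
structure Pkg (χ : G →* Kˣ) (a d : G → K) : Prop where
  p1 : ∀ g h g' h', xx a g h * xx a g' h' = xx a g h' * xx a g' h
  p2 : ∀ g h, d (g * h) - d g * d h = xx a h g
  p3 : ∀ g h k, xx a (g * h) k = a g * xx a h k + xx a g k * d h
  p4 : ∀ g h k, xx a k (g * h) = xx a k g * a h + d g * xx a k h
  p5 : ∀ g, a g * d g - xx a g g = (χ g : K)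

theorem pkg_of_char {χ : G →* Kˣ} {a d : G → K} (ha : ∀ g h, a (g * h) = a g * a h)
    (hd : ∀ g h, d (g * h) = d g * d h) (had : ∀ g, a g * d g = (χ g : K)) : Pkg χ a d := by
  have hx : ∀ g h, xx a g h = 0 := fun g h => by rw [xx, ha, sub_self]
  refine ⟨?_, ?_, ?_, ?_, ?_⟩
  · intro g h g' h'; simp only [hx, mul_zero]
  · intro g h; rw [hx, hd, sub_self]
  · intro g h k; simp only [hx, mul_zero, zero_mul, add_zero]
  · intro g h k; simp only [hx, mul_zero, zero_mul, add_zero]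
  · intro g; rw [hx, sub_zero, had]

namespace Split

variable {r : G →* E} {χ : G →* Kˣ} {a d : G → K} {e f : E}

theorem xx_symm (H : Split r χ a d e f) (he : e ≠ 0) (hf : f ≠ 0) (g h : G) :
    xx d g h = xx a h g := by
  have hPQ := H.BC h g
  have hQP := H.CB g h
  set P := e * r h * f with hP
  set Q := f * r g * e with hQ
  have heP : e * P = P := by rw [hP, ← mul_assoc, ← mul_assoc, H.ee]
  have hPf : P * f = P := by rw [hP, mul_assoc (e * r h), H.ff]
  have h1 : (xx a h g - xx d g h) • P = 0 := by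
    have e1 : P * Q * P = xx a h g • P := by rw [hPQ, smul_mul_assoc, heP]
    have e2 : P * Q * P = xx d g h • P := by rw [mul_assoc, hQP, mul_smul_comm, hPf]
    rw [sub_smul, ← e1, ← e2, sub_self]
  by_contra hne
  have hP0 : P = 0 := by
    rcases smul_eq_zero.mp h1 with h | h
    · exact absurd (sub_eq_zero.mp h).symm hne
    · exact h
  rw [hP0, zero_mul] at hPQ
  rw [hP0, mul_zero] at hQP
  have hx : xx a h g = 0 := (smul_eq_zero.mp hPQ.symm).resolve_right he
  have hy : xx d g h = 0 := (smul_eq_zero.mp hQP.symm).resolve_right hf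
  exact hne (hy.trans hx.symm)

theorem pkg_of_ne (H : Split r χ a d e f) (he : e ≠ 0) (hf : f ≠ 0) : Pkg χ a d := by
  have inj : ∀ {k l : K}, k • e = l • e → k = l := fun {k l} h => by
    have h' : (k - l) • e = 0 := by rw [sub_smul, h, sub_self]
    exact sub_eq_zero.mp ((smul_eq_zero.mp h').resolve_right he)
  refine ⟨?_, ?_, ?_, ?_, ?_⟩
  · intro g h g' h'
    have e1 : (e * r g * f) * (f * r h * e) * ((e * r g' * f) * (f * r h' * e))
        = (xx a g h * xx a g' h') • e := by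
      rw [H.BC, H.BC, smul_mul_smul_comm, H.ee]
    have e2 : (e * r g * f) * (f * r h * e) * ((e * r g' * f) * (f * r h' * e))
        = (xx a g h' * xx a g' h) • e := by
      have e3 : (e * r g * f) * (f * r h * e) * ((e * r g' * f) * (f * r h' * e))
          = (e * r g * f) * ((f * r h * e) * (e * r g' * f)) * (f * r h' * e) := by
        simp only [mul_assoc]
      have e4 : e * r g * f * f = e * r g * f := by rw [mul_assoc (e * r g), H.ff]
      rw [e3, H.CB, mul_smul_comm, smul_mul_assoc, e4, H.BC, smul_smul, H.xx_symm he hf,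
        mul_comm]
    exact inj (e1.symm.trans e2)
  · intro g h
    exact H.xx_symm he hf g h
  · intro g h k
    have e1 : (e * r (g * h) * f) * (f * r k * e) = xx a (g * h) k • e := H.BC (g * h) k
    rw [H.B3, add_mul, smul_mul_assoc, smul_mul_assoc, H.BC, H.BC, smul_smul, smul_smul,
      ← add_smul] at e1
    have := inj e1
    linear_combination -this
  · intro g h k
    have e1 : (e * r k * f) * (f * r (g * h) * e) = xx a k (g * h) • e := H.BC k (g * h)
    rw [H.C4, mul_add, mul_smul_comm, mul_smul_comm, H.BC, H.BC, smul_smul, smul_smul,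
      ← add_smul] at e1
    have := inj e1
    linear_combination -this
  · intro g
    have e1 : e * r (g * g) * e = a (g * g) • e := H.eAe (g * g)
    rw [map_mul, H.sq, mul_sub, sub_mul, mul_smul_comm, smul_mul_assoc, mul_smul_comm,
      smul_mul_assoc, mul_one, H.ee, H.eAe, smul_smul, ← sub_smul] at e1
    have := inj e1
    rw [xx]
    linear_combination this

theorem char_of_f_zero [Nontrivial E] (H : Split r χ a d e f) (hf : f = 0) :
    (∀ g h, a (g * h) = a g * a h) ∧ (∀ g h, d (g * h) = d g * d h) ∧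
      ∀ g, a g * d g = (χ g : K) := by
  have he : e = 1 := by have := H.ef; rwa [hf, add_zero] at this
  have inj : ∀ {k l : K}, k • (1 : E) = l • (1 : E) → k = l := fun {k l} h => by
    have h' : (k - l) • (1 : E) = 0 := by rw [sub_smul, h, sub_self]
    exact sub_eq_zero.mp ((smul_eq_zero.mp h').resolve_right one_ne_zero)
  have hr : ∀ g, r g = a g • (1 : E) := fun g => by
    have := H.eAe g
    rwa [he, one_mul, mul_one] at this
  have ha : ∀ g h, a (g * h) = a g * a h := fun g h => by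
    apply inj
    rw [← hr, map_mul, hr g, hr h, smul_mul_smul_comm, mul_one]
  have ha1 : a 1 = 1 := by
    apply inj
    rw [← hr, map_one, one_smul]
  have hd : ∀ g, d g = (χ g : K) * a g⁻¹ := fun g => by
    apply inj
    have := H.eDe g
    rw [he, one_mul, mul_one] at this
    rw [← this, hr g⁻¹, smul_smul]
  refine ⟨ha, fun g h => ?_, fun g => ?_⟩
  · rw [hd, hd g, hd h, map_mul, Units.val_mul, _root_.mul_inv_rev, ha]; ring
  · have h1 : a g * a g⁻¹ = 1 := by rw [← ha, mul_inv_cancel, ha1]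
    rw [hd]; linear_combination ((χ g : K)) * h1

end Split

end Idem

section Main

variable {K : Type*} [Field K] {G : Type*} [Group G] {E : Type*} [Ring E] [Algebra K E]

/-- the "upper left" function -/
noncomputable def aa (t : G → K) (c : G) (g : G) : K := (t g + t (c * g)) / 2

/-- the "lower right" function -/
noncomputable def dd (t : G → K) (c : G) (g : G) : K := (t g - t (c * g)) / 2

theorem aa_add_dd (h2 : (2 : K) ≠ 0) (t : G → K) (c : G) (g : G) :
    aa t c g + dd t c g = t g := by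
  rw [aa, dd]; field_simp; ring

theorem split_of_rel (h2 : (2 : K) ≠ 0) (r : G →* E) (χ : G →* Kˣ) (t : G → K)
    (hrel : ∀ g, r g + (χ g : K) • r g⁻¹ = t g • (1 : E)) (c : G) (hc2 : c * c = 1)
    (hχc : χ c = -1) :
    Split r χ (aa t c) (dd t c) ((2⁻¹ : K) • (1 + r c)) ((2⁻¹ : K) • (1 - r c)) := by
  have hs : r c * r c = 1 := by rw [← map_mul, hc2, map_one]
  have hcinv : c⁻¹ = c := inv_eq_of_mul_eq_one_right hc2
  have hcg : ∀ g, r c * r g - (χ g : K) • (r g⁻¹ * r c) = t (c * g) • (1 : E) := by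
    intro g
    have h := hrel (c * g)
    rw [map_mul, map_mul, hχc, _root_.mul_inv_rev, hcinv, map_mul] at h
    rw [← h]
    simp [sub_eq_add_neg]
  have h22 : (2⁻¹ : K) * 2⁻¹ * 2 = 2⁻¹ := by field_simp
  refine ⟨?_, ?_, ?_, ?_, ?_, ?_, ?_, ?_⟩
  · rw [← smul_add]
    have : (1 + r c) + (1 - r c) = (2 : K) • (1 : E) := by rw [two_smul]; abel
    rw [this, smul_smul, inv_mul_cancel₀ h2, one_smul]
  · rw [smul_mul_smul_comm]
    have : (1 + r c) * (1 + r c) = (2 : K) • (1 + r c) := by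
      rw [two_smul]; simp only [mul_add, add_mul, one_mul, mul_one, hs]; abel
    rw [this, smul_smul, h22]
  · rw [smul_mul_smul_comm]
    have : (1 - r c) * (1 - r c) = (2 : K) • (1 - r c) := by
      rw [two_smul]; simp only [mul_sub, sub_mul, one_mul, mul_one, hs]; abel
    rw [this, smul_smul, h22]
  · rw [smul_mul_smul_comm]
    have : (1 + r c) * (1 - r c) = 0 := by
      simp only [mul_sub, add_mul, one_mul, mul_one, hs]; abel
    rw [this, smul_zero]
  · rw [smul_mul_smul_comm]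
    have : (1 - r c) * (1 + r c) = 0 := by
      simp only [mul_add, sub_mul, one_mul, mul_one, hs]; abel
    rw [this, smul_zero]
  · intro g
    have h1 := hrel g
    have h3 := hcg g
    simp only [smul_mul_assoc, mul_smul_comm, add_mul, mul_sub, one_mul, mul_one, aa]
    linear_combination (norm := module) (2⁻¹ : K) • h1 + (2⁻¹ : K) • h3
  · intro g
    have h1 := hrel g
    have h3 := hcg g
    simp only [smul_mul_assoc, mul_smul_comm, sub_mul, mul_add, one_mul, mul_one, dd]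
    linear_combination (norm := module) (2⁻¹ : K) • h1 - (2⁻¹ : K) • h3
  · intro g
    have h1 := congrArg (· * r g) (hrel g)
    simp only [add_mul, smul_mul_assoc, one_mul] at h1
    rw [← map_mul r g⁻¹ g, inv_mul_cancel, map_one] at h1
    rw [aa_add_dd h2, ← h1, add_sub_cancel_right]

theorem smul_one_injective [Nontrivial E] {k l : K} (h : k • (1 : E) = l • (1 : E)) : k = l := by
  have h' : (k - l) • (1 : E) = 0 := by rw [sub_smul, h, sub_self]
  exact sub_eq_zero.mp ((smul_eq_zero.mp h').resolve_right one_ne_zero)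

theorem t_one [Nontrivial E] (r : G →* E) (χ : G →* Kˣ) (t : G → K)
    (hrel : ∀ g, r g + (χ g : K) • r g⁻¹ = t g • (1 : E)) : t 1 = 2 := by
  have h := hrel 1
  rw [inv_one, map_one, map_one, Units.val_one, one_smul] at h
  apply smul_one_injective (E := E)
  rw [← h, two_smul]

theorem t_c [Nontrivial E] (r : G →* E) (χ : G →* Kˣ) (t : G → K)
    (hrel : ∀ g, r g + (χ g : K) • r g⁻¹ = t g • (1 : E)) (c : G) (hc2 : c * c = 1)
    (hχc : χ c = -1) : t c = 0 := by
  have hcinv : c⁻¹ = c := inv_eq_of_mul_eq_one_right hc2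
  have h := hrel c
  rw [hcinv, hχc] at h
  apply smul_one_injective (E := E)
  rw [← h, zero_smul]
  simp

theorem t_comm [Nontrivial E] (r : G →* E) (χ : G →* Kˣ) (t : G → K)
    (hrel : ∀ g, r g + (χ g : K) • r g⁻¹ = t g • (1 : E)) (g h : G) :
    t (g * h) = t (h * g) := by
  have e1 : h * g = h * (g * h) * h⁻¹ := by group
  have e2 : (h * g)⁻¹ = h * (g * h)⁻¹ * h⁻¹ := by group
  have e3 : χ (h * g) = χ (g * h) := by rw [map_mul, map_mul, mul_comm]
  have h1 := hrel (h * g)
  have h2 := hrel (g * h)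
  have hh : r h * r h⁻¹ = 1 := by rw [← map_mul, mul_inv_cancel, map_one]
  apply smul_one_injective (E := E)
  calc t (g * h) • (1 : E) = r h * (t (g * h) • (1 : E)) * r h⁻¹ := by
        rw [mul_smul_comm, smul_mul_assoc, mul_one, hh]
    _ = r h * (r (g * h) + (χ (g * h) : K) • r (g * h)⁻¹) * r h⁻¹ := by rw [h2]
    _ = r (h * (g * h) * h⁻¹) + (χ (g * h) : K) • r (h * (g * h)⁻¹ * h⁻¹) := by
        simp only [map_mul, mul_add, add_mul, mul_smul_comm, smul_mul_assoc]
    _ = r (h * g) + (χ (h * g) : K) • r (h * g)⁻¹ := by rw [← e1, ← e2, e3]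
    _ = t (h * g) • (1 : E) := h1

theorem forall_fin2 {P : Fin 2 → Fin 2 → Prop} (h00 : P 0 0) (h01 : P 0 1) (h10 : P 1 0)
    (h11 : P 1 1) : ∀ i j, P i j := by
  intro i j
  fin_cases i <;> fin_cases j <;> assumption

theorem repFun_00 (a d : G → K) (g₀ h₀ : G) (u : K) (g : G) :
    repFun a d g₀ h₀ u g 0 0 = a g := rfl

theorem repFun_01 (a d : G → K) (g₀ h₀ : G) (u : K) (g : G) :
    repFun a d g₀ h₀ u g 0 1 = xx a g h₀ * u := rfl

theorem repFun_10 (a d : G → K) (g₀ h₀ : G) (u : K) (g : G) :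
    repFun a d g₀ h₀ u g 1 0 = xx a g₀ g := rfl

theorem repFun_11 (a d : G → K) (g₀ h₀ : G) (u : K) (g : G) :
    repFun a d g₀ h₀ u g 1 1 = d g := rfl

/-- the conclusion of the construction -/
def Concl (χ : G →* Kˣ) (t : G → K) (𝒪 : Subring K) : Prop :=
  ∃ (ρ : G →* Matrix (Fin 2) (Fin 2) K) (δ : K), δ ≠ 0 ∧ δ ∈ 𝒪 ∧
    (∀ g, (ρ g).trace = t g) ∧ (∀ g, (ρ g).det = (χ g : K)) ∧
    (∀ g i j, δ * ρ g i j ∈ 𝒪) ∧
    ∀ I : AddSubgroup K, (∀ x ∈ 𝒪, ∀ y ∈ I, x * y ∈ I) →
      ∀ σ : G, (∀ g, t (g * σ) - t g ∈ I) → ∀ i j, δ * (ρ σ - 1) i j ∈ I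

theorem concl_core (h2 : (2 : K) ≠ 0) (χ : G →* Kˣ) (t : G → K) (c : G) (ht1 : t 1 = 2)
    (htc : t c = 0) (htcomm : ∀ g h, t (g * h) = t (h * g))
    (P : Pkg χ (aa t c) (dd t c)) (𝒪 : Subring K) (ht : ∀ g, t g ∈ 𝒪)
    (g₀ h₀ : G) (u w : K)
    (hQ : ∀ g h, xx (aa t c) g h = xx (aa t c) g h₀ * u * xx (aa t c) g₀ h)
    (hw0 : w ≠ 0) (hw : 4 * w ∈ 𝒪) (hwu : w * u ∈ 𝒪) : Concl χ t 𝒪 := by
  have ha1 : aa t c 1 = 1 := by rw [aa, mul_one, ht1, htc, add_zero, div_self h2]
  have hd1 : dd t c 1 = 1 := by rw [dd, mul_one, ht1, htc, sub_zero, div_self h2]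
  have h2a : ∀ g, 2 * aa t c g = t g + t (c * g) := fun g => by rw [aa]; field_simp
  have h2d : ∀ g, 2 * dd t c g = t g - t (c * g) := fun g => by rw [dd]; field_simp
  have h2O : (2 : K) ∈ 𝒪 := ofNat_mem 𝒪 2
  have h4O : (4 : K) ∈ 𝒪 := ofNat_mem 𝒪 4
  have h2aO : ∀ g, 2 * aa t c g ∈ 𝒪 := fun g => by
    rw [h2a]; exact 𝒪.add_mem (ht _) (ht _)
  have h2dO : ∀ g, 2 * dd t c g ∈ 𝒪 := fun g => by
    rw [h2d]; exact 𝒪.sub_mem (ht _) (ht _)
  have h4x : ∀ g h, 4 * xx (aa t c) g h
      = 2 * (2 * aa t c (g * h)) - (2 * aa t c g) * (2 * aa t c h) := fun g h => by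
    rw [xx]; ring
  have h4xO : ∀ g h, 4 * xx (aa t c) g h ∈ 𝒪 := fun g h => by
    rw [h4x]
    exact 𝒪.sub_mem (𝒪.mul_mem h2O (h2aO _)) (𝒪.mul_mem (h2aO _) (h2aO _))
  refine ⟨{ toFun := repFun (aa t c) (dd t c) g₀ h₀ u
            map_one' := repFun_one _ _ ha1 hd1 g₀ h₀ u
            map_mul' := repFun_mul _ _ g₀ h₀ u hQ P.p2 P.p3 P.p4 }, 16 * w, ?_, ?_, ?_, ?_, ?_, ?_⟩
  · have h16 : (16 : K) ≠ 0 := by
      have : (16 : K) = 2 ^ 4 := by norm_num
      rw [this]; exact pow_ne_zero 4 h2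
    exact mul_ne_zero h16 hw0
  · have : 16 * w = 4 * (4 * w) := by ring
    rw [this]; exact 𝒪.mul_mem h4O hw
  · intro g
    show (repFun (aa t c) (dd t c) g₀ h₀ u g).trace = t g
    rw [repFun_trace, aa_add_dd h2]
  · intro g
    show (repFun (aa t c) (dd t c) g₀ h₀ u g).det = (χ g : K)
    rw [repFun_det _ _ g₀ h₀ u hQ, P.p5]
  · intro g
    show ∀ i j, 16 * w * repFun (aa t c) (dd t c) g₀ h₀ u g i j ∈ 𝒪
    refine forall_fin2 ?_ ?_ ?_ ?_
    · rw [repFun_00]
      have : 16 * w * aa t c g = (4 * w) * (2 * (2 * aa t c g)) := by ring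
      rw [this]; exact 𝒪.mul_mem hw (𝒪.mul_mem h2O (h2aO g))
    · rw [repFun_01]
      have : 16 * w * (xx (aa t c) g h₀ * u) = (w * u) * (4 * (4 * xx (aa t c) g h₀)) := by ring
      rw [this]; exact 𝒪.mul_mem hwu (𝒪.mul_mem h4O (h4xO g h₀))
    · rw [repFun_10]
      have : 16 * w * xx (aa t c) g₀ g = (4 * w) * (4 * xx (aa t c) g₀ g) := by ring
      rw [this]; exact 𝒪.mul_mem hw (h4xO g₀ g)
    · rw [repFun_11]
      have : 16 * w * dd t c g = (4 * w) * (2 * (2 * dd t c g)) := by ring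
      rw [this]; exact 𝒪.mul_mem hw (𝒪.mul_mem h2O (h2dO g))
  · intro I hI σ hσ
    have Fa : 2 * (aa t c σ - 1) ∈ I := by
      have e : 2 * (aa t c σ - 1) = (t (1 * σ) - t 1) + (t (c * σ) - t c) := by
        rw [mul_sub, h2a, one_mul, ht1, htc]; ring
      rw [e]; exact I.add_mem (hσ 1) (hσ c)
    have Fd : 2 * (dd t c σ - 1) ∈ I := by
      have e : 2 * (dd t c σ - 1) = (t (1 * σ) - t 1) - (t (c * σ) - t c) := by
        rw [mul_sub, h2d, one_mul, ht1, htc]; ring
      rw [e]; exact I.sub_mem (hσ 1) (hσ c)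
    have Fxl : ∀ h, 4 * xx (aa t c) σ h ∈ I := by
      intro h
      have e : 4 * xx (aa t c) σ h
          = 2 * ((t (h * σ) - t h) + (t (h * c * σ) - t (h * c)))
            - (2 * aa t c h) * (2 * (aa t c σ - 1)) := by
        have e1 : t (σ * h) = t (h * σ) := htcomm _ _
        have e2 : t (c * (σ * h)) = t (h * c * σ) := by
          rw [← mul_assoc, htcomm, mul_assoc]
        have e3 : t (c * h) = t (h * c) := htcomm _ _
        rw [h4x, h2a (σ * h), e1, e2, ← e3]
        linear_combination (-2 : K) * h2a h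
      rw [e]
      exact I.sub_mem (hI _ h2O _ (I.add_mem (hσ h) (hσ (h * c)))) (hI _ (h2aO h) _ Fa)
    have Fxr : ∀ g, 4 * xx (aa t c) g σ ∈ I := by
      intro g
      have e : 4 * xx (aa t c) g σ
          = 2 * ((t (g * σ) - t g) + (t (c * g * σ) - t (c * g)))
            - (2 * aa t c g) * (2 * (aa t c σ - 1)) := by
        rw [h4x, h2a (g * σ), ← mul_assoc]
        linear_combination (-2 : K) * h2a g
      rw [e]
      exact I.sub_mem (hI _ h2O _ (I.add_mem (hσ g) (hσ (c * g)))) (hI _ (h2aO g) _ Fa)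
    show ∀ i j, 16 * w * (repFun (aa t c) (dd t c) g₀ h₀ u σ - 1) i j ∈ I
    refine forall_fin2 ?_ ?_ ?_ ?_
    · rw [Matrix.sub_apply, Matrix.one_apply_eq, repFun_00]
      have : 16 * w * (aa t c σ - 1) = (4 * w * 2) * (2 * (aa t c σ - 1)) := by ring
      rw [this]; exact hI _ (𝒪.mul_mem hw h2O) _ Fa
    · rw [Matrix.sub_apply, Matrix.one_apply_ne (by decide), sub_zero, repFun_01]
      have : 16 * w * (xx (aa t c) σ h₀ * u) = (w * u * 4) * (4 * xx (aa t c) σ h₀) := by ring
      rw [this]; exact hI _ (𝒪.mul_mem hwu h4O) _ (Fxl h₀)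
    · rw [Matrix.sub_apply, Matrix.one_apply_ne (by decide), sub_zero, repFun_10]
      have : 16 * w * xx (aa t c) g₀ σ = (4 * w) * (4 * xx (aa t c) g₀ σ) := by ring
      rw [this]; exact hI _ hw _ (Fxr g₀)
    · rw [Matrix.sub_apply, Matrix.one_apply_eq, repFun_11]
      have : 16 * w * (dd t c σ - 1) = (4 * w * 2) * (2 * (dd t c σ - 1)) := by ring
      rw [this]; exact hI _ (𝒪.mul_mem hw h2O) _ Fd

theorem concl_of_pkg (h2 : (2 : K) ≠ 0) (χ : G →* Kˣ) (t : G → K) (c : G) (ht1 : t 1 = 2)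
    (htc : t c = 0) (htcomm : ∀ g h, t (g * h) = t (h * g))
    (P : Pkg χ (aa t c) (dd t c)) (𝒪 : Subring K) (ht : ∀ g, t g ∈ 𝒪) : Concl χ t 𝒪 := by
  by_cases hx : ∃ g₀ h₀, xx (aa t c) g₀ h₀ ≠ 0
  · obtain ⟨g₀, h₀, hx0⟩ := hx
    refine concl_core h2 χ t c ht1 htc htcomm P 𝒪 ht g₀ h₀ (xx (aa t c) g₀ h₀)⁻¹
      (xx (aa t c) g₀ h₀) ?_ hx0 ?_ ?_
    · intro g h
      have := P.p1 g h g₀ h₀
      field_simp
      linear_combination this
    · have h2aO : ∀ g, 2 * aa t c g ∈ 𝒪 := fun g => by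
        have : 2 * aa t c g = t g + t (c * g) := by rw [aa]; field_simp
        rw [this]; exact 𝒪.add_mem (ht _) (ht _)
      have : 4 * xx (aa t c) g₀ h₀
          = 2 * (2 * aa t c (g₀ * h₀)) - (2 * aa t c g₀) * (2 * aa t c h₀) := by
        rw [xx]; ring
      rw [this]
      exact 𝒪.sub_mem (𝒪.mul_mem (ofNat_mem 𝒪 2) (h2aO _)) (𝒪.mul_mem (h2aO _) (h2aO _))
    · rw [mul_inv_cancel₀ hx0]; exact 𝒪.one_mem
  · simp only [not_exists, ne_eq, not_not] at hx
    refine concl_core h2 χ t c ht1 htc htcomm P 𝒪 ht 1 1 1 1 ?_ one_ne_zero ?_ ?_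
    · intro g h
      rw [hx, hx, zero_mul, zero_mul]
    · rw [mul_one]; exact ofNat_mem 𝒪 4
    · rw [mul_one]; exact 𝒪.one_mem

/-- **PSR.**  A function `t` on a group `G` with values in a field `K` of characteristic `≠ 2`
which is the "trace" of a family `r g + χ g • r g⁻¹ = t g` of operators in some nonzero
`K`-algebra, together with an involution `c` with `χ c = -1`, is the trace of an honest
two-dimensional representation with determinant `χ`; integrality and congruence properties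
of `t` are inherited, up to the fixed denominator `δ`. -/
theorem exists_rep [Nontrivial E] (h2 : (2 : K) ≠ 0) (r : G →* E) (χ : G →* Kˣ) (t : G → K)
    (hrel : ∀ g, r g + (χ g : K) • r g⁻¹ = t g • (1 : E)) (c : G) (hc2 : c * c = 1)
    (hχc : χ c = -1) (𝒪 : Subring K) (ht : ∀ g, t g ∈ 𝒪) :
    ∃ (ρ : G →* Matrix (Fin 2) (Fin 2) K) (δ : K), δ ≠ 0 ∧ δ ∈ 𝒪 ∧
      (∀ g, (ρ g).trace = t g) ∧ (∀ g, (ρ g).det = (χ g : K)) ∧
      (∀ g i j, δ * ρ g i j ∈ 𝒪) ∧
      ∀ I : AddSubgroup K, (∀ x ∈ 𝒪, ∀ y ∈ I, x * y ∈ I) →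
        ∀ σ : G, (∀ g, t (g * σ) - t g ∈ I) → ∀ i j, δ * (ρ σ - 1) i j ∈ I := by
  have H := split_of_rel h2 r χ t hrel c hc2 hχc
  have ht1 := t_one r χ t hrel
  have htc := t_c r χ t hrel c hc2 hχc
  have htcomm := t_comm r χ t hrel
  have P : Pkg χ (aa t c) (dd t c) := by
    by_cases he : (2⁻¹ : K) • (1 + r c) = 0
    · obtain ⟨hd, ha, had⟩ := H.symm.char_of_f_zero he
      exact pkg_of_char ha hd (fun g => by rw [mul_comm]; exact had g)
    · by_cases hf : (2⁻¹ : K) • (1 - r c) = 0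
      · obtain ⟨ha, hd, had⟩ := H.char_of_f_zero hf
        exact pkg_of_char ha hd had
      · exact H.pkg_of_ne he hf
  exact concl_of_pkg h2 χ t c ht1 htc htcomm P 𝒪 ht

/-- the explicit entries of the representation -/
theorem entries_of_pkg (h2 : (2 : K) ≠ 0) (χ : G →* Kˣ) (t : G → K) (c : G) (ht1 : t 1 = 2)
    (htc : t c = 0) (P : Pkg χ (aa t c) (dd t c)) :
    ∃ (ρ : G →* Matrix (Fin 2) (Fin 2) K) (g₀ h₀ : G) (u : K),
      (∀ g, (ρ g).trace = t g) ∧ (∀ g, (ρ g).det = (χ g : K)) ∧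
      (u = 1 ∨ u * xx (aa t c) g₀ h₀ = 1) ∧
      ∀ g, ρ g = !![aa t c g, u * xx (aa t c) g h₀; xx (aa t c) g₀ g, dd t c g] := by
  have ha1 : aa t c 1 = 1 := by rw [aa, mul_one, ht1, htc, add_zero, div_self h2]
  have hd1 : dd t c 1 = 1 := by rw [dd, mul_one, ht1, htc, sub_zero, div_self h2]
  obtain ⟨g₀, h₀, u, hu, hQ⟩ : ∃ (g₀ h₀ : G) (u : K), (u = 1 ∨ u * xx (aa t c) g₀ h₀ = 1) ∧
      ∀ g h, xx (aa t c) g h = xx (aa t c) g h₀ * u * xx (aa t c) g₀ h := by
    by_cases hx : ∃ g₀ h₀, xx (aa t c) g₀ h₀ ≠ 0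
    · obtain ⟨g₀, h₀, hx0⟩ := hx
      refine ⟨g₀, h₀, (xx (aa t c) g₀ h₀)⁻¹, Or.inr (inv_mul_cancel₀ hx0), fun g h => ?_⟩
      have := P.p1 g h g₀ h₀
      field_simp
      linear_combination this
    · simp only [not_exists, ne_eq, not_not] at hx
      exact ⟨1, 1, 1, Or.inl rfl, fun g h => by rw [hx, hx, zero_mul, zero_mul]⟩
  refine ⟨{ toFun := repFun (aa t c) (dd t c) g₀ h₀ u
            map_one' := repFun_one _ _ ha1 hd1 g₀ h₀ u
            map_mul' := repFun_mul _ _ g₀ h₀ u hQ P.p2 P.p3 P.p4 }, g₀, h₀, u, ?_, ?_, hu, ?_⟩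
  · intro g
    show (repFun (aa t c) (dd t c) g₀ h₀ u g).trace = t g
    rw [repFun_trace, aa_add_dd h2]
  · intro g
    show (repFun (aa t c) (dd t c) g₀ h₀ u g).det = (χ g : K)
    rw [repFun_det _ _ g₀ h₀ u hQ, P.p5]
  · intro g
    show repFun (aa t c) (dd t c) g₀ h₀ u g = _
    rw [repFun, mul_comm]

end Main

section PC

variable {K : Type*} [Field K] {G : Type*} [Group G]

/-- right translation on functions -/
def trans (K : Type*) [Field K] {G : Type*} [Group G] (g : G) : (G → K) →ₗ[K] (G → K) where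
  toFun φ := fun y => φ (y * g)
  map_add' _ _ := rfl
  map_smul' _ _ := rfl

/-- the span of the translates of `t` -/
def tspan (t : G → K) : Submodule K (G → K) :=
  Submodule.span K (Set.range fun h : G => fun y : G => t (y * h))

theorem trans_mem (t : G → K) (g : G) : ∀ φ ∈ tspan t, trans K g φ ∈ tspan t := by
  intro φ hφ
  induction hφ using Submodule.span_induction with
  | mem x hx =>
    obtain ⟨h, rfl⟩ := hx
    refine Submodule.subset_span ⟨g * h, ?_⟩
    funext y
    show t (y * (g * h)) = t (y * g * h)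
    rw [mul_assoc]
  | zero => rw [map_zero]; exact Submodule.zero_mem _
  | add x y _ _ hx hy => rw [map_add]; exact Submodule.add_mem _ hx hy
  | smul a x _ hx => rw [map_smul]; exact Submodule.smul_mem _ _ hx

/-- the representation on the span of the translates -/
def transHom (t : G → K) : G →* Module.End K (tspan t) where
  toFun g := (trans K g).restrict (trans_mem t g)
  map_one' := by
    ext ⟨φ, hφ⟩ y
    show φ (y * 1) = φ y
    rw [mul_one]
  map_mul' g₁ g₂ := by
    ext ⟨φ, hφ⟩ y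
    show φ (y * (g₁ * g₂)) = φ (y * g₁ * g₂)
    rw [mul_assoc]

theorem pc_inv (χ : G →* Kˣ) (t : G → K) (h1 : t 1 = 2)
    (hPC : ∀ g h, t (g * h) + (χ h : K) * t (g * h⁻¹) = t g * t h) (h : G) :
    (χ h : K) * t h⁻¹ = t h := by
  have := hPC 1 h
  rw [one_mul, one_mul, h1] at this
  linear_combination this

theorem pc_comm (χ : G →* Kˣ) (t : G → K) (h1 : t 1 = 2)
    (hPC : ∀ g h, t (g * h) + (χ h : K) * t (g * h⁻¹) = t g * t h) (g h : G) :
    t (g * h) = t (h * g) := by
  have e1 := hPC g h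
  have e2 := hPC h g
  have e3 := pc_inv χ t h1 hPC (g * h⁻¹)
  have e4 : (g * h⁻¹)⁻¹ = h * g⁻¹ := by group
  rw [e4, map_mul, map_inv, Units.val_mul, Units.val_inv_eq_inv_val] at e3
  have hχ : (χ h : K) ≠ 0 := (χ h).ne_zero
  have e5 : (χ h : K) * t (g * h⁻¹) = (χ g : K) * t (h * g⁻¹) := by
    rw [← e3]; field_simp
  linear_combination e1 - e2 - e5

theorem pc_rel (χ : G →* Kˣ) (t : G → K) (h1 : t 1 = 2)
    (hPC : ∀ g h, t (g * h) + (χ h : K) * t (g * h⁻¹) = t g * t h) (g : G) :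
    ∀ φ ∈ tspan t, trans K g φ + (χ g : K) • trans K g⁻¹ φ = t g • φ := by
  intro φ hφ
  induction hφ using Submodule.span_induction with
  | mem x hx =>
    obtain ⟨h, rfl⟩ := hx
    funext y
    show t (y * g * h) + (χ g : K) * t (y * g⁻¹ * h) = t g * t (y * h)
    have e1 : t (y * g * h) = t (h * y * g) := by
      rw [pc_comm χ t h1 hPC (y * g) h, ← mul_assoc]
    have e2 : t (y * g⁻¹ * h) = t (h * y * g⁻¹) := by
      rw [pc_comm χ t h1 hPC (y * g⁻¹) h, ← mul_assoc]
    have e3 : t (y * h) = t (h * y) := pc_comm χ t h1 hPC _ _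
    rw [e1, e2, e3, hPC, mul_comm]
  | zero => simp
  | add x y _ _ hx hy =>
    rw [map_add, map_add, smul_add, smul_add, ← hx, ← hy]; abel
  | smul a x _ hx =>
    rw [map_smul, map_smul, smul_comm (χ g : K) a, ← smul_add, hx, smul_comm]

theorem transHom_rel (χ : G →* Kˣ) (t : G → K) (h1 : t 1 = 2)
    (hPC : ∀ g h, t (g * h) + (χ h : K) * t (g * h⁻¹) = t g * t h) (g : G) :
    transHom t g + (χ g : K) • transHom t g⁻¹ = t g • (1 : Module.End K (tspan t)) := by
  ext ⟨φ, hφ⟩ y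
  exact congrFun (pc_rel χ t h1 hPC g φ hφ) y

theorem tspan_nontrivial (h2 : (2 : K) ≠ 0) (t : G → K) (h1 : t 1 = 2) :
    Nontrivial (tspan t) := by
  have hmem : t ∈ tspan t := by
    refine Submodule.subset_span ⟨1, ?_⟩
    funext y
    show t (y * 1) = t y
    rw [mul_one]
  refine ⟨⟨⟨t, hmem⟩, 0, fun h => ?_⟩⟩
  have h0 : t = 0 := congrArg Subtype.val h
  have : t 1 = 0 := by rw [h0]; rfl
  rw [h1] at this
  exact h2 this

/-- **PSR, pseudo-character form.**  `t 1 = 2`, `t (g h) + χ h · t (g h⁻¹) = t g · t h`, and an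
involution `c` with `χ c = -1`: then `t` is the trace of a homomorphism `G → M₂(K)` with
determinant `χ`; integrality and congruences of `t` pass to the entries up to `δ`. -/
theorem exists_rep_of_pc (h2 : (2 : K) ≠ 0) (χ : G →* Kˣ) (t : G → K) (h1 : t 1 = 2)
    (hPC : ∀ g h, t (g * h) + (χ h : K) * t (g * h⁻¹) = t g * t h) (c : G) (hc2 : c * c = 1)
    (hχc : χ c = -1) (𝒪 : Subring K) (ht : ∀ g, t g ∈ 𝒪) :
    ∃ (ρ : G →* Matrix (Fin 2) (Fin 2) K) (δ : K), δ ≠ 0 ∧ δ ∈ 𝒪 ∧
      (∀ g, (ρ g).trace = t g) ∧ (∀ g, (ρ g).det = (χ g : K)) ∧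
      (∀ g i j, δ * ρ g i j ∈ 𝒪) ∧
      ∀ I : AddSubgroup K, (∀ x ∈ 𝒪, ∀ y ∈ I, x * y ∈ I) →
        ∀ σ : G, (∀ g, t (g * σ) - t g ∈ I) → ∀ i j, δ * (ρ σ - 1) i j ∈ I := by
  have := tspan_nontrivial h2 t h1
  exact exists_rep (E := Module.End K (tspan t)) h2 (transHom t) χ t
    (transHom_rel χ t h1 hPC) c hc2 hχc 𝒪 ht

/-- the scalar identities, from the pseudo-character identity -/
theorem pkg_of_pc (h2 : (2 : K) ≠ 0) (χ : G →* Kˣ) (t : G → K) (h1 : t 1 = 2)
    (hPC : ∀ g h, t (g * h) + (χ h : K) * t (g * h⁻¹) = t g * t h) (c : G) (hc2 : c * c = 1)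
    (hχc : χ c = -1) : Pkg χ (aa t c) (dd t c) := by
  have := tspan_nontrivial h2 t h1
  have H := split_of_rel (E := Module.End K (tspan t)) h2 (transHom t) χ t
    (transHom_rel χ t h1 hPC) c hc2 hχc
  by_cases he : (2⁻¹ : K) • (1 + transHom t c) = 0
  · obtain ⟨hd, ha, had⟩ := H.symm.char_of_f_zero he
    exact pkg_of_char ha hd (fun g => by rw [mul_comm]; exact had g)
  · by_cases hf : (2⁻¹ : K) • (1 - transHom t c) = 0
    · obtain ⟨ha, hd, had⟩ := H.char_of_f_zero hf
      exact pkg_of_char ha hd had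
    · exact H.pkg_of_ne he hf

theorem pc_c (h2 : (2 : K) ≠ 0) (χ : G →* Kˣ) (t : G → K) (h1 : t 1 = 2)
    (hPC : ∀ g h, t (g * h) + (χ h : K) * t (g * h⁻¹) = t g * t h) (c : G) (hc2 : c * c = 1)
    (hχc : χ c = -1) : t c = 0 := by
  have hcinv : c⁻¹ = c := inv_eq_of_mul_eq_one_right hc2
  have := pc_inv χ t h1 hPC c
  rw [hcinv, hχc] at this
  have h3 : (2 : K) * t c = 0 := by
    have e : (((-1 : Kˣ) : Kˣ) : K) = -1 := by simp
    rw [e] at this
    linear_combination -this
  exact (mul_eq_zero.mp h3).resolve_left h2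

/-- **PSR, pseudo-character form, with the explicit entries**:
`a g = (t g + t (c g)) / 2`, `d g = (t g - t (c g)) / 2`, `x g h = a (g h) - a g · a h`. -/
theorem exists_rep_entries (h2 : (2 : K) ≠ 0) (χ : G →* Kˣ) (t : G → K) (h1 : t 1 = 2)
    (hPC : ∀ g h, t (g * h) + (χ h : K) * t (g * h⁻¹) = t g * t h) (c : G) (hc2 : c * c = 1)
    (hχc : χ c = -1) :
    ∃ (ρ : G →* Matrix (Fin 2) (Fin 2) K) (g₀ h₀ : G) (u : K),
      (∀ g, (ρ g).trace = t g) ∧ (∀ g, (ρ g).det = (χ g : K)) ∧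
      (u = 1 ∨ u * xx (aa t c) g₀ h₀ = 1) ∧
      ∀ g, ρ g = !![aa t c g, u * xx (aa t c) g h₀; xx (aa t c) g₀ g, dd t c g] :=
  entries_of_pkg h2 χ t c h1 (pc_c h2 χ t h1 hPC c hc2 hχc) (pkg_of_pc h2 χ t h1 hPC c hc2 hχc)

end PC

end Fermat.Agent.S30.PseudoRep
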