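/-
S30 (wave 9c): the top assembly.  From the modular input `DataStmt` and the two algebra leaves
`PseudoRepStmt`, `LatticeRepStmt` to the frozen statement (with `𝒪'' = 𝒪'`).
-/
import Fermat.Agent.S30.Iface

set_option autoImplicit false

noncomputable section

open Polynomial

namespace Fermat.Agent.S30.Top

/-- The frozen statement of S30. -/
def S30Stmt : Prop :=
    ∀ (p : ℕ) [Fact p.Prime] (N : ℕ) [NeZero N] (S : Finset ℕ)
      (_hpS : p ∈ S) (_hNS : ∀ q : ℕ, q.Prime → q ∣ N → q ∈ S)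
      (𝒪' : Type) [CommRing 𝒪'] [IsDomain 𝒪'] [IsDiscreteValuationRing 𝒪']
      [IsAdicComplete (IsLocalRing.maximalIdeal 𝒪') 𝒪'] [Finite (IsLocalRing.ResidueField 𝒪')]
      [CharZero 𝒪'] (_hp𝒪' : (p : 𝒪') ∈ IsLocalRing.maximalIdeal 𝒪')
      (χ : CuspForm.heckeAlgebra N 2 (↑S : Set ℕ) →+* 𝒪'),
      ∃ (𝒪'' : Type) (_ : CommRing 𝒪'') (_ : IsDomain 𝒪'') (_ : IsDiscreteValuationRing 𝒪'')
        (_ : IsAdicComplete (IsLocalRing.maximalIdeal 𝒪'') 𝒪'')
        (_ : Finite (IsLocalRing.ResidueField 𝒪'')) (_ : CharZero 𝒪'')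
        (_ : Algebra 𝒪' 𝒪'') (_ : Module.Finite 𝒪' 𝒪'') (_ : IsLocalHom (algebraMap 𝒪' 𝒪'')),
      Function.Injective (algebraMap 𝒪' 𝒪'') ∧
      ∃ ρ : GaloisRepAdic 𝒪'',
        (∀ (ℓ : ℕ) (hℓ : ℓ.Prime) (hℓN : ¬ ℓ ∣ N) (hℓS : ℓ ∉ (↑S : Set ℕ)),
          ∀ A : ValuationSubring (AlgebraicClosure ℚ), A.LiesOverPrime ℓ →
            ∀ σ : AlgebraicClosure ℚ ≃ₐ[ℚ] AlgebraicClosure ℚ, A.IsFrobeniusAt σ ℓ →
              LinearMap.charpoly (ρ.ρ σ) =
                X ^ 2 - C (algebraMap 𝒪' 𝒪'' (χ (CuspForm.heckeAlgebra.T hℓ hℓN hℓS))) * X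
                  + C ((ℓ : 𝒪''))) ∧
        (∀ q : ℕ, q.Prime → ¬ q ∣ N → q ≠ p → ρ.IsUnramifiedAt q)

/-- **Top assembly of S30.** -/
theorem result_of_iface (hD : DataStmt) (hP : PseudoRepStmt) (hL : LatticeRepStmt) : S30Stmt := by
  intro p _ N _ S hpS hNS R _ _ _ _ _ _ hpR χH
  obtain ⟨M, _, _, r, χ, t, c, hfaith, hrel, hc, hχc, hfrob, hcont, hinert⟩ :=
    hD p N S hpS hNS R hpR χH
  have h2 : (2 : R) ≠ 0 := two_ne_zero
  obtain ⟨ρ, δ, hδ, htr, hdet, hint, hrig⟩ :=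
    hP R (FractionRing R) h2 _ M r χ t c hfaith hrel hc hχc
  obtain ⟨V, _, _, _, _, ρ', k, hrank, hchar, hcont', hone⟩ :=
    hL R (FractionRing R) _ ρ δ hδ hint
  have hinj : Function.Injective (algebraMap R (FractionRing R)) :=
    IsFractionRing.injective R (FractionRing R)
  let ρA : GaloisRepAdic R :=
    { V := V
      finrank_eq := hrank
      ρ := ρ'
      isAdicContinuous := by
        intro n
        obtain ⟨L, hLfin, hLfix⟩ := hcont (n + k)
        exact ⟨L, hLfin, fun σ hσ v => hcont' n σ (hrig _ σ (hLfix σ hσ)) v⟩ }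
  refine ⟨R, inferInstance, inferInstance, inferInstance, inferInstance, inferInstance,
    inferInstance, Algebra.id R, Module.Finite.self R, ⟨fun a ha => ha⟩, Function.injective_id,
    ρA, ?_, ?_⟩
  · intro ℓ hℓ hℓN hℓS A hA σ hσ
    obtain ⟨ht, hχ⟩ := hfrob ℓ hℓ hℓN hℓS A hA σ hσ
    show LinearMap.charpoly (ρ' σ) = _
    apply Polynomial.map_injective (algebraMap R (FractionRing R)) hinj
    rw [hchar σ, Matrix.charpoly_fin_two, htr, hdet, ht, hχ]
    simp only [Polynomial.map_add, Polynomial.map_sub, Polynomial.map_mul, Polynomial.map_pow,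
      Polynomial.map_X, Polynomial.map_C, Algebra.algebraMap_self, RingHom.id_apply, map_natCast, Polynomial.map_natCast]
  · intro q hq hqN hqp B hB τ hτ
    show ρ' τ = 1
    apply hone
    ext i j
    obtain ⟨a, ha, h⟩ := hrig ⊥ τ (fun g => by
      rw [hinert q hq hqN hqp B hB τ hτ g, sub_self]
      exact Submodule.zero_mem _) i j
    rw [(Submodule.mem_bot R).mp ha, map_zero] at h
    have hδ' : algebraMap R (FractionRing R) δ ≠ 0 := fun h0 =>
      hδ (hinj (h0.trans (map_zero _).symm))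
    have h3 : (ρ τ - 1) i j = 0 := (mul_eq_zero.mp h.symm).resolve_left hδ'
    rw [Matrix.sub_apply, sub_eq_zero] at h3
    exact h3

end Fermat.Agent.S30.Top
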